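import Fermat.Agent.TW.KumEigen.UnitFilt

/-!
# PROGRAM G (S56), block F3-(f2) `KumEigen`: the tame field data (norm language)

`Ω / F` a field extension, `Ω` an ultrametric normed field on which `Gal(Ω/F)` acts by isometries
(for S56: `F = ℚ_[p]`, `Ω = PadicAlgCl p`).  `TameData p F Ω` packages a closed normal subgroup
`H` (the absolute Galois group of the tame field `K₁ = Ω^H = F(ζ, π)`), a primitive
`(p²-1)`-th root of unity `ζ`, a uniformiser `π` with `‖π‖^(p²-1) = ‖p‖`, a primitive `p`-th root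
of unity `ζp`, all in `K₁`, the tame inertia generator `τ` (`τ ζ = ζ`, `τ π = ζ π`) and a
Frobenius lift `φ` (`φ τ φ⁻¹ ≡ τ^p` mod `H`), together with the two facts on `K₁` used by the
eigenspace bookkeeping: the value group of `K₁` is `‖π‖^ℤ` and the residue classes of `K₁` are
`0` and the powers of `ζ` (`e = p²-1`, `f = 2`).
-/

set_option autoImplicit false
set_option linter.unusedSectionVars false

open Polynomial

namespace Fermat.Agent.TW.KumEigen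

/-- The fixed field of a subgroup of `Gal(Ω/F)`, as a subfield of `Ω`. -/
def fixedSubfield {F Ω : Type*} [Field F] [Field Ω] [Algebra F Ω] (H : Subgroup (Ω ≃ₐ[F] Ω)) :
    Subfield Ω where
  carrier := {x | ∀ σ ∈ H, σ x = x}
  mul_mem' hx hy σ hσ := by rw [map_mul, hx σ hσ, hy σ hσ]
  one_mem' σ _ := map_one σ
  add_mem' hx hy σ hσ := by rw [map_add, hx σ hσ, hy σ hσ]
  zero_mem' σ _ := map_zero σ
  neg_mem' hx σ hσ := by rw [map_neg, hx σ hσ]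
  inv_mem' x hx σ hσ := by rw [map_inv₀, hx σ hσ]

theorem mem_fixedSubfield {F Ω : Type*} [Field F] [Field Ω] [Algebra F Ω]
    {H : Subgroup (Ω ≃ₐ[F] Ω)} {x : Ω} : x ∈ fixedSubfield H ↔ ∀ σ ∈ H, σ x = x := Iff.rfl

/-- A normal subgroup has a Galois-stable fixed field. -/
theorem map_mem_fixedSubfield {F Ω : Type*} [Field F] [Field Ω] [Algebra F Ω]
    {H : Subgroup (Ω ≃ₐ[F] Ω)} [hH : H.Normal] (g : Ω ≃ₐ[F] Ω) {x : Ω}
    (hx : x ∈ fixedSubfield H) : g x ∈ fixedSubfield H := by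
  intro σ hσ
  have h1 : g⁻¹ * σ * g ∈ H := by
    have := hH.conj_mem σ hσ g⁻¹
    simpa using this
  have h2 := hx _ h1
  have h3 : σ (g x) = g ((g⁻¹ * σ * g) x) := by
    simp [AlgEquiv.mul_apply]
  rw [h3, h2]

/-- **Tame field data** (see the module docstring). -/
structure TameData (p : ℕ) (F Ω : Type*) [Field F] [NormedField Ω] [Algebra F Ω] where
  /-- the absolute Galois group of `K₁` -/
  H : Subgroup (Ω ≃ₐ[F] Ω)
  normal : H.Normal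
  /-- primitive `(p²-1)`-th root of unity -/
  ζ : Ω
  /-- uniformiser of `K₁` -/
  π : Ω
  /-- primitive `p`-th root of unity -/
  ζp : Ω
  /-- tame inertia generator -/
  τ : Ω ≃ₐ[F] Ω
  /-- Frobenius lift -/
  φ : Ω ≃ₐ[F] Ω
  isom : ∀ (g : Ω ≃ₐ[F] Ω) (x : Ω), ‖g x‖ = ‖x‖
  norm_p_pos : 0 < ‖(p : Ω)‖
  norm_p_lt : ‖(p : Ω)‖ < 1
  hζ : IsPrimitiveRoot ζ (p ^ 2 - 1)
  hπ : ‖π‖ ^ (p ^ 2 - 1) = ‖(p : Ω)‖
  hζp : IsPrimitiveRoot ζp p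
  ζ_mem : ζ ∈ fixedSubfield H
  π_mem : π ∈ fixedSubfield H
  ζp_mem : ζp ∈ fixedSubfield H
  /-- the value group of `K₁` is generated by `‖π‖` -/
  disc : ∀ x ∈ fixedSubfield H, x ≠ 0 → ∃ n : ℤ, ‖x‖ = ‖π‖ ^ n
  /-- the residue classes of `K₁` are `0` and the powers of `ζ` -/
  resid : ∀ x ∈ fixedSubfield H, ‖x‖ ≤ 1 → ‖x‖ < 1 ∨ ∃ i : ℕ, ‖x - ζ ^ i‖ < 1
  τζ : τ ζ = ζ
  τπ : τ π = ζ * π
  φτ : φ * τ * φ⁻¹ * (τ ^ p)⁻¹ ∈ H
  /-- the Galois group acts on the residue field through an abelian group -/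
  comm_inertia : ∀ (g h : Ω ≃ₐ[F] Ω) (x : Ω), ‖x‖ ≤ 1 → ‖(g * h * g⁻¹ * h⁻¹) x - x‖ < 1
  /-- `p`-th roots exist in `Ω` -/
  exists_root : ∀ u : Ω, ∃ β : Ω, β ^ p = u

namespace TameData

variable {p : ℕ} {F Ω : Type*} [Field F] [NormedField Ω] [Algebra F Ω]
  (D : TameData p F Ω)

/-- The tame field `K₁`. -/
def K : Subfield Ω := fixedSubfield D.H

/-- `‖π‖`. -/
noncomputable def ρ : ℝ := ‖D.π‖

omit D in
theorem e_pos (p : ℕ) [hp : Fact p.Prime] : 0 < p ^ 2 - 1 := by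
  have := hp.out.two_le
  have : 4 ≤ p ^ 2 := by nlinarith
  omega

theorem ρ_pos [Fact p.Prime] : 0 < D.ρ := by
  have h := D.hπ
  have h0 := D.norm_p_pos
  rcases (norm_nonneg D.π).eq_or_lt with h1 | h1
  · rw [← h1, zero_pow (e_pos p).ne'] at h
    exact absurd h h0.ne
  · exact h1

theorem ρ_lt_one [Fact p.Prime] : D.ρ < 1 := by
  by_contra hge
  rw [not_lt] at hge
  have h1 : 1 ≤ D.ρ ^ (p ^ 2 - 1) := one_le_pow₀ hge
  have h2 : D.ρ ^ (p ^ 2 - 1) = ‖(p : Ω)‖ := D.hπ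
  have h3 := D.norm_p_lt
  linarith

theorem π_ne_zero [Fact p.Prime] : D.π ≠ 0 := by
  intro h
  have := D.ρ_pos
  rw [ρ, h, norm_zero] at this
  exact lt_irrefl _ this

theorem ρ_pow_le_one [Fact p.Prime] (m : ℕ) : D.ρ ^ m ≤ 1 :=
  pow_le_one₀ D.ρ_pos.le D.ρ_lt_one.le

theorem ρ_pow_anti [Fact p.Prime] {m n : ℕ} (h : m ≤ n) : D.ρ ^ n ≤ D.ρ ^ m :=
  pow_le_pow_of_le_one D.ρ_pos.le D.ρ_lt_one.le h

theorem ρ_pow_lt_one [Fact p.Prime] {m : ℕ} (hm : 1 ≤ m) : D.ρ ^ m < 1 :=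
  pow_lt_one₀ D.ρ_pos.le D.ρ_lt_one (by omega)

/-- discreteness in the usable form -/
theorem disc' [Fact p.Prime] {x : Ω} (hx : x ∈ D.K) {m : ℕ} (h : ‖x‖ < D.ρ ^ m) :
    ‖x‖ ≤ D.ρ ^ (m + 1) := by
  rcases eq_or_ne x 0 with rfl | hx0
  · rw [norm_zero]; exact pow_nonneg D.ρ_pos.le _
  obtain ⟨n, hn⟩ := D.disc x hx hx0
  change ‖x‖ = D.ρ ^ n at hn
  rw [hn] at h ⊢
  have h1 : (m : ℤ) < n := by
    by_contra hle
    rw [not_lt] at hle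
    have : D.ρ ^ (m : ℤ) ≤ D.ρ ^ n := zpow_le_zpow_right_of_le_one₀ D.ρ_pos D.ρ_lt_one.le hle
    rw [zpow_natCast] at this
    exact absurd h (not_lt.mpr this)
  have h2 : ((m + 1 : ℕ) : ℤ) ≤ n := by push_cast; omega
  have := zpow_le_zpow_right_of_le_one₀ D.ρ_pos D.ρ_lt_one.le h2
  rwa [zpow_natCast] at this

theorem norm_ζ [Fact p.Prime] : ‖D.ζ‖ = 1 := by
  have h := D.hζ.pow_eq_one
  have h1 : ‖D.ζ‖ ^ (p ^ 2 - 1) = 1 := by rw [← norm_pow, h, norm_one]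
  exact (pow_eq_one_iff_of_nonneg (norm_nonneg _) (e_pos p).ne').mp h1

theorem norm_ζ_pow [Fact p.Prime] (i : ℕ) : ‖D.ζ ^ i‖ = 1 := by
  rw [norm_pow, D.norm_ζ, one_pow]

theorem map_mem_K (g : Ω ≃ₐ[F] Ω) {x : Ω} (hx : x ∈ D.K) : g x ∈ D.K :=
  haveI := D.normal
  map_mem_fixedSubfield g hx

theorem τ_pow_ζ (i : ℕ) : D.τ (D.ζ ^ i) = D.ζ ^ i := by rw [map_pow, D.τζ]

variable [IsUltrametricDist Ω]

/-- `τ` acts trivially on the residue field of `K₁`. -/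
theorem τ_inert [Fact p.Prime] {y : Ω} (hy : y ∈ D.K) (h1 : ‖y‖ ≤ 1) : ‖D.τ y - y‖ ≤ D.ρ := by
  have hsmall : ∀ y' ∈ D.K, ‖y'‖ < 1 → ‖D.τ y' - y'‖ ≤ D.ρ := by
    intro y' hy' h
    have h2 : ‖y'‖ ≤ D.ρ ^ (0 + 1) := D.disc' hy' (by simpa using h)
    rw [zero_add, pow_one] at h2
    refine (norm_sub_le_max' _ _).trans (max_le ?_ h2)
    rw [D.isom]; exact h2
  rcases D.resid y hy h1 with h | ⟨i, hi⟩
  · exact hsmall y hy h
  · have hK : y - D.ζ ^ i ∈ D.K := D.K.sub_mem hy (D.K.pow_mem D.ζ_mem i)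
    have := hsmall _ hK hi
    rwa [map_sub, D.τ_pow_ζ, sub_sub_sub_cancel_right] at this

/-- **(TAU)**: `τ` acts on `π^m O / π^(m+1) O` by `ζ^m`. -/
theorem tau_level [Fact p.Prime] (m : ℕ) {x : Ω} (hx : x ∈ D.K) (h : ‖x‖ ≤ D.ρ ^ m) :
    ‖D.τ x - D.ζ ^ m * x‖ ≤ D.ρ ^ (m + 1) := by
  have hπ0 := D.π_ne_zero
  set y := x / D.π ^ m with hy
  have hyK : y ∈ D.K := D.K.div_mem hx (D.K.pow_mem D.π_mem m)
  have hy1 : ‖y‖ ≤ 1 := by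
    rw [hy, norm_div, norm_pow]
    exact div_le_one_of_le₀ h (pow_nonneg D.ρ_pos.le _)
  have hxy : x = D.π ^ m * y := by rw [hy]; field_simp
  have h1 : D.τ x - D.ζ ^ m * x = D.ζ ^ m * D.π ^ m * (D.τ y - y) := by
    rw [hxy, map_mul, map_pow, D.τπ]
    ring
  rw [h1, norm_mul, norm_mul, D.norm_ζ_pow, one_mul, norm_pow, pow_succ]
  exact mul_le_mul_of_nonneg_left (D.τ_inert hyK hy1) (pow_nonneg D.ρ_pos.le _)

/-- **Polynomial step.** If `‖Q(ζ^m)‖ < 1` then `Q(τ)` maps the units of `K₁` of level `m ≥ 1`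
to units of level `m + 1`. -/
theorem poly_step [Fact p.Prime] {m : ℕ} (hm : 1 ≤ m) (Q : ℤ[X])
    (hQ : ‖aeval (D.ζ ^ m) Q‖ < 1) {u : Ωˣ} (huK : (u : Ω) ∈ D.K)
    (hu : ‖(u : Ω) - 1‖ ≤ D.ρ ^ m) :
    ((polyAct (D.τ : Ω →+* Ω) Q u : Ωˣ) : Ω) ∈ D.K ∧
      ‖((polyAct (D.τ : Ω →+* Ω) Q u : Ωˣ) : Ω) - 1‖ ≤ D.ρ ^ (m + 1) := by
  have hrr : D.ρ ^ m * D.ρ ^ m ≤ D.ρ ^ (m + 1) := by
    rw [← pow_add]; exact D.ρ_pow_anti (by omega)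
  obtain ⟨h1, h2, h3⟩ := polyAct_lin D.K (D.τ : Ω →+* Ω) (fun x => D.isom D.τ x)
    (fun x hx => D.map_mem_K D.τ hx) (z := D.ζ ^ m) (D.norm_ζ_pow m).le (D.ρ_pow_lt_one hm)
    (D.ρ_pow_anti (Nat.le_succ m)) hrr (fun x hx h => D.tau_level m hx h) Q u huK hu
  refine ⟨h1, ?_⟩
  have hK1 : ((polyAct (D.τ : Ω →+* Ω) Q u : Ωˣ) : Ω) - 1 ∈ D.K := D.K.sub_mem h1 D.K.one_mem
  apply D.disc' hK1
  have h4 : ‖aeval (D.ζ ^ m) Q * ((u : Ω) - 1)‖ < D.ρ ^ m := by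
    rw [norm_mul]
    rcases (norm_nonneg ((u : Ω) - 1)).eq_or_lt with h0 | h0
    · rw [← h0, mul_zero]; exact pow_pos D.ρ_pos _
    · calc ‖aeval (D.ζ ^ m) Q‖ * ‖(u : Ω) - 1‖ < 1 * ‖(u : Ω) - 1‖ :=
            mul_lt_mul_of_pos_right hQ h0
        _ = ‖(u : Ω) - 1‖ := one_mul _
        _ ≤ D.ρ ^ m := hu
  have h5 : D.ρ ^ (m + 1) < D.ρ ^ m := by
    rw [pow_succ]
    calc D.ρ ^ m * D.ρ < D.ρ ^ m * 1 :=
          mul_lt_mul_of_pos_left D.ρ_lt_one (pow_pos D.ρ_pos _)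
      _ = D.ρ ^ m := mul_one _
  have h6 : ((polyAct (D.τ : Ω →+* Ω) Q u : Ωˣ) : Ω) - 1 =
      ((((polyAct (D.τ : Ω →+* Ω) Q u : Ωˣ) : Ω) - 1) - aeval (D.ζ ^ m) Q * ((u : Ω) - 1)) +
        aeval (D.ζ ^ m) Q * ((u : Ω) - 1) := by ring
  rw [h6]
  exact (IsUltrametricDist.norm_add_le_max _ _).trans_lt (max_lt (h2.trans_lt h5) h4)

end TameData

end Fermat.Agent.TW.KumEigen
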