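import Fermat.Agent.TW.KumEigen.Data

/-!
# PROGRAM G (S56), block F3-(f2) `KumEigen`: the `Allowed` condition (literal contract)

`D : TameData p F Ω`, `G = Gal(Ω/F)`, `H = D.H = Gal(Ω/K₁)`.  For a function `ξ : G → M`
(a `1`-cocycle in the applications) and an additive functional `lam : M →+ ZMod p`, a *radical*
of `(ξ, lam)` is a nonzero `β : Ω` with `σ β = ζp ^ (lam (ξ σ)).val * β` for all `σ ∈ H`
(same shape as helper14's `IsKummerRoot`).  `ξ` is **allowed** if the Kummer radical `β ^ p` of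
every `lam ∘ ξ|H` lies in `(1 + p O_{K₁}) · K₁^{× p}`, in norm language:
`∃ c ∈ K₁, c ≠ 0 ∧ ‖β ^ p / c ^ p - 1‖ ≤ ‖p‖`.
-/

set_option autoImplicit false

namespace Fermat.Agent.TW.KumEigen

variable {p : ℕ} {F Ω : Type*} [Field F] [NormedField Ω] [Algebra F Ω]

/-- `β` is a radical of `(ξ, lam)` over `K₁ = Ω^H`. -/
def IsRadical (D : TameData p F Ω) {M : Type*} [AddCommGroup M] (ξ : (Ω ≃ₐ[F] Ω) → M)
    (lam : M →+ ZMod p) (β : Ω) : Prop :=
  β ≠ 0 ∧ ∀ σ ∈ D.H, σ β = D.ζp ^ (lam (ξ σ)).val * β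

/-- **The allowed condition** (the output of F3-(e)+(f1) for a flat class, the input of the
count (f2)). -/
def Allowed (D : TameData p F Ω) {M : Type*} [AddCommGroup M] (ξ : (Ω ≃ₐ[F] Ω) → M) : Prop :=
  ∀ (lam : M →+ ZMod p) (β : Ω), IsRadical D ξ lam β →
    ∃ c ∈ D.K, c ≠ 0 ∧ ‖β ^ p / c ^ p - 1‖ ≤ ‖(p : Ω)‖

end Fermat.Agent.TW.KumEigen
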