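import Fermat.Agent.TW.KumEigen.Good

/-!
# PROGRAM G (S56), block F3-(f2) `KumEigen`, sub-target [T4]: operations on good cocycles

`IsGood D act ξ` is stable under equivariant additive maps (`IsGood.comp`), sums (`IsGood.add`),
zero (`IsGood.zero`) and negation (`IsGood.neg`); in particular under scalar multiplication by a
ring acting equivariantly (`IsGood.smul`), so that the good cocycles form a submodule.
-/

set_option autoImplicit false
set_option linter.unusedSectionVars false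

namespace Fermat.Agent.TW.KumEigen

variable {p : ℕ} [hp : Fact p.Prime] {F Ω : Type*} [Field F] [NormedField Ω] [Algebra F Ω]
  [IsUltrametricDist Ω] (D : TameData p F Ω) {M : Type*} [AddCommGroup M]

/-- Radicals of `(P ∘ ξ, lam)` are the radicals of `(ξ, lam ∘ P)`. -/
theorem isRadical_comp_iff {M' : Type*} [AddCommGroup M'] (P : M →+ M')
    (ξ : (Ω ≃ₐ[F] Ω) → M) (lam : M' →+ ZMod p) (β : Ω) :
    IsRadical D (fun g => P (ξ g)) lam β ↔ IsRadical D ξ (lam.comp P) β := Iff.rfl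

theorem mem_radRel_comp_iff {M' : Type*} [AddCommGroup M'] (P : M →+ M')
    (ξ : (Ω ≃ₐ[F] Ω) → M) (lam : M' →+ ZMod p) (b : Additive Ωˣ) :
    (lam, b) ∈ radRel D (fun g => P (ξ g)) ↔ (lam.comp P, b) ∈ radRel D ξ := Iff.rfl

/-- **Good cocycles are stable under equivariant additive maps.** -/
theorem IsGood.comp {M' : Type*} [AddCommGroup M'] (act : (Ω ≃ₐ[F] Ω) →* Module.End ℤ M)
    (act' : (Ω ≃ₐ[F] Ω) →* Module.End ℤ M') (P : M →+ M')
    (hP : ∀ g x, P (act g x) = act' g (P x)) {ξ : (Ω ≃ₐ[F] Ω) → M} (hξ : IsGood D act ξ) :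
    IsGood D act' (fun g => P (ξ g)) := by
  obtain ⟨h1, h2, h3⟩ := hξ
  refine ⟨fun g h => ?_, fun lam => ?_, fun lam β hβ => ?_⟩
  · change P (ξ (g * h)) = act' g (P (ξ h)) + P (ξ g)
    rw [h1 g h, map_add, hP]
  · obtain ⟨b, hb⟩ := h2 (lam.comp P)
    exact ⟨b, (mem_radRel_comp_iff D P ξ lam b).mpr hb⟩
  · exact h3 (lam.comp P) β ((isRadical_comp_iff D P ξ lam β).mp hβ)

/-- The zero cocycle is good. -/
theorem IsGood.zero (act : (Ω ≃ₐ[F] Ω) →* Module.End ℤ M) :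
    IsGood D act (0 : (Ω ≃ₐ[F] Ω) → M) := by
  refine ⟨fun g h => ?_, fun lam => ⟨0, ?_⟩, fun lam β hβ => ?_⟩
  · simp
  · rw [mem_radRel]
    intro σ _
    simp
  · obtain ⟨hβ0, hβ⟩ := hβ
    refine ⟨β, fun σ hσ => ?_, hβ0, ?_⟩
    · have := hβ σ hσ
      simpa using this
    · have hβp : β ^ p ≠ 0 := pow_ne_zero _ hβ0
      rw [div_self hβp, sub_self, norm_zero]
      exact norm_nonneg _

/-- Negation of a good cocycle is good. -/
theorem IsGood.neg (act : (Ω ≃ₐ[F] Ω) →* Module.End ℤ M) {ξ : (Ω ≃ₐ[F] Ω) → M}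
    (hξ : IsGood D act ξ) : IsGood D act (-ξ) := by
  have h := IsGood.comp D act act (-AddMonoidHom.id M) (fun g x => by simp) hξ
  have e : (fun g => (-AddMonoidHom.id M) (ξ g)) = -ξ := by
    funext g
    simp
  rwa [e] at h

/-- Scalar multiples of a good cocycle are good (for scalars commuting with the action). -/
theorem IsGood.smul {R : Type*} [Monoid R] [DistribMulAction R M]
    (act : (Ω ≃ₐ[F] Ω) →* Module.End ℤ M)
    (hact : ∀ g (a : R) (x : M), act g (a • x) = a • act g x) (a : R)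
    {ξ : (Ω ≃ₐ[F] Ω) → M} (hξ : IsGood D act ξ) : IsGood D act (a • ξ) := by
  have h := IsGood.comp D act act (DistribSMul.toAddMonoidHom M a)
    (fun g x => by simp [hact]) hξ
  have e : (fun g => (DistribSMul.toAddMonoidHom M a) (ξ g)) = a • ξ := by
    funext g
    simp
  rwa [e] at h

/-- A product of two elements `≡ 1 mod p` is `≡ 1 mod p`. -/
theorem norm_mul_sub_one_le (hp1 : ‖(p : Ω)‖ < 1) {u v : Ω} (hu : ‖u - 1‖ ≤ ‖(p : Ω)‖)
    (hv : ‖v - 1‖ ≤ ‖(p : Ω)‖) : ‖u * v - 1‖ ≤ ‖(p : Ω)‖ := by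
  have hp0 : 0 ≤ ‖(p : Ω)‖ := norm_nonneg _
  have e : u * v - 1 = (u - 1) * (v - 1) + ((u - 1) + (v - 1)) := by ring
  rw [e]
  refine (IsUltrametricDist.norm_add_le_max _ _).trans (max_le ?_ ?_)
  · rw [norm_mul]
    calc ‖u - 1‖ * ‖v - 1‖ ≤ ‖(p : Ω)‖ * 1 :=
          mul_le_mul hu (hv.trans hp1.le) (norm_nonneg _) hp0
      _ = ‖(p : Ω)‖ := mul_one _
  · exact (IsUltrametricDist.norm_add_le_max _ _).trans (max_le hu hv)

/-- The sum of two good cocycles is good. -/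
theorem IsGood.add (act : (Ω ≃ₐ[F] Ω) →* Module.End ℤ M) {ξ ξ' : (Ω ≃ₐ[F] Ω) → M}
    (hξ : IsGood D act ξ) (hξ' : IsGood D act ξ') : IsGood D act (ξ + ξ') := by
  obtain ⟨h1, h2, h3⟩ := hξ
  obtain ⟨h1', h2', h3'⟩ := hξ'
  refine ⟨fun g h => ?_, fun lam => ?_, fun lam β hβ => ?_⟩
  · simp only [Pi.add_apply, h1 g h, h1' g h, map_add]
    abel
  · obtain ⟨b, hb⟩ := h2 lam
    obtain ⟨b', hb'⟩ := h2' lam
    refine ⟨b + b', ?_⟩
    rw [mem_radRel] at hb hb' ⊢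
    intro σ hσ
    simp only [Pi.add_apply, map_add, hb σ hσ, hb' σ hσ]
    abel
  · -- `β` radical of `(ξ + ξ', lam)`; pick a radical `β₁` of `(ξ, lam)`; `β / β₁` is one of `ξ'`
    obtain ⟨hβ0, -⟩ := id hβ
    obtain ⟨b₁, hb₁⟩ := h2 lam
    set b : Additive Ωˣ := Additive.ofMul (Units.mk0 β hβ0) with hb
    have hbβ : ((b.toMul : Ωˣ) : Ω) = β := rfl
    have hbrel : (lam, b) ∈ radRel D (ξ + ξ') := by
      rw [mem_radRel_iff_isRadical, hbβ]
      exact hβ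
    have hb₂ : (lam, b - b₁) ∈ radRel D ξ' := by
      rw [mem_radRel] at hb₁ hbrel ⊢
      intro σ hσ
      have e1 := hb₁ σ hσ
      have e2 := hbrel σ hσ
      simp only [Pi.add_apply, map_add] at e2
      simp only [map_sub, e1, e2]
      abel
    have hr₁ := (mem_radRel_iff_isRadical D ξ lam b₁).mp hb₁
    have hr₂ := (mem_radRel_iff_isRadical D ξ' lam (b - b₁)).mp hb₂
    obtain ⟨c₁, hc₁K, hc₁0, hc₁⟩ := h3 lam _ hr₁
    obtain ⟨c₂, hc₂K, hc₂0, hc₂⟩ := h3' lam _ hr₂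
    refine ⟨c₁ * c₂, D.K.mul_mem hc₁K hc₂K, mul_ne_zero hc₁0 hc₂0, ?_⟩
    set β₁ : Ω := ((b₁.toMul : Ωˣ) : Ω) with hβ₁
    have hβ₁0 : β₁ ≠ 0 := (b₁.toMul).ne_zero
    have hβ₂ : (((b - b₁).toMul : Ωˣ) : Ω) = β / β₁ := by
      rw [toMul_sub, Units.val_div_eq_div_val, hbβ]
    rw [hβ₂] at hc₂
    have e : β ^ p / (c₁ * c₂) ^ p = (β₁ ^ p / c₁ ^ p) * ((β / β₁) ^ p / c₂ ^ p) := by
      have := pow_ne_zero p hβ₁0
      have := pow_ne_zero p hc₁0
      have := pow_ne_zero p hc₂0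
      rw [mul_pow, div_pow]
      field_simp
    rw [e]
    exact norm_mul_sub_one_le D.norm_p_lt hc₁ hc₂

end Fermat.Agent.TW.KumEigen
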