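import Fermat.Agent.TW.KumEigen.CountPre

/-!
# PROGRAM G (S56), block F3-(f2) `KumEigen`: the scalar cases (Theorems Eta and Psi-B)

`E = act τ` acts on `M` (killed by `p`, `H` acting trivially) as a scalar `±1`:
* `res_eq_zero_of_tau_one` (Eta): `E = 1`, `M^G = 0`, `p ≠ 2`: every good cocycle vanishes on `H`;
* `res_eq_zero_of_tau_neg_one` (Psi-B): `E = -1`, `p ≥ 5`: every good cocycle vanishes on `H`.

Both run the scalar step `hasLev_step_scalar` from level `p² - 1` (`Allowed`) upwards: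
`hasLev_steps_scalar`.
-/

set_option autoImplicit false
set_option linter.unusedSectionVars false
set_option linter.unusedVariables false

open Polynomial

namespace Fermat.Agent.TW.KumEigen

variable {p : ℕ} [hp : Fact p.Prime] {F Ω : Type*} [Field F] [NormedField Ω] [Algebra F Ω]
  [IsUltrametricDist Ω] (D : TameData p F Ω) {M : Type*} [AddCommGroup M]

/-- `‖ζ^m - c‖ = 1` when `c ≡ ζ^s` and `m ≢ s` modulo `p² - 1`. -/
theorem norm_ζ_pow_sub_intCast {c : ℤ} {s : ℕ} (hcs : ‖(c : Ω) - D.ζ ^ s‖ < 1) {m : ℕ}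
    (hms : ¬ (p ^ 2 - 1 : ℤ) ∣ (m : ℤ) - s) : ‖D.ζ ^ m - (c : Ω)‖ = 1 := by
  have h1 : ‖D.ζ ^ m - D.ζ ^ s‖ = 1 := D.norm_ζ_pow_sub hms
  have h2 : D.ζ ^ m - (c : Ω) = (D.ζ ^ m - D.ζ ^ s) + (D.ζ ^ s - (c : Ω)) := by ring
  have h3 : ‖D.ζ ^ s - (c : Ω)‖ < 1 := by rwa [norm_sub_rev]
  rw [h2, IsUltrametricDist.norm_add_eq_max_of_norm_ne_norm (by rw [h1]; exact h3.ne'), h1]
  exact max_eq_left h3.le

/-- Iterated scalar steps. -/
theorem hasLev_steps_scalar (ξ : (Ω ≃ₐ[F] Ω) → M) (hpM : ∀ x : M, p • x = 0) {c : ℤ}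
    (hc : ¬ (p : ℤ) ∣ c)
    (hstab : ∀ x ∈ radRel D ξ,
      (precomp (p := p) (c • (1 : Module.End ℤ M)) x.1, unitEnd (D.τ : Ω →+* Ω) x.2) ∈ radRel D ξ)
    {s : ℕ} (hcs : ‖(c : Ω) - D.ζ ^ s‖ < 1) (n : ℕ)
    (hn : ∀ i < n, ¬ (p ^ 2 - 1 : ℤ) ∣ ((p ^ 2 - 1 + i : ℕ) : ℤ) - s)
    (h0 : ∀ lam, HasLev D ξ (p ^ 2 - 1) lam) : ∀ lam, HasLev D ξ (p ^ 2 - 1 + n) lam := by
  induction n with
  | zero => simpa using h0
  | succ n ih =>
    have ih' := ih (fun i hi => hn i (Nat.lt_succ_of_lt hi))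
    have hm1 : 1 ≤ p ^ 2 - 1 + n := le_trans (TameData.e_pos p) (Nat.le_add_right _ _)
    exact hasLev_step_scalar D ξ hpM hc hstab hm1
      (norm_ζ_pow_sub_intCast D hcs (hn n (Nat.lt_succ_self n))) ih'

/-- `act τ⁻¹ = 1` if `act τ = 1`. -/
theorem act_inv_eq_one (act : (Ω ≃ₐ[F] Ω) →* Module.End ℤ M) {g : Ω ≃ₐ[F] Ω} (h : act g = 1) :
    act g⁻¹ = 1 := by
  have h1 : act g⁻¹ * act g = 1 := by rw [← map_mul, inv_mul_cancel, map_one]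
  rwa [h, mul_one] at h1

/-- `act τ⁻¹ = -1` if `act τ = -1`. -/
theorem act_inv_eq_neg_one (act : (Ω ≃ₐ[F] Ω) →* Module.End ℤ M) {g : Ω ≃ₐ[F] Ω}
    (h : act g = -1) : act g⁻¹ = -1 := by
  have h1 : act g⁻¹ * act g = 1 := by rw [← map_mul, inv_mul_cancel, map_one]
  rw [h, mul_neg, mul_one] at h1
  exact neg_eq_iff_eq_neg.mp h1

/-- **Theorem Eta**: `τ` acts trivially, `M^G = 0`. -/
theorem res_eq_zero_of_tau_one (hp2 : p ≠ 2) (act : (Ω ≃ₐ[F] Ω) →* Module.End ℤ M)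
    (hH : ∀ σ ∈ D.H, act σ = 1) (hpM : ∀ x : M, p • x = 0) (hτ : act D.τ = 1)
    (hinv : ∀ m : M, (∀ g, act g m = m) → m = 0) {ξ : (Ω ≃ₐ[F] Ω) → M} (hξ : IsGood D act ξ) :
    ∀ σ ∈ D.H, ξ σ = 0 := by
  obtain ⟨g, hg, hgp⟩ := exists_zetap_exp D D.τ
  have hp3 : 3 ≤ p := by
    have := hp.out.two_le
    omega
  have hgpZ : ¬ (p : ℤ) ∣ (g : ℤ) := fun h => hgp (Int.natCast_dvd_natCast.mp h)
  have hstab0 := radRel_stable D ξ act hH hξ.1 D.τ hg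
  rw [act_inv_eq_one act hτ] at hstab0
  have h0 : ‖((g : ℤ) : Ω) - D.ζ ^ (p + 1)‖ < 1 := by
    rw [Int.cast_natCast]
    exact D.omega_tau hg
  have hstart : ∀ lam, HasLev D ξ (p ^ 2 - 1) lam :=
    fun lam => hasLev_of_allowed D ξ hξ.2.2 (hξ.2.1 lam)
  have htop : ∀ lam, HasLev D ξ (TameData.top p) lam := by
    rw [TameData.top_eq]
    refine hasLev_steps_scalar D ξ hpM hgpZ hstab0 h0 (p + 1) ?_ hstart
    intro i hi hdvd
    obtain ⟨k, hk⟩ := hdvd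
    have hE : ((p ^ 2 - 1 + i : ℕ) : ℤ) = ((p : ℤ) ^ 2 - 1) + i := by
      rw [Nat.cast_add, Nat.cast_sub (Nat.one_le_pow _ _ hp.out.pos)]
      push_cast
      ring
    rw [hE] at hk
    push_cast at hk
    have hp3' : (3 : ℤ) ≤ p := by exact_mod_cast hp3
    have hi' : (i : ℤ) < p + 1 := by exact_mod_cast hi
    have hi0 : (0 : ℤ) ≤ i := Int.natCast_nonneg i
    -- `E * (k - 1) = i - (p + 1) ∈ (-E, 0)`
    have hEgt : (p : ℤ) + 1 < (p : ℤ) ^ 2 - 1 := by nlinarith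
    have hkey : ((p : ℤ) ^ 2 - 1) * (k - 1) = i - (p + 1) := by linarith
    rcases le_or_gt 1 k with hk1 | hk1
    · have : 0 ≤ ((p : ℤ) ^ 2 - 1) * (k - 1) := by nlinarith
      linarith
    · have : ((p : ℤ) ^ 2 - 1) * (k - 1) ≤ -((p : ℤ) ^ 2 - 1) := by nlinarith
      linarith
  have hI : ∀ σ ∈ D.H, IsInert σ → ξ σ = 0 := by
    intro σ hσ hi
    by_contra hne
    obtain ⟨lam, hlam⟩ := exists_addMonoidHom_zmod_ne_zero hpM hne
    exact hlam (eq_zero_of_hasLev_top_of_inert D ξ (htop lam) σ hσ hi)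
  exact cocycle_res_eq_zero_of_inertia D act ξ hH hξ.1 hinv hI

/-- `ζ ^ ((p² - 1) / 2) = -1` for `p` odd. -/
theorem ζ_pow_half (hp2 : p ≠ 2) : D.ζ ^ ((p ^ 2 - 1) / 2) = -1 := by
  have hodd : p % 2 = 1 := (hp.out.eq_two_or_odd).resolve_left hp2
  have hpos := TameData.e_pos p
  have h2 : 2 ∣ p ^ 2 - 1 := by
    rw [TameData.e_eq]
    exact Dvd.dvd.mul_right (by omega) _
  obtain ⟨e2, he2⟩ := h2
  have hdiv : (p ^ 2 - 1) / 2 = e2 := by rw [he2]; exact Nat.mul_div_cancel_left _ (by norm_num)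
  rw [hdiv]
  have hsq : D.ζ ^ e2 * D.ζ ^ e2 = 1 := by
    rw [← pow_add, ← two_mul, ← he2, D.hζ.pow_eq_one]
  have hne : D.ζ ^ e2 ≠ 1 := D.hζ.pow_ne_one_of_pos_of_lt (by omega) (by omega)
  rcases mul_self_eq_one_iff.mp hsq with h | h
  · exact absurd h hne
  · exact h

/-- **Theorem Psi-B**: `τ` acts by `-1`, `p ≥ 5`. -/
theorem res_eq_zero_of_tau_neg_one (act : (Ω ≃ₐ[F] Ω) →* Module.End ℤ M)
    (hH : ∀ σ ∈ D.H, act σ = 1) (hpM : ∀ x : M, p • x = 0) (hτ : act D.τ = -1) (hp5 : 5 ≤ p)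
    {ξ : (Ω ≃ₐ[F] Ω) → M} (hξ : IsGood D act ξ) : ∀ σ ∈ D.H, ξ σ = 0 := by
  obtain ⟨g, hg, hgp⟩ := exists_zetap_exp D D.τ
  have hp2 : p ≠ 2 := by omega
  have hgpZ : ¬ (p : ℤ) ∣ -(g : ℤ) := fun h =>
    hgp (Int.natCast_dvd_natCast.mp ((dvd_neg).mp h))
  have hstab0 := radRel_stable D ξ act hH hξ.1 D.τ hg
  rw [act_inv_eq_neg_one act hτ] at hstab0
  have hsm : (g : ℤ) • (-1 : Module.End ℤ M) = (-(g : ℤ)) • (1 : Module.End ℤ M) := by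
    rw [neg_smul, smul_neg]
  rw [hsm] at hstab0
  -- `-g ≡ ζ ^ ((p² - 1) / 2 + (p + 1))`
  have h0 : ‖((-(g : ℤ) : ℤ) : Ω) - D.ζ ^ ((p ^ 2 - 1) / 2 + (p + 1))‖ < 1 := by
    rw [pow_add, ζ_pow_half D hp2]
    have : ((-(g : ℤ) : ℤ) : Ω) - -1 * D.ζ ^ (p + 1) = -((g : Ω) - D.ζ ^ (p + 1)) := by
      push_cast; ring
    rw [this, norm_neg]
    exact D.omega_tau hg
  have hstart : ∀ lam, HasLev D ξ (p ^ 2 - 1) lam :=
    fun lam => hasLev_of_allowed D ξ hξ.2.2 (hξ.2.1 lam)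
  have htop1 : ∀ lam, HasLev D ξ (TameData.top p + 1) lam := by
    have htopeq : TameData.top p + 1 = p ^ 2 - 1 + (p + 2) := by rw [TameData.top_eq]; omega
    rw [htopeq]
    refine hasLev_steps_scalar D ξ hpM hgpZ hstab0 h0 (p + 2) ?_ hstart
    intro i hi hdvd
    obtain ⟨k, hk⟩ := hdvd
    have h2 : 2 ∣ p ^ 2 - 1 := by
      have hodd : p % 2 = 1 := (hp.out.eq_two_or_odd).resolve_left hp2
      rw [TameData.e_eq]
      exact Dvd.dvd.mul_right (by omega) _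
    obtain ⟨e2, he2⟩ := h2
    have hdiv : (p ^ 2 - 1) / 2 = e2 := by
      rw [he2]; exact Nat.mul_div_cancel_left _ (by norm_num)
    rw [hdiv] at hk
    have hEn : ((p ^ 2 - 1 : ℕ) : ℤ) = (p : ℤ) ^ 2 - 1 := by
      rw [Nat.cast_sub (Nat.one_le_pow _ _ hp.out.pos)]
      push_cast
      ring
    have he2' : (p : ℤ) ^ 2 - 1 = 2 * (e2 : ℤ) := by
      rw [← hEn, he2]; push_cast; ring
    have hE : ((p ^ 2 - 1 + i : ℕ) : ℤ) = ((p : ℤ) ^ 2 - 1) + i := by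
      rw [Nat.cast_add, hEn]
    rw [hE] at hk
    push_cast at hk
    have hp5' : (5 : ℤ) ≤ p := by exact_mod_cast hp5
    have hi' : (i : ℤ) < p + 2 := by exact_mod_cast hi
    have hi0 : (0 : ℤ) ≤ i := Int.natCast_nonneg i
    have he2gt : (p : ℤ) + 1 < e2 := by nlinarith
    have hkey : ((p : ℤ) ^ 2 - 1) * (k - 1) = i - (e2 + (p + 1)) := by linarith
    rcases le_or_gt 1 k with hk1 | hk1
    · have : 0 ≤ ((p : ℤ) ^ 2 - 1) * (k - 1) := by nlinarith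
      linarith
    · have : ((p : ℤ) ^ 2 - 1) * (k - 1) ≤ -((p : ℤ) ^ 2 - 1) := by nlinarith
      linarith
  intro σ hσ
  by_contra hne
  obtain ⟨lam, hlam⟩ := exists_addMonoidHom_zmod_ne_zero hpM hne
  exact hlam (eq_zero_of_hasLev_gt_top D ξ (htop1 lam) σ hσ)

end Fermat.Agent.TW.KumEigen
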