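import Fermat.Agent.TW.KumEigen.CountFinal
import Fermat.Agent.TW.KumEigen.ScalarCase
import Fermat.Agent.TW.KumEigen.GoodOps

/-!
# PROGRAM G (S56), block F3-(f2) `KumEigen`: the main theorem

`M = M₀ ⊕ M₁` a finite `k[G]`-module killed by `p`, `H` acting trivially, `τ = 1` on `M₀`,
`M₀^G = 0`, `|M₁| = |k|²`, `τ^((p+1)/2) = -1` on `M₁` and (`τ = -1` on `M₁` or `τ + 1` injective on
`M₁`).  Then any `k`-linear map on a `k`-space `Z` of good cocycles which kills the cocycles
vanishing on `H` has a finite range of dimension `≤ 1`.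
-/

set_option autoImplicit false
set_option linter.unusedSectionVars false
set_option linter.unusedVariables false

namespace Fermat.Agent.TW.KumEigen

variable {p : ℕ} [hp : Fact p.Prime] {F Ω : Type*} [Field F] [NormedField Ω] [Algebra F Ω]
  [IsUltrametricDist Ω] (D : TameData p F Ω) {M : Type*} [AddCommGroup M]

section ActSub

variable {k : Type*} [Ring k] [Module k M] (act : (Ω ≃ₐ[F] Ω) →* Module.End ℤ M)

/-- The action restricted to a stable submodule. -/
def actSub (N : Submodule k M) (hN : ∀ g, ∀ x ∈ N, act g x ∈ N) :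
    (Ω ≃ₐ[F] Ω) →* Module.End ℤ N where
  toFun g :=
    { toFun := fun x => ⟨act g x, hN g x x.2⟩
      map_add' := fun x y => Subtype.ext (by simp)
      map_smul' := fun a x => Subtype.ext (by simp) }
  map_one' := by
    ext x
    simp
  map_mul' g h := by
    ext x
    simp [map_mul]

@[simp] theorem actSub_apply_coe (N : Submodule k M) (hN : ∀ g, ∀ x ∈ N, act g x ∈ N)
    (g : Ω ≃ₐ[F] Ω) (x : N) : ((actSub act N hN g x : N) : M) = act g x := rfl

/-- The projection onto a stable summand along a stable complement is equivariant. -/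
theorem proj_equivariant (M₀ M₁ : Submodule k M) (hc : IsCompl M₀ M₁)
    (h₀s : ∀ g, ∀ x ∈ M₀, act g x ∈ M₀) (h₁s : ∀ g, ∀ x ∈ M₁, act g x ∈ M₁)
    (g : Ω ≃ₐ[F] Ω) (x : M) :
    Submodule.projectionOnto M₀ M₁ hc (act g x) =
      actSub act M₀ h₀s g (Submodule.projectionOnto M₀ M₁ hc x) := by
  set x₀ := Submodule.projectionOnto M₀ M₁ hc x with hx₀
  set x₁ := Submodule.projectionOnto M₁ M₀ hc.symm x with hx₁
  have hx : (x₀ : M) + (x₁ : M) = x := by
    have := Submodule.projection_add_projection_eq_self hc x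
    rwa [Submodule.projection_apply, Submodule.projection_apply] at this
  have h1 : act g x = ((⟨act g x₀, h₀s g x₀ x₀.2⟩ : M₀) : M) + ((⟨act g x₁, h₁s g x₁ x₁.2⟩ : M₁) : M) := by
    rw [← hx, map_add]
  rw [h1, map_add, Submodule.projectionOnto_apply_left,
    Submodule.projectionOnto_apply_right, add_zero]
  rfl

end ActSub

section Tail

/-- The counting tail: a `k`-linear map whose kernel contains a subgroup of index `≤ |k|` has a
finite range of dimension `≤ 1`. -/
theorem finrank_range_le_one_of_index {k : Type*} [Field k] [Finite k] {Z W : Type*}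
    [AddCommGroup Z] [Module k Z] [AddCommGroup W] [Module k W] (f : Z →ₗ[k] W)
    (Z₀ : AddSubgroup Z) (hZ₀ : ∀ z ∈ Z₀, f z = 0) (hidx0 : Z₀.index ≠ 0)
    (hidx : Z₀.index ≤ Nat.card k) :
    Finite (LinearMap.range f) ∧ Module.finrank k (LinearMap.range f) ≤ 1 := by
  have hle : Z₀ ≤ f.toAddMonoidHom.ker := fun z hz => hZ₀ z hz
  have hdvd : f.toAddMonoidHom.ker.index ∣ Z₀.index := AddSubgroup.index_dvd_of_le hle
  rw [AddSubgroup.index_ker] at hdvd
  have hcard : Nat.card (LinearMap.range f) = Nat.card f.toAddMonoidHom.range := rfl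
  have hpos : Nat.card (LinearMap.range f) ≠ 0 := by
    rw [hcard]
    intro h0
    rw [h0, zero_dvd_iff] at hdvd
    exact hidx0 hdvd
  have hfin : Finite (LinearMap.range f) := Nat.finite_of_card_ne_zero hpos
  refine ⟨hfin, ?_⟩
  have hle' : Nat.card (LinearMap.range f) ≤ Nat.card k := by
    rw [hcard]
    exact (Nat.le_of_dvd (Nat.pos_of_ne_zero hidx0) hdvd).trans hidx
  have : Module.Finite k (LinearMap.range f) := Module.Finite.of_finite
  rw [Module.natCard_eq_pow_finrank (K := k) (V := LinearMap.range f)] at hle'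
  have hk : 1 < Nat.card k := Finite.one_lt_card
  by_contra hgt
  rw [not_le] at hgt
  have h2 : Nat.card k ^ 2 ≤ Nat.card k ^ Module.finrank k (LinearMap.range f) :=
    Nat.pow_le_pow_right (by omega) hgt
  have h3 : Nat.card k ^ 2 ≤ Nat.card k := h2.trans hle'
  nlinarith

end Tail

section MainThm

variable {k : Type*} [Field k] [Finite k] [Module k M] [Finite M]

/-- **MAIN** (abstract eigenspace count). -/
theorem finrank_range_le_one (hp2 : p ≠ 2) (hpM : ∀ x : M, p • x = 0)
    (act : (Ω ≃ₐ[F] Ω) →* Module.End ℤ M)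
    (hact : ∀ g (a : k) (x : M), act g (a • x) = a • act g x)
    (hH : ∀ σ ∈ D.H, act σ = 1)
    (M₀ M₁ : Submodule k M) (hc : IsCompl M₀ M₁)
    (h₀s : ∀ g, ∀ x ∈ M₀, act g x ∈ M₀) (h₁s : ∀ g, ∀ x ∈ M₁, act g x ∈ M₁)
    (hτ₀ : ∀ x ∈ M₀, act D.τ x = x)
    (hinv₀ : ∀ x ∈ M₀, (∀ g, act g x = x) → x = 0)
    (hcard₁ : Nat.card M₁ = Nat.card k ^ 2)
    (hτ₁ : ∀ x ∈ M₁, (act D.τ ^ ((p + 1) / 2)) x = -x)
    (hdich : (∀ x ∈ M₁, act D.τ x = -x) ∨ (∀ x ∈ M₁, act D.τ x = -x → x = 0))
    (Z : Submodule k ((Ω ≃ₐ[F] Ω) → M)) (hZ : ∀ ξ ∈ Z, IsGood D act ξ)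
    {W : Type*} [AddCommGroup W] [Module k W] (f : Z →ₗ[k] W)
    (hf : ∀ ξ : Z, (∀ σ ∈ D.H, ξ.1 σ = 0) → f ξ = 0) :
    Finite (LinearMap.range f) ∧ Module.finrank k (LinearMap.range f) ≤ 1 := by
  classical
  have hp2' := hp.out.two_le
  have hk : 1 < Nat.card k := Finite.one_lt_card
  -- the restricted actions and the projections
  set act₀ := actSub act M₀ h₀s with hact₀
  set act₁ := actSub act M₁ h₁s with hact₁
  set P₀ : M →+ M₀ := (Submodule.projectionOnto M₀ M₁ hc).toAddMonoidHom with hP₀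
  set P₁ : M →+ M₁ := (Submodule.projectionOnto M₁ M₀ hc.symm).toAddMonoidHom with hP₁
  have hP₀e : ∀ g x, P₀ (act g x) = act₀ g (P₀ x) :=
    fun g x => proj_equivariant act M₀ M₁ hc h₀s h₁s g x
  have hP₁e : ∀ g x, P₁ (act g x) = act₁ g (P₁ x) :=
    fun g x => proj_equivariant act M₁ M₀ hc.symm h₁s h₀s g x
  have hsum : ∀ x : M, ((P₀ x : M₀) : M) + ((P₁ x : M₁) : M) = x := by
    intro x
    have := Submodule.projection_add_projection_eq_self hc x
    rwa [Submodule.projection_apply, Submodule.projection_apply] at this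
  have hH₀ : ∀ σ ∈ D.H, act₀ σ = 1 := by
    intro σ hσ
    ext x
    change act σ x = x
    rw [hH σ hσ, Module.End.one_apply]
  have hH₁ : ∀ σ ∈ D.H, act₁ σ = 1 := by
    intro σ hσ
    ext x
    change act σ x = x
    rw [hH σ hσ, Module.End.one_apply]
  have hpM₀ : ∀ x : M₀, p • x = 0 := fun x => Subtype.ext (by simpa using hpM x)
  have hpM₁ : ∀ x : M₁, p • x = 0 := fun x => Subtype.ext (by simpa using hpM x)
  -- the `M₀`-component vanishes on `H`
  have hcomp₀ : ∀ ξ ∈ Z, ∀ σ ∈ D.H, P₀ (ξ σ) = 0 := by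
    intro ξ hξ
    have hgood : IsGood D act₀ (fun g => P₀ (ξ g)) := IsGood.comp D act act₀ P₀ hP₀e (hZ ξ hξ)
    refine res_eq_zero_of_tau_one D hp2 act₀ hH₀ hpM₀ ?_ ?_ hgood
    · ext x
      change act D.τ x = x
      exact hτ₀ x x.2
    · intro m hm
      apply Subtype.ext
      refine hinv₀ m m.2 (fun g => ?_)
      have := congrArg (fun y : M₀ => (y : M)) (hm g)
      exact this
  have hgood₁ : ∀ ξ ∈ Z, IsGood D act₁ (fun g => P₁ (ξ g)) :=
    fun ξ hξ => IsGood.comp D act act₁ P₁ hP₁e (hZ ξ hξ)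
  have hzero : ∀ ξ ∈ Z, (∀ σ ∈ D.H, P₁ (ξ σ) = 0) → ∀ σ ∈ D.H, ξ σ = 0 := by
    intro ξ hξ h1 σ hσ
    rw [← hsum (ξ σ), hcomp₀ ξ hξ σ hσ, h1 σ hσ]
    simp
  rcases hdich with hB | hC
  · -- the dihedral case
    have hτneg : act₁ D.τ = -1 := by
      ext x
      change act D.τ x = -(x : M)
      exact hB x x.2
    have hp5 : 5 ≤ p := by
      by_contra hlt
      rw [not_le] at hlt
      have hp3 : p = 3 := by
        have := hp.out
        interval_cases p <;> simp_all (config := {decide := true})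
      -- `M₁ = 0`, contradiction with the cardinality
      have hM₁ : ∀ x : M₁, x = 0 := by
        intro x
        have h1 := hτ₁ x x.2
        have hexp : (p + 1) / 2 = 2 := by omega
        rw [hexp] at h1
        have h2 : (act D.τ ^ 2) (x : M) = (x : M) := by
          rw [pow_two, Module.End.mul_apply, hB x x.2, map_neg, hB x x.2, neg_neg]
        rw [h2] at h1
        have h3 : (2 : ℕ) • (x : M) = 0 := by
          rw [two_nsmul]
          nth_rewrite 1 [h1]
          exact neg_add_cancel _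
        have h4 := hpM (x : M)
        rw [hp3] at h4
        have h5 : (x : M) = 0 := by
          have : (3 : ℕ) • (x : M) = (2 : ℕ) • (x : M) + (x : M) := by
            rw [succ_nsmul]
          rw [this, h3, zero_add] at h4
          exact h4
        exact Subtype.ext h5
      have hsub : Subsingleton M₁ := ⟨fun a b => by rw [hM₁ a, hM₁ b]⟩
      have hc1 : Nat.card M₁ = 1 := Nat.card_unique
      rw [hc1] at hcard₁
      have : 1 < Nat.card k ^ 2 := by nlinarith
      omega
    have hall : ∀ ξ : Z, f ξ = 0 := by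
      intro ξ
      apply hf
      apply hzero ξ.1 ξ.2
      exact res_eq_zero_of_tau_neg_one D act₁ hH₁ hpM₁ hτneg hp5 (hgood₁ ξ.1 ξ.2)
    have hrange : LinearMap.range f = ⊥ := by
      rw [LinearMap.range_eq_bot]
      ext ξ
      exact hall ξ
    rw [hrange]
    refine ⟨inferInstance, ?_⟩
    simp
  · -- the count case
    have hodd : (p + 1) / 2 * 2 = p + 1 := by
      rcases hp.out.eq_two_or_odd with h | h
      · exact absurd h hp2
      · omega
    have hE1 : act₁ D.τ ^ (p + 1) = 1 := by
      ext x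
      have h1 : ∀ n : ℕ, (((act₁ D.τ ^ n) x : M₁) : M) = (act D.τ ^ n) (x : M) := by
        intro n
        induction n generalizing x with
        | zero => rfl
        | succ n ih =>
          rw [pow_succ, pow_succ, Module.End.mul_apply, Module.End.mul_apply, ih]
          rfl
      rw [Module.End.one_apply, h1, ← hodd, pow_mul, pow_two, Module.End.mul_apply,
        hτ₁ x x.2, map_neg, hτ₁ x x.2, neg_neg]
    have hinjm : Function.Injective (act₁ D.τ - 1 : Module.End ℤ M₁) := by
      rw [injective_iff_map_eq_zero]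
      intro x hx
      have h1 : act D.τ (x : M) = x := by
        have := congrArg (fun y : M₁ => (y : M)) hx
        change act D.τ (x : M) - x = 0 at this
        exact sub_eq_zero.mp this
      have h2 : ∀ n : ℕ, (act D.τ ^ n) (x : M) = x := by
        intro n
        induction n with
        | zero => rfl
        | succ n ih => rw [pow_succ, Module.End.mul_apply, h1, ih]
      have h3 := hτ₁ x x.2
      rw [h2] at h3
      -- `x = -x`, `p` odd
      have h4 : (2 : ℤ) • (x : M) = 0 := by
        rw [two_zsmul]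
        nth_rewrite 1 [h3]
        exact neg_add_cancel _
      have h5 : ¬ (p : ℤ) ∣ 2 := by
        intro hd
        have : p ∣ 2 := Int.natCast_dvd_natCast.mp (by simpa using hd)
        have := Nat.le_of_dvd (by norm_num) this
        omega
      have h6 : (x : M) = 0 := (zsmul_bijective_of_not_dvd hpM h5).1 (by simpa using h4)
      exact Subtype.ext h6
    have hinjp : Function.Injective (act₁ D.τ + 1 : Module.End ℤ M₁) := by
      rw [injective_iff_map_eq_zero]
      intro x hx
      have h1 : act D.τ (x : M) = -x := by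
        have := congrArg (fun y : M₁ => (y : M)) hx
        change act D.τ (x : M) + x = 0 at this
        exact eq_neg_of_add_eq_zero_left this
      exact Subtype.ext (hC x x.2 h1)
    have hEm : Function.Bijective (act₁ D.τ - 1 : Module.End ℤ M₁) :=
      Finite.injective_iff_bijective.mp hinjm
    have hEp : Function.Bijective (act₁ D.τ + 1 : Module.End ℤ M₁) :=
      Finite.injective_iff_bijective.mp hinjp
    -- the group `V` of `M₁`-components
    let Ψ : Z →+ ((Ω ≃ₐ[F] Ω) → M₁) :=
      { toFun := fun ξ g => P₁ (ξ.1 g)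
        map_zero' := by funext g; simp
        map_add' := fun ξ ξ' => by funext g; simp }
    obtain ⟨V₀, hV₀, hidx0, hidx⟩ := card_quot_sq_le D hpM₁ act₁ hH₁ hE1 hEm hEp Ψ.range (by
      rintro _ ⟨ξ, rfl⟩
      exact hgood₁ ξ.1 ξ.2)
    set Z₀ : AddSubgroup Z := V₀.comap Ψ.rangeRestrict with hZ₀
    have hZ₀idx : Z₀.index = V₀.index :=
      AddSubgroup.index_comap_of_surjective V₀ Ψ.rangeRestrict_surjective
    have hkill : ∀ ξ ∈ Z₀, f ξ = 0 := by
      intro ξ hξ
      apply hf
      apply hzero ξ.1 ξ.2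
      intro σ hσ
      exact hV₀ (Ψ.rangeRestrict ξ) hξ σ hσ
    refine finrank_range_le_one_of_index f Z₀ hkill (hZ₀idx ▸ hidx0) ?_
    rw [hZ₀idx]
    rw [hcard₁] at hidx
    exact (Nat.pow_le_pow_iff_left (by norm_num)).mp hidx

end MainThm

end Fermat.Agent.TW.KumEigen
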