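import Mathlib

/-!
# PROGRAM G (S56), block F3-(f2) `KumEigen`: the semilinear count (pure algebra)

`N` a finite abelian group killed by `p` with two endomorphisms `T`, `Φ` (`Φ` surjective,
`Φ T = T^p Φ`, `T - T^p` injective).  `Y` an abelian group with endomorphisms `t`, `φY` and a
subgroup `Y0` with at most `p²` elements, killed by `p`.  Then a group `V` of homomorphisms
`f : N → Y` with values in `Y0`, `f T = t f`, `f Φ = φY f` satisfies `|V|² ≤ |N|`.

(Application: `N = Hom(M_ψ, μ_p)` with `|N| = |k|²`, `Y0` = the graded piece of level `p² + 1` of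
the allowed Kummer group of the tame field `K₁`, so `|V| ≤ |k|`.)
-/

set_option autoImplicit false
set_option linter.style.haveILetI false
set_option linter.unusedSectionVars false

namespace Fermat.Agent.TW.KumEigen

section Dual

variable {p : ℕ} [hp : Fact p.Prime]

include hp

theorem card_addMonoidHom_zmod_le_aux {N : Type*} [AddCommGroup N] [Module (ZMod p) N] [Finite N] :
    Nat.card (N →+ ZMod p) ≤ Nat.card N := by
  haveI : Module.Finite (ZMod p) N := Module.Finite.of_finite
  haveI : Finite (Module.Dual (ZMod p) N) := Module.finite_of_finite (ZMod p)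
  have h1 : Nat.card (Module.Dual (ZMod p) N) = Nat.card N := by
    rw [Module.natCard_eq_pow_finrank (K := ZMod p) (V := Module.Dual (ZMod p) N),
      Module.natCard_eq_pow_finrank (K := ZMod p) (V := N), Subspace.dual_finrank_eq]
  rw [← h1]
  refine Nat.card_le_card_of_injective
    (fun f : N →+ ZMod p => (AddMonoidHom.toZModLinearMap p f : Module.Dual (ZMod p) N)) ?_
  intro f g hfg
  ext x
  exact congrArg (fun l : N →ₗ[ZMod p] ZMod p => l x) hfg

/-- A finite abelian group killed by `p` has at most `|N|` additive characters `N → ZMod p`. -/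
theorem card_addMonoidHom_zmod_le {N : Type*} [AddCommGroup N] [Finite N]
    (hpN : ∀ x : N, p • x = 0) : Nat.card (N →+ ZMod p) ≤ Nat.card N :=
  @card_addMonoidHom_zmod_le_aux p hp N _ (AddCommGroup.zmodModule hpN) _

theorem exists_addMonoidHom_zmod_ne_zero_aux {Y : Type*} [AddCommGroup Y] [Module (ZMod p) Y]
    {y : Y} (hy : y ≠ 0) : ∃ χ : Y →+ ZMod p, χ y ≠ 0 := by
  by_contra hno
  simp only [not_exists, not_not] at hno
  apply hy
  refine (Module.forall_dual_apply_eq_zero_iff (ZMod p) y).mp ?_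
  intro φ
  exact hno φ.toAddMonoidHom

/-- A nontrivial abelian group killed by `p` has a nonzero additive character. -/
theorem exists_addMonoidHom_zmod_ne_zero {Y : Type*} [AddCommGroup Y]
    (hpY : ∀ y : Y, p • y = 0) {y : Y} (hy : y ≠ 0) : ∃ χ : Y →+ ZMod p, χ y ≠ 0 :=
  @exists_addMonoidHom_zmod_ne_zero_aux p hp Y _ (AddCommGroup.zmodModule hpY) y hy

end Dual

section Count

variable {p : ℕ} [hp : Fact p.Prime] {N Y : Type*} [AddCommGroup N] [Finite N] [AddCommGroup Y]

include hp

/-- `T x = c x ⇒ T^p x = c x` on a group killed by `p`. -/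
theorem pow_apply_of_apply_eq_zsmul (hpN : ∀ x : N, p • x = 0) (T : AddMonoid.End N) {x : N} {c : ℤ}
    (h : T x = c • x) : (T ^ p) x = c • x := by
  have h1 : ∀ n : ℕ, (T ^ n) x = (c ^ n) • x := by
    intro n
    induction n with
    | zero => simp
    | succ n ih =>
      have : (T ^ (n + 1)) x = T ((T ^ n) x) := by rw [pow_succ']; rfl
      rw [this, ih, map_zsmul, h, smul_smul, pow_succ]
  rw [h1 p]
  -- `c ^ p ≡ c` modulo `p`
  have h2 : ((c ^ p - c : ℤ) : ZMod p) = 0 := by
    push_cast
    rw [ZMod.pow_card, sub_self]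
  obtain ⟨d, hd⟩ := (ZMod.intCast_zmod_eq_zero_iff_dvd _ p).mp h2
  have h3 : c ^ p = c + (p : ℤ) * d := by omega
  rw [h3, add_smul, mul_comm, mul_smul, natCast_zsmul, hpN, smul_zero, add_zero]

theorem injective_sub_zsmul (hpN : ∀ x : N, p • x = 0) (T : AddMonoid.End N)
    (hTT : Function.Injective (fun x => T x - (T ^ p) x)) (c : ℤ) :
    Function.Injective (fun x => T x - c • x) := by
  have hadd : ∀ x y : N, (T x - c • x) - (T y - c • y) = T (x - y) - c • (x - y) := by
    intro x y; rw [map_sub, smul_sub]; abel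
  intro x y hxy
  have h0 : T (x - y) - c • (x - y) = 0 := by rw [← hadd]; exact sub_eq_zero.mpr hxy
  have h1 : T (x - y) = c • (x - y) := sub_eq_zero.mp h0
  have h2 := pow_apply_of_apply_eq_zsmul hpN T h1
  have h3 : (fun x => T x - (T ^ p) x) (x - y) = (fun x => T x - (T ^ p) x) 0 := by
    simp only [map_zero, sub_zero]
    rw [h1, h2, sub_self]
  exact sub_eq_zero.mp (hTT h3)

/-- The first count: `T`-equivariant maps to a group with at most `p²` elements. -/
theorem card_equivariant_le (hpN : ∀ x : N, p • x = 0) (T : AddMonoid.End N)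
    (hTT : Function.Injective (fun x => T x - (T ^ p) x))
    (t : Y →+ Y) (Y0 : AddSubgroup Y) (hY0 : Nat.card Y0 ≤ p ^ 2) [Finite Y0]
    (hpY : ∀ y ∈ Y0, p • y = 0)
    (V' : AddSubgroup (N →+ Y))
    (hV' : ∀ f ∈ V', (∀ x, f x ∈ Y0) ∧ ∀ x, f (T x) = t (f x)) :
    Nat.card V' ≤ Nat.card N := by
  classical
  by_cases htriv : ∀ y ∈ Y0, y = 0
  · -- `V'` is trivial
    have hN : 0 < Nat.card N := Nat.card_pos
    have : Subsingleton V' := by
      refine ⟨fun f g => ?_⟩
      apply Subtype.ext
      ext x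
      rw [htriv _ ((hV' f f.2).1 x), htriv _ ((hV' g g.2).1 x)]
    rw [Nat.card_of_subsingleton (0 : V')]
    exact hN
  simp only [not_forall] at htriv
  obtain ⟨y0, hy0mem, hy0⟩ := htriv
  have hpY0 : ∀ y : Y0, p • y = 0 := fun y => Subtype.ext (by simpa using hpY y y.2)
  obtain ⟨χ, hχ⟩ := exists_addMonoidHom_zmod_ne_zero (p := p) hpY0
    (y := (⟨y0, hy0mem⟩ : Y0)) (fun h => hy0 (congrArg Subtype.val h))
  -- the kernel of `χ` has at most `p` elements
  have hker : Nat.card χ.ker ≤ p := by
    have h1 := AddSubgroup.card_mul_index χ.ker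
    have h2 : χ.ker.index = Nat.card χ.range := AddSubgroup.index_ker χ
    have h3 : Nat.card χ.range = p := by
      have hle : χ.range ≤ ⊤ := le_top
      have hne : χ.range ≠ ⊥ := by
        intro hbot
        apply hχ
        have : χ ⟨y0, hy0mem⟩ ∈ χ.range := ⟨_, rfl⟩
        rw [hbot] at this
        exact (AddSubgroup.mem_bot).mp this
      have hdvd : Nat.card χ.range ∣ Nat.card (ZMod p) := AddSubgroup.card_addSubgroup_dvd_card _
      rw [Nat.card_zmod] at hdvd
      rcases (Nat.dvd_prime hp.out).mp hdvd with h | h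
      · exact absurd ((AddSubgroup.card_eq_one).mp h) hne
      · exact h
    rw [h2, h3] at h1
    have hp0 := hp.out.pos
    nlinarith
  -- the injection `f ↦ χ ∘ f`
  have hcard := card_addMonoidHom_zmod_le (p := p) hpN
  haveI : NeZero p := ⟨hp.out.ne_zero⟩
  haveI : Finite (N →+ ZMod p) :=
    Finite.of_injective (fun f : N →+ ZMod p => (f : N → ZMod p)) DFunLike.coe_injective
  refine le_trans ?_ hcard
  let cores : ∀ f : V', N →+ Y0 := fun f =>
    { toFun := fun x => ⟨f.1 x, (hV' f.1 f.2).1 x⟩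
      map_zero' := Subtype.ext (map_zero f.1)
      map_add' := fun x y => Subtype.ext (map_add f.1 x y) }
  refine Nat.card_le_card_of_injective (fun f : V' => χ.comp (cores f)) ?_
  intro f g hfg
  -- `d = f - g` lies in `V'`, has values in `ker χ`
  set d : V' := f - g with hd
  have hdχ : ∀ x, χ (cores d x) = 0 := by
    intro x
    have h1 := congrArg (fun l : N →+ ZMod p => l x) hfg
    simp only [AddMonoidHom.comp_apply] at h1
    have h2 : cores d x = cores f x - cores g x := by
      apply Subtype.ext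
      simp [cores, hd]
    rw [h2, map_sub, h1, sub_self]
  have hd0 : (d : N →+ Y) = 0 := by
    by_contra hne
    obtain ⟨x0, hx0⟩ : ∃ x0, (d : N →+ Y) x0 ≠ 0 := by
      by_contra hall
      simp only [not_exists, not_not] at hall
      exact hne (AddMonoidHom.ext hall)
    set y1 : Y0 := cores d x0 with hy1
    have hy1ne : y1 ≠ 0 := fun h => hx0 (congrArg Subtype.val h)
    have hy1ker : y1 ∈ χ.ker := hdχ x0
    -- `ker χ = zmultiples y1`
    have hzm : AddSubgroup.zmultiples y1 = χ.ker := by
      refine AddSubgroup.eq_of_le_of_card_ge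
        ((AddSubgroup.zmultiples_le_of_mem) hy1ker) ?_
      rw [Nat.card_zmultiples, addOrderOf_eq_prime (hpY0 y1) hy1ne]
      exact hker
    -- `t y1 = c y1`
    have hty1 : ((d : N →+ Y) (T x0)) ∈ Y0 := (hV' d d.2).1 (T x0)
    have hT1 : cores d (T x0) ∈ χ.ker := hdχ (T x0)
    rw [← hzm] at hT1
    obtain ⟨c, hc⟩ := AddSubgroup.mem_zmultiples_iff.mp hT1
    -- for all `x`: `d (T x) = c • d x`
    have hall : ∀ x, (d : N →+ Y) (T x) = c • (d : N →+ Y) x := by
      intro x
      have hx : cores d x ∈ χ.ker := hdχ x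
      rw [← hzm] at hx
      obtain ⟨a, ha⟩ := AddSubgroup.mem_zmultiples_iff.mp hx
      have h1 : (d : N →+ Y) x = a • (d : N →+ Y) x0 := by
        have := congrArg Subtype.val ha
        simpa [cores, hy1] using this.symm
      have h2 : (d : N →+ Y) (T x0) = c • (d : N →+ Y) x0 := by
        have := congrArg Subtype.val hc
        simpa [cores, hy1] using this.symm
      have h3 := (hV' d d.2).2
      rw [h3 x, h1, map_zsmul, ← h3 x0, h2, smul_smul, smul_smul, mul_comm]
    -- `d` kills the image of `T - c`, which is everything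
    have hsurj : Function.Surjective (fun x => T x - c • x) :=
      Finite.injective_iff_surjective.mp (injective_sub_zsmul hpN T hTT c)
    obtain ⟨x1, hx1⟩ := hsurj x0
    apply hx0
    rw [← hx1]
    simp only [map_sub, map_zsmul, hall, sub_self]
  have : (f : N →+ Y) - g = 0 := by
    have := hd0
    rwa [hd, AddSubgroup.coe_sub] at this
  exact Subtype.ext (sub_eq_zero.mp this)

/-- **The semilinear count.** -/
theorem card_sq_le (hpN : ∀ x : N, p • x = 0) (T Φ : AddMonoid.End N)
    (hΦ : Function.Surjective Φ) (hΦT : ∀ x, Φ (T x) = (T ^ p) (Φ x))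
    (hTT : Function.Injective (fun x => T x - (T ^ p) x))
    (t φY : Y →+ Y) (Y0 : AddSubgroup Y) [Finite Y0] (hY0 : Nat.card Y0 ≤ p ^ 2)
    (hpY : ∀ y ∈ Y0, p • y = 0)
    (V : AddSubgroup (N →+ Y))
    (hV : ∀ f ∈ V, (∀ x, f x ∈ Y0) ∧ (∀ x, f (T x) = t (f x)) ∧ (∀ x, f (Φ x) = φY (f x))) :
    Nat.card V ^ 2 ≤ Nat.card N := by
  classical
  -- the bigger group `V'`
  let V' : AddSubgroup (N →+ Y) :=
    { carrier := {f | (∀ x, f x ∈ Y0) ∧ ∀ x, f (T x) = t (f x)}
      zero_mem' := ⟨fun x => by simp [Y0.zero_mem], fun x => by simp⟩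
      add_mem' := fun {f g} hf hg => ⟨fun x => by
          simpa using Y0.add_mem (hf.1 x) (hg.1 x), fun x => by
          simp [hf.2 x, hg.2 x]⟩
      neg_mem' := fun {f} hf => ⟨fun x => by simpa using Y0.neg_mem (hf.1 x), fun x => by
          simp [hf.2 x]⟩ }
  have hV'card : Nat.card V' ≤ Nat.card N :=
    card_equivariant_le hpN T hTT t Y0 hY0 hpY V' (fun f hf => hf)
  have hfinV' : Finite V' := by
    have : Finite (N →+ Y0) := by
      have : Finite (N → Y0) := inferInstance
      exact Finite.of_injective (fun f : N →+ Y0 => (f : N → Y0)) DFunLike.coe_injective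
    let cores : V' → (N →+ Y0) := fun f =>
      { toFun := fun x => ⟨f.1 x, f.2.1 x⟩
        map_zero' := Subtype.ext (map_zero f.1)
        map_add' := fun x y => Subtype.ext (map_add f.1 x y) }
    refine Finite.of_injective cores ?_
    intro f g hfg
    apply Subtype.ext
    ext x
    have := congrArg (fun l : N →+ Y0 => (l x : Y)) hfg
    exact this
  -- key lemma: `f ∈ V`, `f ∘ T ∈ V` ⇒ `f = 0`
  have key : ∀ f : N →+ Y, f ∈ V → f.comp T ∈ V → f = 0 := by
    intro f hf hfT
    have h1 := (hV f hf).2.2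
    have h2 := (hV _ hfT).2.2
    have h3 := (hV f hf).2.1
    have hzero : ∀ y, f (T y - (T ^ p) y) = 0 := by
      intro y
      obtain ⟨x, rfl⟩ := hΦ y
      have e1 : f (T (Φ x)) = φY (f (T x)) := h2 x
      have e2 : f ((T ^ p) (Φ x)) = φY (f (T x)) := by
        rw [← hΦT x, h1 (T x)]
      rw [map_sub, e1, e2, sub_self]
    have hsurj : Function.Surjective (fun x => T x - (T ^ p) x) :=
      Finite.injective_iff_surjective.mp hTT
    ext x
    obtain ⟨y, rfl⟩ := hsurj x
    simpa using hzero y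
  -- the injection `V × V → V'`
  have hinj : Nat.card (V × V) ≤ Nat.card V' := by
    refine Nat.card_le_card_of_injective
      (fun fg : V × V => (⟨(fg.1 : N →+ Y) + (fg.2 : N →+ Y).comp T, ?_⟩ : V')) ?_
    · obtain ⟨a1, a2, -⟩ := hV _ fg.1.2
      obtain ⟨b1, b2, -⟩ := hV _ fg.2.2
      refine ⟨fun x => ?_, fun x => ?_⟩
      · change (fg.1 : N →+ Y) x + (fg.2 : N →+ Y) (T x) ∈ Y0
        exact Y0.add_mem (a1 x) (b1 (T x))
      · change (fg.1 : N →+ Y) (T x) + (fg.2 : N →+ Y) (T (T x)) =
          t ((fg.1 : N →+ Y) x + (fg.2 : N →+ Y) (T x))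
        rw [a2 x, b2 (T x), map_add]
    · rintro ⟨f1, f1'⟩ ⟨f2, f2'⟩ h
      have h' : (f1 : N →+ Y) + (f1' : N →+ Y).comp T = (f2 : N →+ Y) + (f2' : N →+ Y).comp T :=
        congrArg Subtype.val h
      -- `d = f1 - f2 = (f2' - f1') ∘ T`
      have hd : ((f2' - f1' : V) : N →+ Y).comp T = ((f1 - f2 : V) : N →+ Y) := by
        ext x
        have h2 : (f1 : N →+ Y) x + (f1' : N →+ Y) (T x) =
            (f2 : N →+ Y) x + (f2' : N →+ Y) (T x) := congrArg (fun l : N →+ Y => l x) h'
        rw [AddSubgroup.coe_sub, AddSubgroup.coe_sub]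
        change (f2' : N →+ Y) (T x) - (f1' : N →+ Y) (T x) = (f1 : N →+ Y) x - (f2 : N →+ Y) x
        rw [sub_eq_sub_iff_add_eq_add, add_comm, ← h2, add_comm]
      have h0 : ((f2' - f1' : V) : N →+ Y) = 0 :=
        key _ (f2' - f1').2 (by rw [hd]; exact (f1 - f2).2)
      have h1 : ((f1 - f2 : V) : N →+ Y) = 0 := by rw [← hd, h0]; ext; rfl
      have e1 : f1 = f2 := by
        apply Subtype.ext
        have := h1
        rw [AddSubgroup.coe_sub] at this
        exact sub_eq_zero.mp this
      have e2 : f1' = f2' := by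
        apply Subtype.ext
        have := h0
        rw [AddSubgroup.coe_sub] at this
        exact (sub_eq_zero.mp this).symm
      rw [e1, e2]
  rw [Nat.card_prod] at hinj
  calc Nat.card V ^ 2 = Nat.card V * Nat.card V := sq _
    _ ≤ Nat.card V' := hinj
    _ ≤ Nat.card N := hV'card

end Count

end Fermat.Agent.TW.KumEigen
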