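import Fermat.Agent.TW.KumEigen.CountPre

/-!
# PROGRAM G (S56), block F3-(f2) `KumEigen`: the count case (Theorem Ψ-C)

`E = act τ` on `M` with `E^(p+1) = 1`, `E ± 1` bijective.  For a group `V` of good cocycles, the
classes of the level-`(p²+1)` radicals modulo level `p²+2` and `p`-th powers give an additive map
`V → Hom(M^∨, Y₀)` with `|Y₀| ≤ p²`, landing in the maps equivariant for `T` (from `τ`) and `Φ`
(from `φ`); its kernel consists of cocycles vanishing on `H` and the semilinear count bounds its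
image: `[V : V₀]² ≤ |M|`.

The quotient `Ωˣ / modS` is kept abstract (`q : Additive Ωˣ →+ Y` with kernel `modS`).
-/

set_option autoImplicit false
set_option linter.unusedSectionVars false
set_option linter.unusedVariables false

open Polynomial

namespace Fermat.Agent.TW.KumEigen

variable {p : ℕ} [hp : Fact p.Prime] {F Ω : Type*} [Field F] [NormedField Ω] [Algebra F Ω]
  [IsUltrametricDist Ω] (D : TameData p F Ω) {M : Type*} [AddCommGroup M]

/-- The modulus: level `p² + 2` and `p`-th powers. -/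
def modS : AddSubgroup (Additive Ωˣ) := levSub D (p * p + 2) ⊔ PB D

theorem unitEnd_mem_modS (g : Ω ≃ₐ[F] Ω) {b : Additive Ωˣ} (hb : b ∈ modS D) :
    unitEnd (g : Ω →+* Ω) b ∈ modS D := by
  obtain ⟨s, hs, q, hq, rfl⟩ := AddSubgroup.mem_sup.mp hb
  rw [map_add]
  exact (modS D).add_mem (AddSubgroup.mem_sup_left (unitEnd_mem_levSub D g hs))
    (AddSubgroup.mem_sup_right (unitEnd_mem_PB D g hq))

/-- A total additive relation whose fibre over `0` is killed by `q ∘ ψ` induces a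
homomorphism `N → Y`, `lam ↦ q (ψ b)` for `(lam, b) ∈ R`. -/
theorem exists_hom_of_rel' {N B Y : Type*} [AddCommGroup N] [AddCommGroup B] [AddCommGroup Y]
    (R : AddSubgroup (N × B)) (q : B →+ Y)
    (htot : ∀ lam : N, ∃ b : B, (lam, b) ∈ R)
    (hzero : ∀ b : B, ((0 : N), b) ∈ R → q b = 0) :
    ∃ f : N →+ Y, ∀ lam b, (lam, b) ∈ R → f lam = q b := by
  classical
  choose c hc using htot
  have hwd : ∀ lam b, (lam, b) ∈ R → q (c lam) = q b := by
    intro lam b hb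
    have h1 : ((0 : N), -c lam + b) ∈ R := by
      have := R.add_mem (R.neg_mem (hc lam)) hb
      simpa using this
    have := hzero _ h1
    rw [map_add, map_neg] at this
    exact (neg_add_eq_zero.mp this)
  refine ⟨{ toFun := fun lam => q (c lam)
            map_zero' := ?_
            map_add' := ?_ }, fun lam b hb => hwd lam b hb⟩
  · have h0 : ((0 : N), (0 : B)) ∈ R := R.zero_mem
    rw [hwd 0 0 h0, map_zero]
  · intro lam lam'
    have h1 : (lam + lam', c lam + c lam') ∈ R := R.add_mem (hc lam) (hc lam')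
    rw [hwd _ _ h1, map_add]

/-- The radical relation restricted to radicals whose `p`-th power has level `p² + 1`, with the
second component replaced by the `p`-th power. -/
def radRelLev (ξ : (Ω ≃ₐ[F] Ω) → M) : AddSubgroup ((M →+ ZMod p) × Additive Ωˣ) where
  carrier := {x | ∃ b, (x.1, b) ∈ radRel D ξ ∧ p • b = x.2 ∧ x.2 ∈ levSub D (p * p + 1)}
  zero_mem' := ⟨0, (radRel D ξ).zero_mem, by simp, (levSub D _).zero_mem⟩
  add_mem' := by
    rintro a b ⟨a', ha1, ha2, ha3⟩ ⟨b', hb1, hb2, hb3⟩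
    exact ⟨a' + b', (radRel D ξ).add_mem ha1 hb1, by rw [nsmul_add, ha2, hb2]; rfl,
      (levSub D _).add_mem ha3 hb3⟩
  neg_mem' := by
    rintro a ⟨a', ha1, ha2, ha3⟩
    exact ⟨-a', (radRel D ξ).neg_mem ha1, by rw [neg_nsmul, ha2]; rfl, (levSub D _).neg_mem ha3⟩

theorem mem_radRelLev {ξ : (Ω ≃ₐ[F] Ω) → M} {lam : M →+ ZMod p} {b : Additive Ωˣ}
    (hb : (lam, b) ∈ radRel D ξ) (hlev : p • b ∈ levSub D (p * p + 1)) :
    (lam, p • b) ∈ radRelLev D ξ := ⟨b, hb, rfl, hlev⟩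

section Props

variable {Y : Type*} [AddCommGroup Y] (q : Additive Ωˣ →+ Y) (hq : ∀ b, q b = 0 ↔ b ∈ modS D)

/-- The defining property of the Kummer-class map of `ξ`. -/
def KumSpec (ξ : (Ω ≃ₐ[F] Ω) → M) (f : (M →+ ZMod p) →+ Y) : Prop :=
  ∀ lam u, (lam, u) ∈ radRelLev D ξ → f lam = q u

/-- The Kummer-class map of `ξ` (zero if it does not exist). -/
noncomputable def kumFun (ξ : (Ω ≃ₐ[F] Ω) → M) : (M →+ ZMod p) →+ Y :=
  haveI := Classical.propDecidable (∃ f, KumSpec D q ξ f)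
  if h : ∃ f, KumSpec D q ξ f then h.choose else 0

theorem kumFun_spec {ξ : (Ω ≃ₐ[F] Ω) → M} (h : ∃ f, KumSpec D q ξ f) :
    KumSpec D q ξ (kumFun D q ξ) := by
  unfold kumFun
  rw [dif_pos h]
  exact h.choose_spec

/-- Totality of the restricted relation from level `p² + 1`. -/
theorem radRelLev_total {ξ : (Ω ≃ₐ[F] Ω) → M}
    (h : ∀ lam, HasLev D ξ (p * p + 1) lam) (lam : M →+ ZMod p) :
    ∃ u, (lam, u) ∈ radRelLev D ξ := by
  obtain ⟨b, hb, hlev⟩ := h lam
  exact ⟨p • b, mem_radRelLev D hb ((mem_levSub_iff_isLev D (by omega)).mpr hlev)⟩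

include hq in
/-- Existence of the Kummer-class map when the relation is total. -/
theorem exists_kumSpec {ξ : (Ω ≃ₐ[F] Ω) → M}
    (h : ∀ lam, HasLev D ξ (p * p + 1) lam) : ∃ f, KumSpec D q ξ f := by
  obtain ⟨f, hf⟩ := exists_hom_of_rel' (radRelLev D ξ) q (radRelLev_total D h) (by
    rintro u ⟨b, hb, hbu, -⟩
    have h1 : ((b.toMul : Ωˣ) : Ω) ∈ D.K := (zero_mem_radRel_iff D ξ b).mp hb
    rw [hq]
    exact AddSubgroup.mem_sup_right ⟨b, h1, hbu⟩)
  exact ⟨f, fun lam b hb => hf lam b hb⟩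

include hq in
theorem kumFun_mem_map {ξ : (Ω ≃ₐ[F] Ω) → M}
    (h : ∀ lam, HasLev D ξ (p * p + 1) lam) (lam : M →+ ZMod p) :
    kumFun D q ξ lam ∈ (levSub D (p * p + 1)).map q := by
  obtain ⟨u, hu⟩ := radRelLev_total D h lam
  rw [kumFun_spec D q (exists_kumSpec D q hq h) lam u hu]
  obtain ⟨b, -, -, hlev⟩ := hu
  exact ⟨u, hlev, rfl⟩

variable (act : (Ω ≃ₐ[F] Ω) →* Module.End ℤ M)
  (tY : (Ω ≃ₐ[F] Ω) → (Y →+ Y)) (htY : ∀ g b, tY g (q b) = q (unitEnd (g : Ω →+* Ω) b))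

include hq htY in
/-- Galois equivariance of the Kummer-class map. -/
theorem kumFun_equivariant (hH : ∀ σ ∈ D.H, act σ = 1) {ξ : (Ω ≃ₐ[F] Ω) → M}
    (hξ : ∀ g h, ξ (g * h) = act g (ξ h) + ξ g)
    (h : ∀ lam, HasLev D ξ (p * p + 1) lam) (g : Ω ≃ₐ[F] Ω) {w : ℕ}
    (hw : g D.ζp = D.ζp ^ w) (lam : M →+ ZMod p) :
    kumFun D q ξ (precomp ((w : ℤ) • act g⁻¹) lam) = tY g (kumFun D q ξ lam) := by
  obtain ⟨u, hu⟩ := radRelLev_total D h lam
  have hspec := kumFun_spec D q (exists_kumSpec D q hq h)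
  obtain ⟨b, hb, hbu, hlev⟩ := hu
  have h1 := radRel_stable D ξ act hH hξ g hw (lam, b) hb
  have h2 : (precomp ((w : ℤ) • act g⁻¹) lam, unitEnd (g : Ω →+* Ω) u) ∈ radRelLev D ξ := by
    refine ⟨unitEnd (g : Ω →+* Ω) b, h1, ?_, unitEnd_mem_levSub D g hlev⟩
    change p • unitEnd (g : Ω →+* Ω) b = unitEnd (g : Ω →+* Ω) u
    rw [← map_nsmul]
    exact congrArg _ hbu
  rw [hspec _ _ h2, hspec lam u ⟨b, hb, hbu, hlev⟩, htY]

include hq in
/-- Additivity in the cocycle. -/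
theorem kumFun_add {ξ ξ' : (Ω ≃ₐ[F] Ω) → M}
    (h : ∀ lam, HasLev D ξ (p * p + 1) lam) (h' : ∀ lam, HasLev D ξ' (p * p + 1) lam)
    (h'' : ∀ lam, HasLev D (ξ + ξ') (p * p + 1) lam) :
    kumFun D q (ξ + ξ') = kumFun D q ξ + kumFun D q ξ' := by
  ext lam
  obtain ⟨u, b, hb, hbu, hlev⟩ := radRelLev_total D h lam
  obtain ⟨u', b', hb', hbu', hlev'⟩ := radRelLev_total D h' lam
  have h3 : (lam, u + u') ∈ radRelLev D (ξ + ξ') := by
    refine ⟨b + b', ?_, ?_, (levSub D _).add_mem hlev hlev'⟩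
    · rw [mem_radRel]
      intro σ hσ
      have e1 := (mem_radRel D ξ).mp hb σ hσ
      have e2 := (mem_radRel D ξ').mp hb' σ hσ
      change unitEnd (σ : Ω →+* Ω) (b + b') = zetaHom D (lam ((ξ + ξ') σ)) + (b + b')
      change unitEnd (σ : Ω →+* Ω) b = zetaHom D (lam (ξ σ)) + b at e1
      change unitEnd (σ : Ω →+* Ω) b' = zetaHom D (lam (ξ' σ)) + b' at e2
      rw [map_add, e1, e2, Pi.add_apply, map_add, map_add]
      abel
    · change p • (b + b') = u + u'
      rw [nsmul_add]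
      change p • b = u at hbu
      change p • b' = u' at hbu'
      rw [hbu, hbu']
  rw [kumFun_spec D q (exists_kumSpec D q hq h'') lam _ h3, AddMonoidHom.add_apply,
    kumFun_spec D q (exists_kumSpec D q hq h) lam u ⟨b, hb, hbu, hlev⟩,
    kumFun_spec D q (exists_kumSpec D q hq h') lam u' ⟨b', hb', hbu', hlev'⟩, map_add]

include hq in
/-- The kernel: level `p² + 2`. -/
theorem hasLev_of_kumFun_eq_zero {ξ : (Ω ≃ₐ[F] Ω) → M}
    (h : ∀ lam, HasLev D ξ (p * p + 1) lam) (h0 : kumFun D q ξ = 0) :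
    ∀ lam, HasLev D ξ (p * p + 2) lam := by
  intro lam
  obtain ⟨u, b, hb, hbu, hlev⟩ := radRelLev_total D h lam
  have h1 := kumFun_spec D q (exists_kumSpec D q hq h) lam u ⟨b, hb, hbu, hlev⟩
  rw [h0, AddMonoidHom.zero_apply] at h1
  have h2 : u ∈ modS D := (hq u).mp h1.symm
  obtain ⟨s, hs, r, hr, hsr⟩ := AddSubgroup.mem_sup.mp h2
  obtain ⟨c, hc, rfl⟩ := hr
  have hc0 : ((0 : M →+ ZMod p), c) ∈ radRel D ξ := (zero_mem_radRel_iff D ξ c).mpr hc
  have h3 : (lam, b - c) ∈ radRel D ξ := by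
    have := (radRel D ξ).sub_mem hb hc0
    simpa using this
  refine ⟨b - c, h3, ?_⟩
  rw [← mem_levSub_iff_isLev D (by omega)]
  have h4 : p • (b - c) = s := by
    rw [nsmul_sub]
    change s + p • c = u at hsr
    change p • b = u at hbu
    rw [hbu, ← hsr]; abel
  rw [h4]
  exact hs

end Props

section Assembly

/-- A `ℤ`-linear endomorphism as an additive endomorphism. -/
def toEnd {N : Type*} [AddCommGroup N] (L : Module.End ℤ N) : AddMonoid.End N := L.toAddMonoidHom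

theorem toEnd_apply {N : Type*} [AddCommGroup N] (L : Module.End ℤ N) (x : N) :
    toEnd L x = L x := rfl

theorem toEnd_pow {N : Type*} [AddCommGroup N] (L : Module.End ℤ N) (n : ℕ) (x : N) :
    ((toEnd L) ^ n) x = (L ^ n) x := by
  induction n generalizing x with
  | zero => rfl
  | succ n ih =>
    rw [pow_succ, pow_succ, Module.End.mul_apply]
    change ((toEnd L) ^ n) (L x) = _
    rw [ih]

theorem nsmul_hom_eq_zero (lam : M →+ ZMod p) : p • lam = 0 := by
  ext m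
  rw [AddMonoidHom.nsmul_apply, nsmul_eq_mul, ZMod.natCast_self, zero_mul]
  rfl

variable {Y : Type*} [AddCommGroup Y] (q : Additive Ωˣ →+ Y) (hq : ∀ b, q b = 0 ↔ b ∈ modS D)
  (act : (Ω ≃ₐ[F] Ω) →* Module.End ℤ M)
  (tY : (Ω ≃ₐ[F] Ω) → (Y →+ Y)) (htY : ∀ g b, tY g (q b) = q (unitEnd (g : Ω →+* Ω) b))

include hq htY in
/-- **Theorem Ψ-C** (abstract quotient). -/
theorem card_quot_sq_le_aux [Finite M] (hpM : ∀ x : M, p • x = 0) (hH : ∀ σ ∈ D.H, act σ = 1)
    (hE1 : act D.τ ^ (p + 1) = 1) (hEm : Function.Bijective (act D.τ - 1 : Module.End ℤ M))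
    (hEp : Function.Bijective (act D.τ + 1 : Module.End ℤ M))
    [Finite ((levSub D (p * p + 1)).map q)]
    (hcard : Nat.card ((levSub D (p * p + 1)).map q) ≤ p ^ 2)
    (V : AddSubgroup ((Ω ≃ₐ[F] Ω) → M)) (hV : ∀ ξ ∈ V, IsGood D act ξ) :
    ∃ V₀ : AddSubgroup V, (∀ ξ ∈ V₀, ∀ σ ∈ D.H, (ξ : (Ω ≃ₐ[F] Ω) → M) σ = 0) ∧
      V₀.index ≠ 0 ∧ V₀.index ^ 2 ≤ Nat.card M := by
  classical
  have hlev : ∀ ξ ∈ V, ∀ lam, HasLev D ξ (p * p + 1) lam :=
    fun ξ hξ => hasLev_m0 D act hpM hH hE1 hEm hEp (hV ξ hξ)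
  let Fhom : V →+ ((M →+ ZMod p) →+ Y) :=
    AddMonoidHom.mk' (fun ξ => kumFun D q (ξ : (Ω ≃ₐ[F] Ω) → M))
      (fun ξ ξ' => kumFun_add D q hq (hlev _ ξ.2) (hlev _ ξ'.2) (hlev _ (V.add_mem ξ.2 ξ'.2)))
  have hFhom : ∀ ξ : V, Fhom ξ = kumFun D q (ξ : (Ω ≃ₐ[F] Ω) → M) := fun ξ => rfl
  -- the exponents
  obtain ⟨g, hg, hgp⟩ := exists_zetap_exp D D.τ
  obtain ⟨w, hw, hwp⟩ := exists_zetap_exp D D.φ
  have hgpZ : ¬ (p : ℤ) ∣ (g : ℤ) := fun h => hgp (Int.natCast_dvd_natCast.mp h)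
  have hwpZ : ¬ (p : ℤ) ∣ (w : ℤ) := fun h => hwp (Int.natCast_dvd_natCast.mp h)
  set A : Module.End ℤ M := act D.τ⁻¹ with hA
  set B : Module.End ℤ M := act D.φ⁻¹ with hB
  set ET : Module.End ℤ M := (g : ℤ) • A with hET
  set EΦ : Module.End ℤ M := (w : ℤ) • B with hEΦ
  let T : AddMonoid.End (M →+ ZMod p) := toEnd (precomp (p := p) ET)
  let Φ : AddMonoid.End (M →+ ZMod p) := toEnd (precomp (p := p) EΦ)
  have hfinN : Finite (M →+ ZMod p) :=
    Finite.of_injective (fun f : M →+ ZMod p => (f : M → ZMod p)) DFunLike.coe_injective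
  -- relations on `M`
  have hA1 : A ^ (p + 1) = 1 := by
    have h1 : act ((D.τ ^ (p + 1))⁻¹) * act (D.τ ^ (p + 1)) = 1 := by
      rw [← map_mul, inv_mul_cancel, map_one]
    rw [map_pow, hE1, mul_one] at h1
    rw [hA, ← map_pow, inv_pow, h1]
  have hAE : ∀ x, A (act D.τ x) = x := fun x => act_mul_inv act D.τ x
  have hEA : ∀ x, act D.τ (A x) = x := fun x => act_inv_mul act D.τ x
  have hAp : ∀ x, (A ^ p) x = act D.τ x := by
    intro x
    have h1 : (A ^ (p + 1)) (act D.τ x) = act D.τ x := by rw [hA1, Module.End.one_apply]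
    rwa [pow_succ, Module.End.mul_apply, hAE] at h1
  have hgpow : ∀ y : M, ((g : ℤ) ^ p) • y = (g : ℤ) • y := by
    intro y
    apply zsmul_eq_of_dvd_sub hpM
    rw [← ZMod.intCast_zmod_eq_zero_iff_dvd]
    push_cast
    rw [ZMod.pow_card, sub_self]
  have hBA : ∀ x, B ((A ^ p) x) = A (B x) := by
    intro x
    have h1 : D.φ⁻¹ * (D.τ⁻¹) ^ p = D.τ⁻¹ * D.φ⁻¹ * (D.φ * D.τ * D.φ⁻¹ * (D.τ ^ p)⁻¹) := by
      rw [inv_pow]; group
    have h2 : act (D.φ⁻¹ * (D.τ⁻¹) ^ p) = act (D.τ⁻¹ * D.φ⁻¹) := by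
      rw [h1, map_mul, hH _ D.φτ, mul_one]
    rw [map_mul, map_mul, map_pow] at h2
    have := congrArg (fun L : Module.End ℤ M => L x) h2
    simpa using this
  -- `ET - ET^p` is bijective
  have hETsub : ∀ x, ET x - (ET ^ p) x = (g : ℤ) • (A x - act D.τ x) := by
    intro x
    rw [hET, _root_.smul_pow, LinearMap.smul_apply, LinearMap.smul_apply, hAp, hgpow, smul_sub]
  have hETinj : Function.Injective (fun x => ET x - (ET ^ p) x) := by
    have hadd : ∀ x y, (ET x - (ET ^ p) x) - (ET y - (ET ^ p) y) =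
        ET (x - y) - (ET ^ p) (x - y) := by
      intro x y; rw [map_sub, map_sub]; abel
    intro x y hxy
    have h1 : ET (x - y) - (ET ^ p) (x - y) = 0 := by
      rw [← hadd]; exact sub_eq_zero.mpr hxy
    rw [hETsub] at h1
    have h2 : A (x - y) - act D.τ (x - y) = 0 :=
      (zsmul_bijective_of_not_dvd hpM hgpZ).1 (by simpa using h1)
    -- `A z = E z ⇒ z = E² z ⇒ (E-1)(E+1) z = 0`
    set z := x - y with hz
    have h3 : z = act D.τ (act D.τ z) := by
      have := congrArg (act D.τ) (sub_eq_zero.mp h2)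
      rwa [hEA] at this
    have h4 : (act D.τ - 1 : Module.End ℤ M) ((act D.τ + 1 : Module.End ℤ M) z) = 0 := by
      change act D.τ (act D.τ z + z) - (act D.τ z + z) = 0
      rw [map_add, ← h3]; abel
    have h5 : (act D.τ + 1 : Module.End ℤ M) z = 0 := hEm.1 (by rw [h4, map_zero])
    have h6 : z = 0 := hEp.1 (by rw [h5, map_zero])
    exact sub_eq_zero.mp h6
  have hETsurj : Function.Surjective (fun x => ET x - (ET ^ p) x) :=
    Finite.injective_iff_surjective.mp hETinj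
  -- hypotheses of the semilinear count
  have hpN : ∀ x : M →+ ZMod p, p • x = 0 := nsmul_hom_eq_zero
  have hΦsurj : Function.Surjective Φ := by
    apply precomp_surjective
    have h1 : Function.Bijective (fun x : M => (w : ℤ) • x) := zsmul_bijective_of_not_dvd hpM hwpZ
    have h2 : ⇑EΦ = (fun x : M => (w : ℤ) • x) ∘ ⇑B := by
      funext x; rfl
    rw [h2]
    exact h1.comp (act_bijective act D.φ⁻¹)
  have hΦT : ∀ x, Φ (T x) = (T ^ p) (Φ x) := by
    intro lam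
    rw [toEnd_pow, ← precomp_pow]
    ext m
    change lam (ET (EΦ m)) = lam (EΦ ((ET ^ p) m))
    congr 1
    rw [hET, hEΦ, _root_.smul_pow]
    simp only [LinearMap.smul_apply, map_zsmul]
    rw [hBA, hgpow, smul_comm]
  have hTT : Function.Injective (fun x => T x - (T ^ p) x) := by
    intro lam lam' h
    have h1 : ∀ m, lam (ET m - (ET ^ p) m) = lam' (ET m - (ET ^ p) m) := by
      intro m
      have hTp : ∀ l : M →+ ZMod p, (T ^ p) l = precomp (ET ^ p) l := by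
        intro l
        rw [precomp_pow]
        exact toEnd_pow _ _ _
      have h2 : T lam - (T ^ p) lam = T lam' - (T ^ p) lam' := h
      rw [hTp, hTp] at h2
      have h3 := congrArg (fun l : M →+ ZMod p => l m) h2
      change lam (ET m) - lam ((ET ^ p) m) = lam' (ET m) - lam' ((ET ^ p) m) at h3
      rw [map_sub, map_sub, h3]
    ext m
    obtain ⟨m', rfl⟩ := hETsurj m
    exact h1 m'
  have hpY : ∀ y ∈ (levSub D (p * p + 1)).map q, p • y = 0 := by
    rintro y ⟨u, hu, rfl⟩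
    rw [← map_nsmul, hq]
    exact AddSubgroup.mem_sup_right ⟨u, levSub_le_KB D _ hu, rfl⟩
  have hrange : ∀ f ∈ Fhom.range, (∀ x, f x ∈ (levSub D (p * p + 1)).map q) ∧
      (∀ x, f (T x) = tY D.τ (f x)) ∧ (∀ x, f (Φ x) = tY D.φ (f x)) := by
    rintro f ⟨ξ, rfl⟩
    rw [hFhom]
    refine ⟨fun x => kumFun_mem_map D q hq (hlev _ ξ.2) x, fun x => ?_, fun x => ?_⟩
    · exact kumFun_equivariant D q hq act tY htY hH (hV _ ξ.2).1 (hlev _ ξ.2) D.τ hg x
    · exact kumFun_equivariant D q hq act tY htY hH (hV _ ξ.2).1 (hlev _ ξ.2) D.φ hw x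
  have hcount := card_sq_le hpN T Φ hΦsurj hΦT hTT (tY D.τ) (tY D.φ)
    ((levSub D (p * p + 1)).map q) hcard hpY Fhom.range hrange
  -- finiteness of the range
  have hfinR : Finite Fhom.range := by
    have : Finite ((M →+ ZMod p) → ((levSub D (p * p + 1)).map q)) := inferInstance
    let cores : Fhom.range → ((M →+ ZMod p) → ((levSub D (p * p + 1)).map q)) :=
      fun f x => ⟨f.1 x, (hrange f.1 f.2).1 x⟩
    refine Finite.of_injective cores ?_
    intro f f' hff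
    apply Subtype.ext
    ext x
    have := congrArg (fun l => ((l x : (levSub D (p * p + 1)).map q) : Y)) hff
    exact this
  refine ⟨Fhom.ker, ?_, ?_, ?_⟩
  · intro ξ hξ
    have h0 : kumFun D q (ξ : (Ω ≃ₐ[F] Ω) → M) = 0 := hξ
    exact res_eq_zero_of_hasLev D act hpM hH hE1 hEm (hV _ ξ.2)
      (hasLev_of_kumFun_eq_zero D q hq (hlev _ ξ.2) h0)
  · rw [AddSubgroup.index_ker]
    exact Nat.card_pos.ne'
  · rw [AddSubgroup.index_ker]
    exact hcount.trans (card_addMonoidHom_zmod_le (N := M) hpM)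

end Assembly

end Fermat.Agent.TW.KumEigen
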