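import Fermat.Agent.TW.KumEigen.Good

/-!
# PROGRAM G (S56), block F3-(f2) `KumEigen`, sub-target [T1]: the graded pieces of the unit filtration

`card_map_levSub_le`: for `m ≥ 1` and any subgroup `S ⊇ levSub D (m + 1)`, the image of
`levSub D m` in `Additive Ωˣ ⧸ S` is finite of cardinality `≤ p²` (it is covered by the classes
of `1` and of `1 + ζ^i π^m`, `i < p² - 1`, by `TameData.level_classes`).

Branch-only work.
-/

set_option autoImplicit false
set_option linter.unusedSectionVars false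
set_option linter.style.haveILetI false

namespace Fermat.Agent.TW.KumEigen

variable {p : ℕ} [hp : Fact p.Prime] {F Ω : Type*} [Field F] [NormedField Ω] [Algebra F Ω]
  [IsUltrametricDist Ω] (D : TameData p F Ω)

/-- The element `1 + ζ^i π^m`. -/
noncomputable def levGen (m i : ℕ) : Ω := 1 + D.ζ ^ i * D.π ^ m

theorem levGen_mem_K (m i : ℕ) : levGen D m i ∈ D.K :=
  D.K.add_mem D.K.one_mem (D.K.mul_mem (D.K.pow_mem D.ζ_mem _) (D.K.pow_mem D.π_mem _))

theorem norm_levGen_sub_one (m i : ℕ) : ‖levGen D m i - 1‖ = D.ρ ^ m := by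
  rw [levGen, add_sub_cancel_left, norm_mul, D.norm_ζ_pow, one_mul, norm_pow]
  rfl

theorem norm_levGen {m : ℕ} (hm : 1 ≤ m) (i : ℕ) : ‖levGen D m i‖ = 1 := by
  apply norm_eq_one_of_sub_one_lt
  rw [norm_levGen_sub_one]
  exact D.ρ_pow_lt_one hm

theorem levGen_ne_zero {m : ℕ} (hm : 1 ≤ m) (i : ℕ) : levGen D m i ≠ 0 := by
  intro h
  have := norm_levGen D hm i
  rw [h, norm_zero] at this
  exact zero_ne_one this

/-- `1 + ζ^i π^m` as an element of `Additive Ωˣ`. -/
noncomputable def levGenU {m : ℕ} (hm : 1 ≤ m) (i : ℕ) : Additive Ωˣ :=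
  Additive.ofMul (Units.mk0 (levGen D m i) (levGen_ne_zero D hm i))

theorem coe_levGenU {m : ℕ} (hm : 1 ≤ m) (i : ℕ) :
    (((levGenU D hm i).toMul : Ωˣ) : Ω) = levGen D m i := rfl

theorem levGenU_mem_levSub {m : ℕ} (hm : 1 ≤ m) (i : ℕ) : levGenU D hm i ∈ levSub D m := by
  rw [mem_levSub, coe_levGenU]
  exact ⟨levGen_mem_K D m i, norm_levGen D hm i, (norm_levGen_sub_one D m i).le⟩

/-- Every element of `levSub D m` is in `levSub D (m+1)` or differs from some `1 + ζ^i π^m`
by an element of `levSub D (m+1)`. -/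
theorem levSub_classes {m : ℕ} (hm : 1 ≤ m) {b : Additive Ωˣ} (hb : b ∈ levSub D m) :
    b ∈ levSub D (m + 1) ∨ ∃ i < p ^ 2 - 1, b - levGenU D hm i ∈ levSub D (m + 1) := by
  obtain ⟨hbK, hb1, hbm⟩ := (mem_levSub D).1 hb
  rcases D.level_classes hm hbK hbm with h | ⟨i, hi, h⟩
  · exact Or.inl ((mem_levSub D).2 ⟨hbK, hb1, h⟩)
  · refine Or.inr ⟨i, hi, ?_⟩
    have hcoe : (((b - levGenU D hm i).toMul : Ωˣ) : Ω)
        = ((b.toMul : Ωˣ) : Ω) / levGen D m i := by
      rw [toMul_sub, Units.val_div_eq_div_val, coe_levGenU]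
    rw [mem_levSub, hcoe]
    refine ⟨D.K.div_mem hbK (levGen_mem_K D m i), ?_, h⟩
    rw [norm_div, hb1, norm_levGen D hm i, div_one]

/-- **[T1]** The image of `levSub D m` modulo any subgroup containing `levSub D (m+1)` has at most
`p²` elements. -/
theorem card_map_levSub_le {m : ℕ} (hm : 1 ≤ m) (S : AddSubgroup (Additive Ωˣ))
    (hS : levSub D (m + 1) ≤ S) :
    Finite ((levSub D m).map (QuotientAddGroup.mk' S)) ∧
      Nat.card ((levSub D m).map (QuotientAddGroup.mk' S)) ≤ p ^ 2 := by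
  classical
  let f : Option (Fin (p ^ 2 - 1)) → ((levSub D m).map (QuotientAddGroup.mk' S)) := fun o =>
    match o with
    | none => 0
    | some i => ⟨QuotientAddGroup.mk' S (levGenU D hm i),
        ⟨levGenU D hm i, levGenU_mem_levSub D hm i, rfl⟩⟩
  have hf : Function.Surjective f := by
    rintro ⟨y, b, hb, rfl⟩
    rcases levSub_classes D hm hb with h | ⟨i, hi, h⟩
    · refine ⟨none, ?_⟩
      apply Subtype.ext
      change (0 : Additive Ωˣ ⧸ S) = QuotientAddGroup.mk' S b
      rw [QuotientAddGroup.mk'_apply, eq_comm, QuotientAddGroup.eq_zero_iff]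
      exact hS h
    · refine ⟨some ⟨i, hi⟩, ?_⟩
      apply Subtype.ext
      change QuotientAddGroup.mk' S (levGenU D hm i) = QuotientAddGroup.mk' S b
      rw [QuotientAddGroup.mk'_apply, QuotientAddGroup.mk'_apply, QuotientAddGroup.eq]
      have h2 : -levGenU D hm i + b = b - levGenU D hm i := by abel
      rw [h2]
      exact hS h
  haveI : Finite ((levSub D m).map (QuotientAddGroup.mk' S)) := Finite.of_surjective f hf
  refine ⟨inferInstance, ?_⟩
  have h1 := Nat.card_le_card_of_surjective f hf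
  have h2 : Nat.card (Option (Fin (p ^ 2 - 1))) = p ^ 2 := by
    rw [Nat.card_eq_fintype_card, Fintype.card_option, Fintype.card_fin]
    have := Nat.one_le_pow 2 p hp.out.pos
    omega
  rw [h2] at h1
  exact h1

end Fermat.Agent.TW.KumEigen
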