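import Fermat.Agent.TW.KumEigen.CountCase
import Fermat.Agent.TW.KumEigen.LevCard

/-!
# PROGRAM G (S56), block F3-(f2) `KumEigen`: Theorem Ψ-C with the concrete quotient

`card_quot_sq_le_of_card`: Theorem Ψ-C given the bound `|levSub (p²+1) / modS| ≤ p²`.
-/

set_option autoImplicit false
set_option linter.unusedSectionVars false

namespace Fermat.Agent.TW.KumEigen

variable {p : ℕ} [hp : Fact p.Prime] {F Ω : Type*} [Field F] [NormedField Ω] [Algebra F Ω]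
  [IsUltrametricDist Ω] (D : TameData p F Ω) {M : Type*} [AddCommGroup M]

/-- **Theorem Ψ-C**, given the count of the level classes. -/
theorem card_quot_sq_le_of_card [Finite M] (hpM : ∀ x : M, p • x = 0)
    (act : (Ω ≃ₐ[F] Ω) →* Module.End ℤ M) (hH : ∀ σ ∈ D.H, act σ = 1)
    (hE1 : act D.τ ^ (p + 1) = 1) (hEm : Function.Bijective (act D.τ - 1 : Module.End ℤ M))
    (hEp : Function.Bijective (act D.τ + 1 : Module.End ℤ M))
    (hT1 : Finite ((levSub D (p * p + 1)).map (QuotientAddGroup.mk' (modS D))) ∧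
      Nat.card ((levSub D (p * p + 1)).map (QuotientAddGroup.mk' (modS D))) ≤ p ^ 2)
    (V : AddSubgroup ((Ω ≃ₐ[F] Ω) → M)) (hV : ∀ ξ ∈ V, IsGood D act ξ) :
    ∃ V₀ : AddSubgroup V, (∀ ξ ∈ V₀, ∀ σ ∈ D.H, (ξ : (Ω ≃ₐ[F] Ω) → M) σ = 0) ∧
      V₀.index ≠ 0 ∧ V₀.index ^ 2 ≤ Nat.card M := by
  have h1 := @card_quot_sq_le_aux p hp F Ω _ _ _ _ D M _ (Additive Ωˣ ⧸ modS D) _
    (QuotientAddGroup.mk' (modS D)) (fun b => QuotientAddGroup.eq_zero_iff b) act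
    (fun g => QuotientAddGroup.map (modS D) (modS D) (unitEnd (g : Ω →+* Ω)).toAddMonoidHom
      (fun b hb => unitEnd_mem_modS D g hb))
    (fun g b => rfl) _ hpM hH hE1 hEm hEp
  have h2 := @h1 hT1.1
  exact h2 hT1.2 V hV

/-- **Theorem Ψ-C.** -/
theorem card_quot_sq_le [Finite M] (hpM : ∀ x : M, p • x = 0)
    (act : (Ω ≃ₐ[F] Ω) →* Module.End ℤ M) (hH : ∀ σ ∈ D.H, act σ = 1)
    (hE1 : act D.τ ^ (p + 1) = 1) (hEm : Function.Bijective (act D.τ - 1 : Module.End ℤ M))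
    (hEp : Function.Bijective (act D.τ + 1 : Module.End ℤ M))
    (V : AddSubgroup ((Ω ≃ₐ[F] Ω) → M)) (hV : ∀ ξ ∈ V, IsGood D act ξ) :
    ∃ V₀ : AddSubgroup V, (∀ ξ ∈ V₀, ∀ σ ∈ D.H, (ξ : (Ω ≃ₐ[F] Ω) → M) σ = 0) ∧
      V₀.index ≠ 0 ∧ V₀.index ^ 2 ≤ Nat.card M :=
  card_quot_sq_le_of_card D hpM act hH hE1 hEm hEp
    (card_map_levSub_le D (m := p * p + 1) (by omega) (modS D) le_sup_left) V hV

end Fermat.Agent.TW.KumEigen
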