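import Fermat.Agent.TW.KumEigen.Good

/-!
# PROGRAM G (S56), block F3-(f2) `KumEigen`: the two descents of the count case

`τ ζp = ζp ^ g`: `g` is prime to `p` and has order `p - 1` modulo `p`.
For a module `M` with `E = act τ`, `E ^ (p+1) = 1`, `E ± 1` bijective:
* `hasLev_m0`: every good cocycle has level `p² + 1` (for all characters);
* `res_eq_zero_of_hasLev`: a good cocycle of level `p² + 2` (for all characters) vanishes on `H`.
-/

set_option autoImplicit false
set_option linter.unusedSectionVars false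
set_option linter.unusedVariables false

open Polynomial

namespace Fermat.Agent.TW.KumEigen

variable {p : ℕ} [hp : Fact p.Prime] {F Ω : Type*} [Field F] [NormedField Ω] [Algebra F Ω]
  [IsUltrametricDist Ω] (D : TameData p F Ω)

section GExp

/-- Any Galois element raises `ζp` to a power prime to `p`. -/
theorem exists_zetap_exp (g : Ω ≃ₐ[F] Ω) : ∃ w : ℕ, g D.ζp = D.ζp ^ w ∧ ¬ p ∣ w := by
  have h1 : (g D.ζp) ^ p = 1 := by rw [← map_pow, D.hζp.pow_eq_one, map_one]
  obtain ⟨w, -, hw⟩ := D.hζp.eq_pow_of_pow_eq_one h1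
  refine ⟨w, hw.symm, ?_⟩
  rintro ⟨d, rfl⟩
  rw [pow_mul, D.hζp.pow_eq_one, one_pow] at hw
  have h2 : g D.ζp = g 1 := by rw [← hw, map_one]
  have h3 : D.ζp = 1 := g.injective h2
  exact hp.out.one_lt.ne' (D.hζp.unique (h3 ▸ IsPrimitiveRoot.one))

theorem norm_pow_sub_pow_lt {a b : Ω} (ha : ‖a‖ ≤ 1) (hb : ‖b‖ ≤ 1) (hab : ‖a - b‖ < 1) (j : ℕ) :
    ‖a ^ j - b ^ j‖ < 1 ∨ j = 0 := by
  rcases Nat.eq_zero_or_pos j with rfl | hj
  · exact Or.inr rfl
  left
  induction j, hj using Nat.le_induction with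
  | base => simpa using hab
  | succ n hn ih =>
    have h : a ^ (n + 1) - b ^ (n + 1) = a ^ n * (a - b) + (a ^ n - b ^ n) * b := by ring
    rw [h]
    refine (IsUltrametricDist.norm_add_le_max _ _).trans_lt (max_lt ?_ ?_)
    · rw [norm_mul, norm_pow]
      calc ‖a‖ ^ n * ‖a - b‖ ≤ 1 * ‖a - b‖ :=
            mul_le_mul_of_nonneg_right (pow_le_one₀ (norm_nonneg _) ha) (norm_nonneg _)
        _ < 1 := by rw [one_mul]; exact hab
    · rw [norm_mul]
      calc ‖a ^ n - b ^ n‖ * ‖b‖ ≤ ‖a ^ n - b ^ n‖ * 1 :=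
            mul_le_mul_of_nonneg_left hb (norm_nonneg _)
        _ < 1 := by rw [mul_one]; exact ih

theorem norm_ζ : ‖D.ζ‖ = 1 :=
  norm_eq_one_of_pow_eq_one (TameData.e_pos p).ne' D.hζ.pow_eq_one

/-- `g` has order `p - 1` modulo `p`. -/
theorem sub_one_dvd_of_gpow {g : ℕ} (hg : D.τ D.ζp = D.ζp ^ g) {j : ℕ}
    (hj : (p : ℤ) ∣ (g : ℤ) ^ j - 1) : (p - 1) ∣ j := by
  have h0 := D.omega_tau hg
  have hz1 : ‖D.ζ ^ (p + 1)‖ ≤ 1 := by rw [norm_pow, norm_ζ D, one_pow]
  have hg1 : ‖(g : Ω)‖ ≤ 1 := IsUltrametricDist.norm_natCast_le_one Ω g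
  rcases norm_pow_sub_pow_lt hg1 hz1 h0 j with h1 | rfl
  swap
  · exact dvd_zero _
  have h2 : ‖((((g : ℤ) ^ j - 1 : ℤ)) : Ω)‖ < 1 := norm_intCast_lt_one_of_dvd D.norm_p_lt hj
  have h3 : ‖(D.ζ ^ (p + 1)) ^ j - 1‖ < 1 := by
    have h4 : (D.ζ ^ (p + 1)) ^ j - 1 =
        -((g : Ω) ^ j - (D.ζ ^ (p + 1)) ^ j) + ((((g : ℤ) ^ j - 1 : ℤ)) : Ω) := by
      push_cast; ring
    rw [h4]
    refine (IsUltrametricDist.norm_add_le_max _ _).trans_lt (max_lt ?_ h2)
    rwa [norm_neg]
  rw [← pow_mul] at h3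
  have h5 : (p ^ 2 - 1) ∣ (p + 1) * j := by
    by_contra hnd
    have := norm_pow_sub_one_eq_one D.hζ (TameData.norm_e D.norm_p_lt) hnd
    rw [this] at h3
    exact lt_irrefl _ h3
  rw [TameData.e_eq] at h5
  exact Nat.dvd_of_mul_dvd_mul_left (by omega) h5

end GExp

section Descents

variable {M : Type*} [AddCommGroup M] (act : (Ω ≃ₐ[F] Ω) →* Module.End ℤ M)

theorem act_inv_mul (g : Ω ≃ₐ[F] Ω) (x : M) : act g (act g⁻¹ x) = x := by
  rw [← Module.End.mul_apply, ← map_mul, mul_inv_cancel, map_one, Module.End.one_apply]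

theorem act_mul_inv (g : Ω ≃ₐ[F] Ω) (x : M) : act g⁻¹ (act g x) = x := by
  rw [← Module.End.mul_apply, ← map_mul, inv_mul_cancel, map_one, Module.End.one_apply]

theorem act_bijective (g : Ω ≃ₐ[F] Ω) : Function.Bijective (act g) :=
  ⟨fun x y h => by rw [← act_mul_inv act g x, h, act_mul_inv],
    fun y => ⟨act g⁻¹ y, act_inv_mul act g y⟩⟩

theorem pow_apply_eq_zsmul {E : Module.End ℤ M} {x : M} {c : ℤ} (h : E x = c • x) (n : ℕ) :
    (E ^ n) x = c ^ n • x := by
  induction n with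
  | zero => simp
  | succ n ih => rw [pow_succ, Module.End.mul_apply, h, map_zsmul, ih, smul_smul, pow_succ, mul_comm]

/-- `g • act τ⁻¹ - 1` is bijective (`E = act τ`, `E^(p+1) = 1`, `E ± 1` bijective, `p ∤ g`). -/
theorem bijective_gA_sub_one [Finite M] (hpM : ∀ x : M, p • x = 0)
    (hE1 : act D.τ ^ (p + 1) = 1) (hEm : Function.Bijective (act D.τ - 1 : Module.End ℤ M))
    (hEp : Function.Bijective (act D.τ + 1 : Module.End ℤ M)) {g : ℕ} (hgp : ¬ p ∣ g) :
    Function.Bijective ((g : ℤ) • act D.τ⁻¹ - 1 : Module.End ℤ M) := by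
  rw [← Finite.injective_iff_bijective, injective_iff_map_eq_zero]
  intro x hx
  have h1 : (g : ℤ) • act D.τ⁻¹ x = x := by
    have : ((g : ℤ) • act D.τ⁻¹ - 1 : Module.End ℤ M) x = (g : ℤ) • act D.τ⁻¹ x - x := rfl
    rw [this] at hx
    exact sub_eq_zero.mp hx
  have h2 : act D.τ x = (g : ℤ) • x := by
    have := congrArg (act D.τ) h1
    rw [map_zsmul, act_inv_mul] at this
    exact this.symm
  have h3 : x = ((g : ℤ) ^ (p + 1)) • x := by
    have := pow_apply_eq_zsmul h2 (p + 1)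
    rwa [hE1, Module.End.one_apply] at this
  have h4 : ((g : ℤ) ^ (p + 1) - 1) • x = 0 := by
    rw [sub_smul, one_smul, ← h3, sub_self]
  by_cases hd : (p : ℤ) ∣ (g : ℤ) ^ (p + 1) - 1
  · -- `g ≡ ±1`
    have hg0 : ((g : ℤ) : ZMod p) ≠ 0 := by
      rw [Ne, ZMod.intCast_zmod_eq_zero_iff_dvd]
      exact fun h => hgp (Int.natCast_dvd_natCast.mp h)
    have h5 : (p : ℤ) ∣ ((g : ℤ) - 1) * ((g : ℤ) + 1) := by
      rw [← ZMod.intCast_zmod_eq_zero_iff_dvd] at hd ⊢
      push_cast at hd ⊢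
      have h6 : ((g : ZMod p)) ^ (p + 1) = (g : ZMod p) ^ 2 := by
        have hp1 : p + 1 = (p - 1) + 2 := by have := hp.out.two_le; omega
        have hg0' : (g : ZMod p) ≠ 0 := by simpa using hg0
        rw [hp1, pow_add, ZMod.pow_card_sub_one_eq_one hg0', one_mul]
      rw [h6] at hd
      linear_combination hd
    rcases (Nat.prime_iff_prime_int.mp hp.out).dvd_or_dvd h5 with h6 | h6
    · have h7 : (g : ℤ) • x = (1 : ℤ) • x := zsmul_eq_of_dvd_sub hpM h6 x
      rw [one_smul] at h7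
      apply hEm.1
      change act D.τ x - x = (act D.τ - 1 : Module.End ℤ M) 0
      rw [map_zero, h2, h7, sub_self]
    · have h7 : (g : ℤ) • x = (-1 : ℤ) • x := zsmul_eq_of_dvd_sub hpM (by simpa using h6) x
      rw [neg_smul, one_smul] at h7
      apply hEp.1
      change act D.τ x + x = (act D.τ + 1 : Module.End ℤ M) 0
      rw [map_zero, h2, h7, neg_add_cancel]
  · exact (zsmul_bijective_of_not_dvd hpM hd).1 (by simpa using h4)

theorem coe_zsmul_one (c : ℤ) : ⇑(c • (1 : Module.End ℤ M)) = fun x : M => c • x := by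
  funext x; simp

/-- Every good cocycle has level `p² + 1`. -/
theorem hasLev_m0 [Finite M] (hpM : ∀ x : M, p • x = 0) (hH : ∀ σ ∈ D.H, act σ = 1)
    (hE1 : act D.τ ^ (p + 1) = 1) (hEm : Function.Bijective (act D.τ - 1 : Module.End ℤ M))
    (hEp : Function.Bijective (act D.τ + 1 : Module.End ℤ M))
    {ξ : (Ω ≃ₐ[F] Ω) → M} (hξ : IsGood D act ξ) : ∀ lam, HasLev D ξ (p * p + 1) lam := by
  obtain ⟨g, hg, hgp⟩ := exists_zetap_exp D D.τ
  have hstab := radRel_stable D ξ act hH hξ.1 D.τ hg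
  have h0 : ∀ lam, HasLev D ξ (p ^ 2 - 1) lam :=
    fun lam => hasLev_of_allowed D ξ hξ.2.2 (hξ.2.1 lam)
  have h1 : ∀ lam, HasLev D ξ (p ^ 2 - 1 + 1) lam := by
    refine hasLev_step_poly D ξ _ hstab (TameData.e_pos p) (X - 1) ?_ ?_ h0
    · rw [map_sub, aeval_X, aeval_one, D.hζ.pow_eq_one, sub_self, norm_zero]
      exact one_pos
    · rw [aeval_precomp, map_sub, aeval_X, aeval_one]
      exact precomp_surjective (bijective_gA_sub_one D act hpM hE1 hEm hEp hgp)
  have h2 : p ^ 2 - 1 + 1 = p * p := by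
    have := TameData.e_pos p
    rw [← sq]; omega
  intro lam
  have h3 : HasLev D ξ (p * p) lam := h2 ▸ h1 lam
  refine hasLev_step_p D ξ hp.out.one_le ?_ h3
  have := hp.out.two_le
  have h4 : p * (p - 1) + p = p ^ 2 := by
    obtain ⟨q, rfl⟩ : ∃ q, p = q + 1 := ⟨p - 1, by omega⟩
    simp only [Nat.add_sub_cancel]; ring
  have := TameData.e_pos p
  omega

/-- A good cocycle of level `p² + 2` vanishes on `H`. -/
theorem res_eq_zero_of_hasLev [Finite M] (hpM : ∀ x : M, p • x = 0) (hH : ∀ σ ∈ D.H, act σ = 1)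
    (hE1 : act D.τ ^ (p + 1) = 1) (hEm : Function.Bijective (act D.τ - 1 : Module.End ℤ M))
    {ξ : (Ω ≃ₐ[F] Ω) → M} (hξ : IsGood D act ξ) (h : ∀ lam, HasLev D ξ (p * p + 2) lam) :
    ∀ σ ∈ D.H, ξ σ = 0 := by
  obtain ⟨g, hg, hgp⟩ := exists_zetap_exp D D.τ
  have hp2 := hp.out.two_le
  have hstab := radRel_stable D ξ act hH hξ.1 D.τ hg
  have hgpZ : ¬ (p : ℤ) ∣ (g : ℤ) := fun h => hgp (Int.natCast_dvd_natCast.mp h)
  have h0 := D.omega_tau hg
  have hz1 : ‖D.ζ ^ (p + 1)‖ ≤ 1 := by rw [norm_pow, norm_ζ D, one_pow]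
  have hg1 : ‖(g : Ω)‖ ≤ 1 := IsUltrametricDist.norm_natCast_le_one Ω g
  -- `A^(p+1) = 1`
  have hA1 : act D.τ⁻¹ ^ (p + 1) = 1 := by
    have h1 : act ((D.τ ^ (p + 1))⁻¹) * act (D.τ ^ (p + 1)) = 1 := by
      rw [← map_mul, inv_mul_cancel, map_one]
    rw [map_pow, hE1, mul_one] at h1
    rw [← map_pow, inv_pow, h1]
  -- the norm steps
  have hsteps : ∀ j, j ≤ p - 2 → ∀ lam, HasLev D ξ (p * p + 2 + j) lam := by
    intro j
    induction j with
    | zero => intro _; exact h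
    | succ j ih =>
      intro hj
      have ih' := ih (by omega)
      set m := p * p + 2 + j with hm
      have hm1 : 1 ≤ m := by omega
      change ∀ lam, HasLev D ξ (m + 1) lam
      refine hasLev_step_poly D ξ _ hstab (m := m) hm1 (X ^ (p + 1) - C ((g : ℤ) ^ m)) ?_ ?_ ih'
      · rw [map_sub, aeval_X_pow, aeval_C, ← pow_mul, mul_comm, pow_mul]
        have h1 := norm_pow_sub_pow_lt hz1 hg1 (by rwa [norm_sub_rev]) m
        rcases h1 with h1 | h1
        · simpa using h1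
        · omega
      · rw [aeval_precomp, map_sub, aeval_X_pow, aeval_C, _root_.smul_pow, hA1]
        have h2 : ((g : ℤ) ^ (p + 1) • (1 : Module.End ℤ M) -
            (algebraMap ℤ (Module.End ℤ M)) ((g : ℤ) ^ m)) =
              ((g : ℤ) ^ (p + 1) - (g : ℤ) ^ m) • (1 : Module.End ℤ M) := by
          rw [sub_smul, Algebra.algebraMap_eq_smul_one]
        rw [h2]
        apply precomp_surjective
        rw [coe_zsmul_one]
        apply zsmul_bijective_of_not_dvd hpM
        intro hd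
        -- `m = (p+1) + d`
        obtain ⟨d, hd'⟩ : ∃ d, m = (p + 1) + d ∧ d = p * (p - 1) + (1 + j) := by
          refine ⟨p * (p - 1) + (1 + j), ?_, rfl⟩
          obtain ⟨q, rfl⟩ : ∃ q, p = q + 1 := ⟨p - 1, by omega⟩
          simp only [Nat.add_sub_cancel]
          rw [hm]; ring
        have h3 : (g : ℤ) ^ (p + 1) - (g : ℤ) ^ m = -((g : ℤ) ^ (p + 1) * ((g : ℤ) ^ d - 1)) := by
          rw [hd'.1, pow_add]; ring
        rw [h3, dvd_neg] at hd
        have hpr := Nat.prime_iff_prime_int.mp hp.out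
        rcases hpr.dvd_or_dvd hd with h4 | h4
        · exact hgpZ (hpr.dvd_of_dvd_pow h4)
        · have h5 := sub_one_dvd_of_gpow D hg h4
          rw [hd'.2] at h5
          have h6 : (p - 1) ∣ 1 + j := (Nat.dvd_add_right (Dvd.intro _ (mul_comm _ _))).mp
            (by rwa [mul_comm] at h5)
          have := Nat.le_of_dvd (by omega) h6
          omega
  have htop : ∀ lam, HasLev D ξ (TameData.top p) lam := by
    have h1 := hsteps (p - 2) le_rfl
    have h2 : p * p + 2 + (p - 2) = TameData.top p := by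
      rw [TameData.top, sq]; omega
    rwa [h2] at h1
  have htop1 : ∀ lam, HasLev D ξ (TameData.top p + 1) lam := by
    refine hasLev_step_poly D ξ _ hstab (by rw [TameData.top]; omega) (X - C (g : ℤ)) ?_ ?_ htop
    · rw [map_sub, aeval_X, aeval_C, TameData.top_eq, pow_add, D.hζ.pow_eq_one, one_mul]
      rw [norm_sub_rev]
      simpa using h0
    · rw [aeval_precomp, map_sub, aeval_X, aeval_C]
      apply precomp_surjective
      rw [← Finite.injective_iff_bijective, injective_iff_map_eq_zero]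
      intro x hx
      have h1 : (g : ℤ) • (act D.τ⁻¹ x - x) = 0 := by
        have : ((g : ℤ) • act D.τ⁻¹ - (algebraMap ℤ (Module.End ℤ M)) (g : ℤ)) x =
            (g : ℤ) • act D.τ⁻¹ x - (g : ℤ) • x := by
          simp
        rw [this, ← smul_sub] at hx
        exact hx
      have h2 : act D.τ⁻¹ x - x = 0 :=
        (zsmul_bijective_of_not_dvd hpM hgpZ).1 (by simpa using h1)
      have h3 : act D.τ x = x := by
        have := congrArg (act D.τ) (sub_eq_zero.mp h2)
        rw [act_inv_mul] at this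
        exact this.symm
      apply hEm.1
      change act D.τ x - x = (act D.τ - 1 : Module.End ℤ M) 0
      rw [map_zero, h3, sub_self]
  intro σ hσ
  by_contra hne
  obtain ⟨lam, hlam⟩ := exists_addMonoidHom_zmod_ne_zero hpM hne
  exact hlam (eq_zero_of_hasLev_gt_top D ξ (htop1 lam) σ hσ)

end Descents

end Fermat.Agent.TW.KumEigen
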