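import Fermat.Agent.TW.KumEigen.Krasner

/-!
# PROGRAM G (S56), block F3-(f2) `KumEigen`: the levels of the tame field `K₁`

For `D : TameData p F Ω` (so `e₁ = p² - 1`, top level `p² + p`):

* `ρ ^ (p + 1) = ‖ζp - 1‖`, `ρ ^ (p² + p) = ‖ζp - 1‖ ^ p`;
* units of level `> p² + p` are `p`-th powers in `K₁` (`level_gt_top`);
* `p`-th roots of units of level `p² + p` are fixed by inertia (`level_top_unram`);
* `p`-step: a unit of level `p n` (`n (p - 1) < p² - 1`) is a `p`-th power times a unit of level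
  `p n + 1` (`p_step`);
* the cyclotomic character of `τ`: `τ ζp = ζp ^ g ⇒ ‖g - ζ ^ (p + 1)‖ < 1` (`omega_tau`);
* residues of powers of `ζ`, and the `p²` classes of level `m` modulo level `m + 1`.
-/

set_option autoImplicit false
set_option linter.unusedSectionVars false

open Polynomial Finset

namespace Fermat.Agent.TW.KumEigen

namespace TameData

variable {p : ℕ} [hp : Fact p.Prime] {F Ω : Type*} [Field F] [NormedField Ω] [Algebra F Ω]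
  [IsUltrametricDist Ω] (D : TameData p F Ω)

/-- The top level `p² + p = p e₁ / (p - 1)`. -/
def top (p : ℕ) : ℕ := p ^ 2 + p

theorem e_eq : p ^ 2 - 1 = (p + 1) * (p - 1) := by
  have := hp.out.two_le
  obtain ⟨q, rfl⟩ : ∃ q, p = q + 1 := ⟨p - 1, by omega⟩
  simp only [Nat.add_sub_cancel]
  have : (q + 1) ^ 2 = (q + 1 + 1) * q + 1 := by ring
  omega

theorem ρ_pow_e : D.ρ ^ (p ^ 2 - 1) = ‖(p : Ω)‖ := D.hπ

theorem ρ_pow_succ_p : D.ρ ^ (p + 1) = ‖D.ζp - 1‖ := by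
  have hp1 : p - 1 ≠ 0 := by have := hp.out.two_le; omega
  have h1 : (D.ρ ^ (p + 1)) ^ (p - 1) = ‖D.ζp - 1‖ ^ (p - 1) := by
    rw [← pow_mul, ← e_eq, D.ρ_pow_e, norm_zetap_sub_one_pow D.hζp]
  exact (pow_left_inj₀ (pow_nonneg D.ρ_pos.le _) (norm_nonneg _) hp1).mp h1

theorem ρ_pow_top : D.ρ ^ top p = ‖D.ζp - 1‖ ^ p := by
  rw [← D.ρ_pow_succ_p, ← pow_mul, top]
  congr 1
  ring

theorem top_eq : top p = (p ^ 2 - 1) + (p + 1) := by
  have := e_pos p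
  rw [top]
  omega

theorem ρ_pow_top' : D.ρ ^ top p = ‖(p : Ω)‖ * ‖D.ζp - 1‖ := by
  rw [top_eq, pow_add, D.ρ_pow_e, D.ρ_pow_succ_p]

/-- Units of level `> top` are `p`-th powers in `K₁`. -/
theorem level_gt_top {u : Ω} (huK : u ∈ D.K) (hu : ‖u - 1‖ ≤ D.ρ ^ (top p + 1)) :
    ∃ c ∈ D.K, c ^ p = u := by
  refine exists_pth_root_in_fixed D.H D.isom D.hζp D.exists_root huK ?_
  rw [← D.ρ_pow_top]
  refine hu.trans_lt ?_
  rw [pow_succ]
  calc D.ρ ^ top p * D.ρ < D.ρ ^ top p * 1 :=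
        mul_lt_mul_of_pos_left D.ρ_lt_one (pow_pos D.ρ_pos _)
    _ = D.ρ ^ top p := mul_one _

/-- `p`-th roots of units of level `top` are fixed by the inertia elements of `H`. -/
theorem level_top_unram {u : Ω} (huK : u ∈ D.K) (hu : ‖u - 1‖ ≤ D.ρ ^ top p)
    {β : Ω} (hβ : β ^ p = u) {σ : Ω ≃ₐ[F] Ω} (hσ : σ ∈ D.H)
    (hσI : ∀ x : Ω, ‖x‖ ≤ 1 → ‖σ x - x‖ < 1) : σ β = β := by
  refine root_fixed_of_inertia D.H D.hζp D.ζp_mem D.norm_p_lt D.norm_p_pos huK ?_ hβ hσ hσI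
  rw [← D.ρ_pow_top]; exact hu

theorem norm_natCast_le_norm_p {k : ℕ} (hk : p ∣ k) : ‖(k : Ω)‖ ≤ ‖(p : Ω)‖ := by
  obtain ⟨j, rfl⟩ := hk
  rw [Nat.cast_mul, norm_mul]
  exact mul_le_of_le_one_right (norm_nonneg _) (IsUltrametricDist.norm_natCast_le_one Ω j)

/-- `(1 + y)^p ≡ 1 + y^p` modulo `p y`. -/
theorem norm_one_add_pow_sub {y : Ω} (hy : ‖y‖ ≤ 1) :
    ‖(1 + y) ^ p - 1 - y ^ p‖ ≤ ‖(p : Ω)‖ * ‖y‖ := by
  obtain ⟨q, hq⟩ : ∃ q, p = q + 1 := ⟨p - 1, by have := hp.out.pos; omega⟩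
  have h1 : (1 + y) ^ p - 1 - y ^ p =
      ∑ m ∈ range q, y ^ (m + 1) * ((p.choose (m + 1) : ℕ) : Ω) := by
    rw [add_comm 1 y, add_pow]
    simp only [one_pow, mul_one]
    conv_lhs => rw [hq]
    rw [sum_range_succ, sum_range_succ']
    simp only [pow_zero, Nat.choose_zero_right, Nat.cast_one, mul_one, ← hq, Nat.choose_self]
    ring
  rw [h1]
  refine IsUltrametricDist.norm_sum_le_of_forall_le_of_nonneg
    (mul_nonneg (norm_nonneg _) (norm_nonneg _)) fun m hm => ?_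
  have hm' : m + 1 < p := by have := mem_range.mp hm; omega
  have hdvd : p ∣ p.choose (m + 1) := hp.out.dvd_choose_self (Nat.succ_ne_zero m) hm'
  rw [norm_mul, mul_comm]
  refine mul_le_mul (norm_natCast_le_norm_p hdvd) ?_ (norm_nonneg _) (norm_nonneg _)
  rw [norm_pow, pow_succ]
  exact mul_le_of_le_one_left (norm_nonneg _) (pow_le_one₀ (norm_nonneg _) hy)

/-- **`p`-step.** -/
theorem p_step {n : ℕ} (hn1 : 1 ≤ n) (hn : n * (p - 1) < p ^ 2 - 1) {u : Ω} (huK : u ∈ D.K)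
    (hu : ‖u - 1‖ ≤ D.ρ ^ (p * n)) :
    ∃ c ∈ D.K, c ≠ 0 ∧ ‖u / c ^ p - 1‖ ≤ D.ρ ^ (p * n + 1) := by
  by_cases hlt : ‖u - 1‖ < D.ρ ^ (p * n)
  · refine ⟨1, D.K.one_mem, one_ne_zero, ?_⟩
    rw [one_pow, div_one]
    exact D.disc' (D.K.sub_mem huK D.K.one_mem) hlt
  have heq : ‖u - 1‖ = D.ρ ^ (p * n) := le_antisymm hu (not_lt.mp hlt)
  have hπ0 := D.π_ne_zero
  set a := (u - 1) / D.π ^ (p * n) with ha
  have haK : a ∈ D.K := D.K.div_mem (D.K.sub_mem huK D.K.one_mem) (D.K.pow_mem D.π_mem _)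
  have ha1 : ‖a‖ = 1 := by
    rw [ha, norm_div, norm_pow, heq]
    exact div_self (pow_pos D.ρ_pos _).ne'
  have hax : u - 1 = D.π ^ (p * n) * a := by rw [ha]; field_simp
  rcases D.resid a haK ha1.le with h | ⟨i, hi⟩
  · exact absurd ha1 h.ne
  -- `b = ζ^(i p)` is a `p`-th root of `ζ^i`
  set b := D.ζ ^ (i * p) with hb
  have hbp : b ^ p = D.ζ ^ i := by
    have h2 : i * p * p = i + i * (p ^ 2 - 1) := by
      have := e_pos p
      have h3 : p ^ 2 = (p ^ 2 - 1) + 1 := by omega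
      calc i * p * p = i * p ^ 2 := by ring
        _ = i * ((p ^ 2 - 1) + 1) := by rw [← h3]
        _ = i + i * (p ^ 2 - 1) := by ring
    rw [hb, ← pow_mul, h2, pow_add, mul_comm i (p ^ 2 - 1), pow_mul, D.hζ.pow_eq_one, one_pow,
      mul_one]
  have hbK : b ∈ D.K := D.K.pow_mem D.ζ_mem _
  have hbn : ‖b‖ = 1 := D.norm_ζ_pow _
  set y := b * D.π ^ n with hy
  have hyK : y ∈ D.K := D.K.mul_mem hbK (D.K.pow_mem D.π_mem _)
  have hyn : ‖y‖ = D.ρ ^ n := by rw [hy, norm_mul, hbn, one_mul, norm_pow]; rfl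
  have hyn1 : ‖y‖ < 1 := by rw [hyn]; exact D.ρ_pow_lt_one hn1
  set c := 1 + y with hc
  have hcK : c ∈ D.K := D.K.add_mem D.K.one_mem hyK
  have hcn : ‖c‖ = 1 := by
    apply norm_eq_one_of_sub_one_lt
    rw [hc, add_sub_cancel_left]; exact hyn1
  have hc0 : c ≠ 0 := by rintro h; rw [h, norm_zero] at hcn; exact zero_ne_one hcn
  refine ⟨c, hcK, hc0, ?_⟩
  have hyp : y ^ p = D.ζ ^ i * D.π ^ (p * n) := by
    rw [hy, mul_pow, hbp, ← pow_mul, mul_comm n p]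
  -- `u - c^p` is small
  have hmid : ‖c ^ p - 1 - y ^ p‖ ≤ D.ρ ^ (p * n + 1) := by
    refine (norm_one_add_pow_sub hyn1.le).trans ?_
    rw [hyn, ← D.ρ_pow_e, ← pow_add]
    apply D.ρ_pow_anti
    have h4 : p * n = n * (p - 1) + n := by
      have := hp.out.pos
      have h5 : p = (p - 1) + 1 := by omega
      calc p * n = ((p - 1) + 1) * n := by rw [← h5]
        _ = n * (p - 1) + n := by ring
    omega
  have hdiff : u - c ^ p = D.π ^ (p * n) * (a - D.ζ ^ i) - (c ^ p - 1 - y ^ p) := by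
    rw [hyp]
    have : u = 1 + D.π ^ (p * n) * a := by rw [← hax]; ring
    rw [this]
    ring
  have hsmall : ‖u - c ^ p‖ < D.ρ ^ (p * n) := by
    rw [hdiff]
    refine (norm_sub_le_max' _ _).trans_lt (max_lt ?_ ?_)
    · rw [norm_mul, norm_pow]
      calc D.ρ ^ (p * n) * ‖a - D.ζ ^ i‖ < D.ρ ^ (p * n) * 1 :=
            mul_lt_mul_of_pos_left hi (pow_pos D.ρ_pos _)
        _ = D.ρ ^ (p * n) := mul_one _
    · refine hmid.trans_lt ?_
      rw [pow_succ]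
      calc D.ρ ^ (p * n) * D.ρ < D.ρ ^ (p * n) * 1 :=
            mul_lt_mul_of_pos_left D.ρ_lt_one (pow_pos D.ρ_pos _)
        _ = D.ρ ^ (p * n) := mul_one _
  have hle := D.disc' (D.K.sub_mem huK (D.K.pow_mem hcK p)) hsmall
  have hcp : ‖c ^ p‖ = 1 := by rw [norm_pow, hcn, one_pow]
  have : u / c ^ p - 1 = (u - c ^ p) / c ^ p := by
    field_simp
  rw [this, norm_div, hcp, div_one]
  exact hle

/-- **The cyclotomic character of `τ`.** -/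
theorem omega_tau {g : ℕ} (hg : D.τ D.ζp = D.ζp ^ g) : ‖(g : Ω) - D.ζ ^ (p + 1)‖ < 1 := by
  have hlam0 : 0 < ‖D.ζp - 1‖ := norm_zetap_sub_one_pos D.hζp D.norm_p_pos
  have hlam1 : ‖D.ζp - 1‖ < 1 := norm_zetap_sub_one_lt D.hζp D.norm_p_lt
  have hxK : D.ζp - 1 ∈ D.K := D.K.sub_mem D.ζp_mem D.K.one_mem
  have h1 := D.tau_level (p + 1) hxK (by rw [D.ρ_pow_succ_p])
  rw [map_sub, map_one, hg] at h1
  have h2 := (norm_pow_sub_one_sub (le_refl ‖D.ζp - 1‖) hlam1 g).1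
  -- combine
  have h3 : ((g : Ω) - D.ζ ^ (p + 1)) * (D.ζp - 1) =
      (D.ζp ^ g - 1 - D.ζ ^ (p + 1) * (D.ζp - 1)) - ((D.ζp ^ g - 1) - (g : Ω) * (D.ζp - 1)) := by
    ring
  have h4 : ‖((g : Ω) - D.ζ ^ (p + 1)) * (D.ζp - 1)‖ ≤ D.ρ ^ (p + 1 + 1) := by
    rw [h3]
    refine (norm_sub_le_max' _ _).trans (max_le h1 (h2.trans ?_))
    rw [← D.ρ_pow_succ_p, ← pow_add]
    exact D.ρ_pow_anti (by omega)
  rw [norm_mul, ← D.ρ_pow_succ_p, pow_succ (D.ρ) (p + 1), mul_comm] at h4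
  have h5 : ‖(g : Ω) - D.ζ ^ (p + 1)‖ ≤ D.ρ :=
    le_of_mul_le_mul_left h4 (pow_pos D.ρ_pos _)
  exact h5.trans_lt D.ρ_lt_one

omit D in
theorem norm_e (hp1 : ‖(p : Ω)‖ < 1) : ‖((p ^ 2 - 1 : ℕ) : Ω)‖ = 1 := by
  have h1 : ((p ^ 2 - 1 : ℕ) : Ω) = (p : Ω) ^ 2 - 1 := by
    rw [Nat.cast_sub (Nat.one_le_pow _ _ hp.out.pos)]
    push_cast
    ring
  have h2 : ‖(p : Ω) ^ 2‖ < 1 := by
    rw [norm_pow]
    exact pow_lt_one₀ (norm_nonneg _) hp1 two_ne_zero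
  rw [h1, ← norm_neg, neg_sub]
  apply norm_eq_one_of_sub_one_lt
  rw [sub_sub_cancel_left, norm_neg]
  exact h2

/-- Powers of `ζ` with exponents incongruent modulo `p² - 1` have distinct residues. -/
theorem norm_ζ_pow_sub {i j : ℕ} (hij : ¬ (p ^ 2 - 1 : ℤ) ∣ (i : ℤ) - j) :
    ‖D.ζ ^ i - D.ζ ^ j‖ = 1 := by
  wlog hle : j ≤ i generalizing i j
  · rw [norm_sub_rev]
    refine this (fun h => hij ?_) (le_of_not_ge hle)
    have : (i : ℤ) - j = -((j : ℤ) - i) := by ring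
    rw [this]; exact (dvd_neg).mpr h
  obtain ⟨d, rfl⟩ := Nat.exists_eq_add_of_le hle
  have h1 : D.ζ ^ (j + d) - D.ζ ^ j = D.ζ ^ j * (D.ζ ^ d - 1) := by rw [pow_add]; ring
  rw [h1, norm_mul, D.norm_ζ_pow, one_mul]
  apply norm_pow_sub_one_eq_one D.hζ (norm_e D.norm_p_lt)
  intro hd
  apply hij
  have : ((j + d : ℕ) : ℤ) - j = d := by push_cast; ring
  rw [this]
  have h2 : ((p ^ 2 - 1 : ℕ) : ℤ) ∣ (d : ℤ) := Int.natCast_dvd_natCast.mpr hd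
  rwa [Nat.cast_sub (Nat.one_le_pow _ _ hp.out.pos)] at h2
  
/-- The classes of level `m` modulo level `m + 1`: `1` and `1 + ζ^i π^m`. -/
theorem level_classes {m : ℕ} (hm : 1 ≤ m) {u : Ω} (huK : u ∈ D.K) (hu : ‖u - 1‖ ≤ D.ρ ^ m) :
    ‖u - 1‖ ≤ D.ρ ^ (m + 1) ∨
      ∃ i < p ^ 2 - 1, ‖u / (1 + D.ζ ^ i * D.π ^ m) - 1‖ ≤ D.ρ ^ (m + 1) := by
  by_cases hlt : ‖u - 1‖ < D.ρ ^ m
  · exact Or.inl (D.disc' (D.K.sub_mem huK D.K.one_mem) hlt)
  right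
  have heq : ‖u - 1‖ = D.ρ ^ m := le_antisymm hu (not_lt.mp hlt)
  have hπ0 := D.π_ne_zero
  set a := (u - 1) / D.π ^ m with ha
  have haK : a ∈ D.K := D.K.div_mem (D.K.sub_mem huK D.K.one_mem) (D.K.pow_mem D.π_mem _)
  have ha1 : ‖a‖ = 1 := by
    rw [ha, norm_div, norm_pow, heq]
    exact div_self (pow_pos D.ρ_pos _).ne'
  have hax : u - 1 = D.π ^ m * a := by rw [ha]; field_simp
  rcases D.resid a haK ha1.le with h | ⟨i, hi⟩
  · exact absurd ha1 h.ne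
  -- reduce `i` modulo `p² - 1`
  have he := e_pos p
  have hpow : D.ζ ^ i = D.ζ ^ (i % (p ^ 2 - 1)) := by
    conv_lhs => rw [← Nat.mod_add_div i (p ^ 2 - 1), pow_add, pow_mul, D.hζ.pow_eq_one, one_pow,
      mul_one]
  refine ⟨i % (p ^ 2 - 1), Nat.mod_lt _ he, ?_⟩
  rw [← hpow]
  set w := 1 + D.ζ ^ i * D.π ^ m with hw
  have hwK : w ∈ D.K :=
    D.K.add_mem D.K.one_mem (D.K.mul_mem (D.K.pow_mem D.ζ_mem _) (D.K.pow_mem D.π_mem _))
  have hw1 : ‖w - 1‖ < 1 := by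
    rw [hw, add_sub_cancel_left, norm_mul, D.norm_ζ_pow, one_mul, norm_pow]
    exact D.ρ_pow_lt_one hm
  have hwn : ‖w‖ = 1 := norm_eq_one_of_sub_one_lt hw1
  have hw0 : w ≠ 0 := by rintro h; rw [h, norm_zero] at hwn; exact zero_ne_one hwn
  have hdiff : u - w = D.π ^ m * (a - D.ζ ^ i) := by
    have : u = 1 + D.π ^ m * a := by rw [← hax]; ring
    rw [this, hw]; ring
  have hsmall : ‖u - w‖ < D.ρ ^ m := by
    rw [hdiff, norm_mul, norm_pow]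
    calc D.ρ ^ m * ‖a - D.ζ ^ i‖ < D.ρ ^ m * 1 :=
          mul_lt_mul_of_pos_left hi (pow_pos D.ρ_pos _)
      _ = D.ρ ^ m := mul_one _
  have hle := D.disc' (D.K.sub_mem huK hwK) hsmall
  have : u / w - 1 = (u - w) / w := by field_simp
  rw [this, norm_div, hwn, div_one]
  exact hle

end TameData

end Fermat.Agent.TW.KumEigen
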