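import Fermat.Agent.TW.KumEigen.RadRel
import Fermat.Agent.TW.KumEigen.Levels

/-!
# PROGRAM G (S56), block F3-(f2) `KumEigen`: descent along the levels

`HasLev D ξ m lam`: the Kummer radical of `lam ∘ ξ|H` has a representative of level `≥ m`
(i.e. `∃ β` radical of `(ξ, lam)` with `β^p ∈ K₁`, `‖β^p - 1‖ ≤ ρ^m`).

* `hasLev_of_allowed`: `Allowed` gives level `p² - 1`;
* `hasLev_step_poly`: if `‖Q(ζ^m)‖ < 1` and `Q(T)` is surjective on the characters, level `m`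
  for all `lam` implies level `m + 1` for all `lam`;
* `hasLev_step_p`: the `p`-step;
* `eq_zero_of_hasLev_gt_top`, `eq_zero_of_hasLev_top_of_inert`: the end of the filtration.
-/

set_option autoImplicit false
set_option linter.unusedSectionVars false
set_option linter.style.haveILetI false
set_option linter.unusedSimpArgs false

open Polynomial

namespace Fermat.Agent.TW.KumEigen

variable {p : ℕ} [hp : Fact p.Prime] {F Ω : Type*} [Field F] [NormedField Ω] [Algebra F Ω]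
  [IsUltrametricDist Ω] (D : TameData p F Ω) {M : Type*} [AddCommGroup M]
  (ξ : (Ω ≃ₐ[F] Ω) → M)

/-- `b` is a unit of `K₁` of level `≥ m`. -/
def IsLev (m : ℕ) (b : Additive Ωˣ) : Prop :=
  ((b.toMul : Ωˣ) : Ω) ∈ D.K ∧ ‖((b.toMul : Ωˣ) : Ω) - 1‖ ≤ D.ρ ^ m

/-- The Kummer radical of `lam ∘ ξ|H` has level `≥ m`. -/
def HasLev (m : ℕ) (lam : M →+ ZMod p) : Prop :=
  ∃ b : Additive Ωˣ, (lam, b) ∈ radRel D ξ ∧ IsLev D m (p • b)

theorem toMul_nsmul_val (b : Additive Ωˣ) (n : ℕ) :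
    (((n • b).toMul : Ωˣ) : Ω) = ((b.toMul : Ωˣ) : Ω) ^ n := by
  rw [toMul_nsmul, Units.val_pow_eq_pow_val]

/-- The `p`-th power of a radical lies in `K₁`. -/
theorem pow_mem_K_of_mem_radRel {lam : M →+ ZMod p} {b : Additive Ωˣ}
    (h : (lam, b) ∈ radRel D ξ) : (((p • b).toMul : Ωˣ) : Ω) ∈ D.K := by
  obtain ⟨-, hrad⟩ := (mem_radRel_iff_isRadical D ξ lam b).mp h
  rw [toMul_nsmul_val]
  intro σ hσ
  rw [map_pow, hrad σ hσ, mul_pow, ← pow_mul, mul_comm _ p, pow_mul, D.hζp.pow_eq_one, one_pow,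
    one_mul]

/-- Changing a radical by an element of `K₁ˣ`. -/
theorem sub_mem_radRel {lam : M →+ ZMod p} {b : Additive Ωˣ} (h : (lam, b) ∈ radRel D ξ)
    {c : Ω} (hcK : c ∈ D.K) (hc0 : c ≠ 0) :
    (lam, b - Additive.ofMul (Units.mk0 c hc0)) ∈ radRel D ξ := by
  have h0 : ((0 : M →+ ZMod p), Additive.ofMul (Units.mk0 c hc0)) ∈ radRel D ξ := by
    rw [zero_mem_radRel_iff]
    simpa using hcK
  have := (radRel D ξ).sub_mem h h0
  simpa using this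

theorem toMul_sub_ofMul_val (b : Additive Ωˣ) {c : Ω} (hc0 : c ≠ 0) :
    (((p • (b - Additive.ofMul (Units.mk0 c hc0))).toMul : Ωˣ) : Ω) =
      ((b.toMul : Ωˣ) : Ω) ^ p / c ^ p := by
  rw [toMul_nsmul_val, toMul_sub, toMul_ofMul, Units.val_div_eq_div_val, Units.val_mk0, div_pow]

/-- `Allowed` gives level `p² - 1`. -/
theorem hasLev_of_allowed (hA : Allowed D ξ) {lam : M →+ ZMod p}
    (hrad : ∃ b : Additive Ωˣ, (lam, b) ∈ radRel D ξ) : HasLev D ξ (p ^ 2 - 1) lam := by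
  obtain ⟨b, hb⟩ := hrad
  obtain ⟨c, hcK, hc0, hc⟩ := hA lam _ ((mem_radRel_iff_isRadical D ξ lam b).mp hb)
  refine ⟨b - Additive.ofMul (Units.mk0 c hc0), sub_mem_radRel D ξ hb hcK hc0, ?_, ?_⟩
  · exact pow_mem_K_of_mem_radRel D ξ (sub_mem_radRel D ξ hb hcK hc0)
  · rw [toMul_sub_ofMul_val, D.ρ_pow_e]
    exact hc

/-- **Polynomial step.** -/
theorem hasLev_step_poly (T : Module.End ℤ (M →+ ZMod p))
    (hstab : ∀ x ∈ radRel D ξ, (T x.1, unitEnd (D.τ : Ω →+* Ω) x.2) ∈ radRel D ξ)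
    {m : ℕ} (hm : 1 ≤ m) (Q : ℤ[X]) (hQ : ‖aeval (D.ζ ^ m) Q‖ < 1)
    (hsurj : Function.Surjective (aeval T Q))
    (h : ∀ lam, HasLev D ξ m lam) : ∀ lam, HasLev D ξ (m + 1) lam := by
  intro lam
  obtain ⟨lam', rfl⟩ := hsurj lam
  obtain ⟨b', hb', hK, hlev⟩ := h lam'
  have h1 := aeval_prod_mem (radRel D ξ) T (unitEnd (D.τ : Ω →+* Ω)) hstab Q _ hb'
  refine ⟨aeval (unitEnd (D.τ : Ω →+* Ω)) Q b', h1, ?_⟩
  have h2 : p • (aeval (unitEnd (D.τ : Ω →+* Ω)) Q b') =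
      Additive.ofMul (polyAct (D.τ : Ω →+* Ω) Q (p • b').toMul) := by
    rw [polyAct, ← map_nsmul]
    rfl
  have h3 := D.poly_step hm Q hQ hK hlev
  rw [IsLev, h2]
  exact h3

/-- **`p`-step.** -/
theorem hasLev_step_p {n : ℕ} (hn1 : 1 ≤ n) (hn : n * (p - 1) < p ^ 2 - 1)
    {lam : M →+ ZMod p} (h : HasLev D ξ (p * n) lam) : HasLev D ξ (p * n + 1) lam := by
  obtain ⟨b, hb, hK, hlev⟩ := h
  obtain ⟨c, hcK, hc0, hc⟩ := D.p_step hn1 hn hK hlev
  refine ⟨b - Additive.ofMul (Units.mk0 c hc0), sub_mem_radRel D ξ hb hcK hc0, ?_, ?_⟩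
  · exact pow_mem_K_of_mem_radRel D ξ (sub_mem_radRel D ξ hb hcK hc0)
  · rw [toMul_sub_ofMul_val, ← toMul_nsmul_val]
    exact hc

theorem HasLev.mono {m m' : ℕ} (hmm : m ≤ m') {lam : M →+ ZMod p} (h : HasLev D ξ m' lam) :
    HasLev D ξ m lam := by
  obtain ⟨b, hb, hK, hlev⟩ := h
  exact ⟨b, hb, hK, hlev.trans (D.ρ_pow_anti hmm)⟩

/-- A radical in `K₁` has trivial character. -/
theorem apply_eq_zero_of_fixed {lam : M →+ ZMod p} {b : Additive Ωˣ}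
    (hb : (lam, b) ∈ radRel D ξ) {σ : Ω ≃ₐ[F] Ω} (hσ : σ ∈ D.H)
    (hfix : σ ((b.toMul : Ωˣ) : Ω) = ((b.toMul : Ωˣ) : Ω)) : lam (ξ σ) = 0 := by
  have h1 := (mem_radRel D ξ).mp hb σ hσ
  have h2 : unitEnd (σ : Ω →+* Ω) b = b := by
    apply Additive.toMul.injective
    apply Units.ext
    simpa using hfix
  rw [h2] at h1
  have h3 : zetaHom D (lam (ξ σ)) = 0 := by
    have := congrArg (fun x => x - b) h1
    simpa using this.symm
  exact (zetaHom_eq_zero_iff D _).mp h3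

/-- Level `> top`: the character is trivial on `H`. -/
theorem eq_zero_of_hasLev_gt_top {lam : M →+ ZMod p}
    (h : HasLev D ξ (TameData.top p + 1) lam) : ∀ σ ∈ D.H, lam (ξ σ) = 0 := by
  obtain ⟨b, hb, hK, hlev⟩ := h
  obtain ⟨c, hcK, hc⟩ := D.level_gt_top hK hlev
  intro σ hσ
  apply apply_eq_zero_of_fixed D ξ hb hσ
  -- `β = ζp^i c ∈ K₁`
  set β : Ω := ((b.toMul : Ωˣ) : Ω) with hβ
  have hβp : β ^ p = (((p • b).toMul : Ωˣ) : Ω) := (toMul_nsmul_val b p).symm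
  have hu0 : (((p • b).toMul : Ωˣ) : Ω) ≠ 0 := Units.ne_zero _
  obtain ⟨i, -, hi⟩ := root_eq_pow_mul D.hζp hc hβp hu0
  have hβK : β ∈ D.K := by
    rw [hi]
    exact D.K.mul_mem (D.K.pow_mem D.ζp_mem i) hcK
  exact hβK σ hσ

/-- Level `top`: the character is unramified. -/
theorem eq_zero_of_hasLev_top_of_inert {lam : M →+ ZMod p}
    (h : HasLev D ξ (TameData.top p) lam) :
    ∀ σ ∈ D.H, IsInert σ → lam (ξ σ) = 0 := by
  obtain ⟨b, hb, hK, hlev⟩ := h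
  intro σ hσ hI
  apply apply_eq_zero_of_fixed D ξ hb hσ
  exact D.level_top_unram hK hlev (toMul_nsmul_val b p).symm hσ hI

end Fermat.Agent.TW.KumEigen
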