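import Fermat.Agent.TW.KumEigen.Descent

/-!
# PROGRAM G (S56), block F3-(f2) `KumEigen`: integers, the polynomial `Q_c`, scalar steps

* norms of integers in `Ω` (`p ∣ n ⇒ ‖n‖ < 1`, `p ∤ n ⇒ ‖n‖ = 1`);
* integer scalars prime to `p` act bijectively on groups killed by `p`;
* `Qc e c' = ∑_{j<e} c'^j X^j`: `‖Qc(z)‖ < 1` when `z^e = 1`, `c c' ≡ 1`, `‖z - c‖ = 1`,
  `(p-1) ∣ e`; and `Qc(c • 1) = (∑ (c' c)^j) • 1`;
* `hasLev_step_scalar`: the descent step when `T` is an integer scalar.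
-/

set_option autoImplicit false
set_option linter.unusedSectionVars false
set_option linter.style.haveILetI false
set_option linter.unusedSimpArgs false

open Polynomial Finset

namespace Fermat.Agent.TW.KumEigen

section Ints

variable {p : ℕ} [hp : Fact p.Prime] {Ω : Type*} [NormedField Ω] [IsUltrametricDist Ω]

theorem norm_intCast_le_of_dvd {n : ℤ} (h : (p : ℤ) ∣ n) : ‖(n : Ω)‖ ≤ ‖(p : Ω)‖ := by
  obtain ⟨k, rfl⟩ := h
  rw [Int.cast_mul, Int.cast_natCast, norm_mul]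
  exact mul_le_of_le_one_right (norm_nonneg _) (IsUltrametricDist.norm_intCast_le_one Ω k)

theorem norm_intCast_lt_one_of_dvd (hp1 : ‖(p : Ω)‖ < 1) {n : ℤ} (h : (p : ℤ) ∣ n) :
    ‖(n : Ω)‖ < 1 := (norm_intCast_le_of_dvd h).trans_lt hp1

/-- An integer prime to `p` has an inverse modulo `p`. -/
theorem exists_int_inv_mod {n : ℤ} (h : ¬ (p : ℤ) ∣ n) : ∃ n' : ℤ, (p : ℤ) ∣ n * n' - 1 := by
  have hn : ((n : ZMod p)) ≠ 0 := by
    rwa [Ne, ZMod.intCast_zmod_eq_zero_iff_dvd]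
  haveI : NeZero p := ⟨hp.out.ne_zero⟩
  obtain ⟨k, hk⟩ : ∃ k : ℤ, (k : ZMod p) = ((n : ZMod p))⁻¹ :=
    ⟨((((n : ZMod p))⁻¹).val : ℤ), by rw [Int.cast_natCast, ZMod.natCast_zmod_val]⟩
  refine ⟨k, ?_⟩
  rw [← ZMod.intCast_zmod_eq_zero_iff_dvd]
  push_cast
  rw [hk, mul_inv_cancel₀ hn, sub_self]

theorem norm_intCast_eq_one (hp1 : ‖(p : Ω)‖ < 1) {n : ℤ} (h : ¬ (p : ℤ) ∣ n) :
    ‖(n : Ω)‖ = 1 := by
  obtain ⟨n', hn'⟩ := exists_int_inv_mod h
  have h1 : ‖((n * n' - 1 : ℤ) : Ω)‖ < 1 := norm_intCast_lt_one_of_dvd hp1 hn'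
  have h2 : ‖(n : Ω) * (n' : Ω)‖ = 1 := by
    apply norm_eq_one_of_sub_one_lt
    have : (n : Ω) * (n' : Ω) - 1 = ((n * n' - 1 : ℤ) : Ω) := by push_cast; ring
    rw [this]; exact h1
  rw [norm_mul] at h2
  have h3 : ‖(n : Ω)‖ ≤ 1 := IsUltrametricDist.norm_intCast_le_one Ω n
  have h4 : ‖(n' : Ω)‖ ≤ 1 := IsUltrametricDist.norm_intCast_le_one Ω n'
  by_contra hne
  have h5 : ‖(n : Ω)‖ < 1 := lt_of_le_of_ne h3 hne
  have : ‖(n : Ω)‖ * ‖(n' : Ω)‖ < 1 := by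
    calc ‖(n : Ω)‖ * ‖(n' : Ω)‖ ≤ ‖(n : Ω)‖ * 1 :=
          mul_le_mul_of_nonneg_left h4 (norm_nonneg _)
      _ < 1 := by rw [mul_one]; exact h5
  exact absurd h2 this.ne

/-- An integer scalar prime to `p` acts bijectively on a group killed by `p`. -/
theorem zsmul_bijective_of_not_dvd {N : Type*} [AddCommGroup N] (hpN : ∀ x : N, p • x = 0)
    {n : ℤ} (h : ¬ (p : ℤ) ∣ n) : Function.Bijective (fun x : N => n • x) := by
  obtain ⟨n', k, hk⟩ := exists_int_inv_mod h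
  have hinv : ∀ x : N, n' • (n • x) = x := by
    intro x
    have h1 : n' * n = 1 + (p : ℤ) * k := by linarith
    rw [smul_smul, h1, add_smul, one_smul, mul_comm, mul_smul, natCast_zsmul, hpN, smul_zero,
      add_zero]
  have hinv' : ∀ x : N, n • (n' • x) = x := by
    intro x; rw [smul_comm]; exact hinv x
  exact ⟨fun x y hxy => by
    have := congrArg (fun z => n' • z) hxy
    simpa [hinv] using this, fun y => ⟨n' • y, hinv' y⟩⟩

/-- Integers congruent modulo `p` act in the same way on a group killed by `p`. -/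
theorem zsmul_eq_of_dvd_sub {N : Type*} [AddCommGroup N] (hpN : ∀ x : N, p • x = 0)
    {a b : ℤ} (h : (p : ℤ) ∣ a - b) (x : N) : a • x = b • x := by
  obtain ⟨k, hk⟩ := h
  have : a = b + (p : ℤ) * k := by linarith
  rw [this, add_smul, mul_comm, mul_smul, natCast_zsmul, hpN, smul_zero, add_zero]

end Ints

section Qc

/-- `Q_c = ∑_{j<e} c'^j X^j` (`c'` an inverse of `c` modulo `p`). -/
noncomputable def Qc (e : ℕ) (c' : ℤ) : ℤ[X] := ∑ j ∈ range e, C (c' ^ j) * X ^ j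

theorem aeval_Qc {A : Type*} [CommRing A] (e : ℕ) (c' : ℤ) (z : A) :
    aeval z (Qc e c') = ∑ j ∈ range e, ((c' : A) * z) ^ j := by
  rw [Qc, map_sum]
  refine sum_congr rfl fun j _ => ?_
  rw [map_mul, aeval_C, aeval_X_pow, mul_pow, eq_intCast, Int.cast_pow]

variable {p : ℕ} [hp : Fact p.Prime] {Ω : Type*} [NormedField Ω] [IsUltrametricDist Ω]

theorem norm_aeval_Qc_lt (hp1 : ‖(p : Ω)‖ < 1) {e : ℕ} (he : (p - 1) ∣ e) {c c' : ℤ}
    (hcc' : (p : ℤ) ∣ c * c' - 1) {z : Ω} (hze : z ^ e = 1) (hzc : ‖z - (c : Ω)‖ = 1) :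
    ‖aeval z (Qc e c')‖ < 1 := by
  have hc' : ¬ (p : ℤ) ∣ c' := by
    intro h
    have h1 : (p : ℤ) ∣ c * c' := Dvd.dvd.mul_left h c
    have h2 : (p : ℤ) ∣ 1 := by
      have := dvd_sub h1 hcc'
      simpa using this
    have := Int.eq_one_of_dvd_one (by positivity) h2
    have hp2 := hp.out.two_le
    omega
  have hc'norm : ‖(c' : Ω)‖ = 1 := norm_intCast_eq_one hp1 hc'
  -- `‖c' z - 1‖ = 1`
  have h1 : ‖(c' : Ω) * z - 1‖ = 1 := by
    have h2 : (c' : Ω) * z - 1 = (c' : Ω) * (z - c) + ((c * c' - 1 : ℤ) : Ω) := by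
      push_cast; ring
    have h3 : ‖(c' : Ω) * (z - c)‖ = 1 := by rw [norm_mul, hc'norm, hzc, one_mul]
    have h4 : ‖((c * c' - 1 : ℤ) : Ω)‖ < 1 := norm_intCast_lt_one_of_dvd hp1 hcc'
    rw [h2, IsUltrametricDist.norm_add_eq_max_of_norm_ne_norm (by rw [h3]; exact h4.ne'), h3]
    exact max_eq_left h4.le
  -- `(c' z - 1) * Qc(z) = c'^e - 1`
  have h5 : ((c' : Ω) * z - 1) * aeval z (Qc e c') = ((c' ^ e - 1 : ℤ) : Ω) := by
    rw [aeval_Qc, mul_geom_sum, mul_pow, hze, mul_one]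
    push_cast; ring
  -- `p ∣ c'^e - 1`
  have h6 : (p : ℤ) ∣ c' ^ e - 1 := by
    rw [← ZMod.intCast_zmod_eq_zero_iff_dvd]
    push_cast
    have hne : ((c' : ZMod p)) ≠ 0 := by
      rwa [Ne, ZMod.intCast_zmod_eq_zero_iff_dvd]
    obtain ⟨d, rfl⟩ := he
    rw [pow_mul, ZMod.pow_card_sub_one_eq_one hne, one_pow, sub_self]
  have h7 : ‖((c' : Ω) * z - 1) * aeval z (Qc e c')‖ < 1 := by
    rw [h5]; exact norm_intCast_lt_one_of_dvd hp1 h6
  rwa [norm_mul, h1, one_mul] at h7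

/-- `Q_c` evaluated at an integer scalar endomorphism. -/
theorem aeval_Qc_zsmul_one {N : Type*} [AddCommGroup N] (e : ℕ) (c c' : ℤ) :
    aeval (c • (1 : Module.End ℤ N)) (Qc e c') =
      (∑ j ∈ range e, (c' * c) ^ j) • (1 : Module.End ℤ N) := by
  rw [Qc, map_sum, sum_smul]
  refine sum_congr rfl fun j _ => ?_
  rw [map_mul, aeval_C, aeval_X_pow, _root_.smul_pow, one_pow, mul_pow]
  ext x
  simp [Module.algebraMap_end_apply, mul_smul]

/-- `∑_{j<e} a^j ≡ e` modulo `p` if `a ≡ 1`. -/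
theorem geom_sum_sub_dvd {a : ℤ} (ha : (p : ℤ) ∣ a - 1) (e : ℕ) :
    (p : ℤ) ∣ (∑ j ∈ range e, a ^ j) - e := by
  rw [← ZMod.intCast_zmod_eq_zero_iff_dvd]
  have h1 : (a : ZMod p) = 1 := by
    have := (ZMod.intCast_zmod_eq_zero_iff_dvd (a - 1) p).mpr ha
    push_cast at this
    exact sub_eq_zero.mp this
  push_cast
  simp [h1]

end Qc

section ScalarStep

variable {p : ℕ} [hp : Fact p.Prime] {F Ω : Type*} [Field F] [NormedField Ω] [Algebra F Ω]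
  [IsUltrametricDist Ω] (D : TameData p F Ω) {M : Type*} [AddCommGroup M]
  (ξ : (Ω ≃ₐ[F] Ω) → M)

/-- **Scalar step**: if `T = precomp (c • 1)` with `c` prime to `p` and `‖ζ^m - c‖ = 1`, level `m`
for all characters implies level `m + 1`. -/
theorem hasLev_step_scalar (hpM : ∀ x : M, p • x = 0) {c : ℤ} (hc : ¬ (p : ℤ) ∣ c)
    (hstab : ∀ x ∈ radRel D ξ,
      (precomp (p := p) (c • (1 : Module.End ℤ M)) x.1, unitEnd (D.τ : Ω →+* Ω) x.2) ∈ radRel D ξ)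
    {m : ℕ} (hm : 1 ≤ m) (hmc : ‖D.ζ ^ m - (c : Ω)‖ = 1)
    (h : ∀ lam, HasLev D ξ m lam) : ∀ lam, HasLev D ξ (m + 1) lam := by
  obtain ⟨c', hcc'⟩ := exists_int_inv_mod hc
  have he : (p - 1) ∣ (p ^ 2 - 1) := ⟨p + 1, by rw [TameData.e_eq, mul_comm]⟩
  have hze : (D.ζ ^ m) ^ (p ^ 2 - 1) = 1 := by
    rw [← pow_mul, mul_comm, pow_mul, D.hζ.pow_eq_one, one_pow]
  refine hasLev_step_poly D ξ _ hstab hm (Qc (p ^ 2 - 1) c')
    (norm_aeval_Qc_lt D.norm_p_lt he hcc' hze hmc) ?_ h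
  -- surjectivity of `Qc(T)`
  rw [aeval_precomp, aeval_Qc_zsmul_one]
  apply precomp_surjective
  have h1 : (p : ℤ) ∣ (∑ j ∈ range (p ^ 2 - 1), (c' * c) ^ j) - ((p ^ 2 - 1 : ℕ) : ℤ) :=
    geom_sum_sub_dvd (by rw [mul_comm]; exact hcc') _
  have h2 : ¬ (p : ℤ) ∣ ∑ j ∈ range (p ^ 2 - 1), (c' * c) ^ j := by
    intro hd
    have h3 : (p : ℤ) ∣ ((p ^ 2 - 1 : ℕ) : ℤ) := by
      have := dvd_sub hd h1
      simpa using this
    have h4 : p ∣ p ^ 2 - 1 := Int.natCast_dvd_natCast.mp h3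
    have h5 : p ∣ p ^ 2 := dvd_pow_self p two_ne_zero
    have h6 : p ∣ 1 := by
      have h7 := TameData.e_pos p
      have : p ^ 2 = (p ^ 2 - 1) + 1 := by omega
      rw [this] at h5
      exact (Nat.dvd_add_right h4).mp h5
    exact hp.out.one_lt.ne' (Nat.dvd_one.mp h6)
  exact zsmul_bijective_of_not_dvd hpM h2

end ScalarStep

end Fermat.Agent.TW.KumEigen
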