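import Fermat.Agent.TW.KumEigen.LevSub
import Fermat.Agent.TW.KumEigen.Scalar
import Fermat.Agent.TW.KumEigen.Count

/-!
# PROGRAM G (S56), block F3-(f2) `KumEigen`: good cocycles

`IsGood D act ξ`: `ξ : Gal(Ω/F) → M` is a 1-cocycle for `act` (convention
`ξ (g * h) = act g (ξ h) + ξ g`), every character `lam ∘ ξ|H` has a Kummer radical, and `ξ` is
`Allowed` (its radicals are `p`-th powers in `K₁` up to a unit `≡ 1 mod p`).
-/

set_option autoImplicit false
set_option linter.unusedSectionVars false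

namespace Fermat.Agent.TW.KumEigen

variable {p : ℕ} [hp : Fact p.Prime] {F Ω : Type*} [Field F] [NormedField Ω] [Algebra F Ω]
  [IsUltrametricDist Ω] (D : TameData p F Ω) {M : Type*} [AddCommGroup M]

/-- Good cocycles. -/
def IsGood (act : (Ω ≃ₐ[F] Ω) →* Module.End ℤ M) (ξ : (Ω ≃ₐ[F] Ω) → M) : Prop :=
  (∀ g h, ξ (g * h) = act g (ξ h) + ξ g) ∧
    (∀ lam : M →+ ZMod p, ∃ b : Additive Ωˣ, (lam, b) ∈ radRel D ξ) ∧ Allowed D ξ

end Fermat.Agent.TW.KumEigen
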