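import Fermat.Agent.TW.KumEigen.Data

/-!
# PROGRAM G (S56), block F3-(f2) `KumEigen`: roots of unity, Krasner-type `p`-th roots, the
unramified top piece

Norm-language lemmas in an ultrametric normed field `Ω` with an isometric Galois action:

* `‖ζp - 1‖ ^ (p - 1) = ‖p‖` and `‖ζp ^ i - 1‖ = ‖ζp - 1‖` for `p ∤ i`;
* `‖ζ ^ i - 1‖ = 1` for a primitive `e`-th root of unity with `‖e‖ = 1`, `e ∤ i`;
* (Krasner) a unit `u` of the fixed field of `H` with `‖u - 1‖ < ‖p‖‖ζp - 1‖` is a `p`-th power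
  in the fixed field;
* (top piece) if `‖u - 1‖ ≤ ‖p‖‖ζp - 1‖` the `p`-th roots of `u` are fixed by the inertia
  elements of `H`.
-/

set_option autoImplicit false
set_option linter.unusedSectionVars false

open Polynomial Finset

namespace Fermat.Agent.TW.KumEigen

variable {Ω : Type*} [NormedField Ω] [IsUltrametricDist Ω]

theorem norm_sum_le_one {ι : Type*} (s : Finset ι) (f : ι → Ω) (h : ∀ i ∈ s, ‖f i‖ ≤ 1) :
    ‖∑ i ∈ s, f i‖ ≤ 1 :=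
  IsUltrametricDist.norm_sum_le_of_forall_le_of_nonneg zero_le_one h

theorem norm_pow_sub_one_le {z : Ω} (hz : ‖z‖ ≤ 1) (i : ℕ) : ‖z ^ i - 1‖ ≤ ‖z - 1‖ := by
  rw [← geom_sum_mul z i, norm_mul]
  refine mul_le_of_le_one_left (norm_nonneg _) (norm_sum_le_one _ _ fun j _ => ?_)
  rw [norm_pow]
  exact pow_le_one₀ (norm_nonneg _) hz

theorem norm_eq_one_of_pow_eq_one {z : Ω} {n : ℕ} (hn : n ≠ 0) (h : z ^ n = 1) : ‖z‖ = 1 := by
  have h1 : ‖z‖ ^ n = 1 := by rw [← norm_pow, h, norm_one]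
  exact (pow_eq_one_iff_of_nonneg (norm_nonneg _) hn).mp h1

section PrimeRoot

variable {p : ℕ} [hp : Fact p.Prime] {ζp : Ω} (hζp : IsPrimitiveRoot ζp p)

include hζp

theorem norm_zetap : ‖ζp‖ = 1 := norm_eq_one_of_pow_eq_one hp.out.ne_zero hζp.pow_eq_one

theorem norm_zetap_pow_sub_one {i : ℕ} (hi : ¬ p ∣ i) : ‖ζp ^ i - 1‖ = ‖ζp - 1‖ := by
  refine le_antisymm (norm_pow_sub_one_le (norm_zetap hζp).le i) ?_
  have hcop : Nat.Coprime i p := ((Nat.Prime.coprime_iff_not_dvd hp.out).mpr hi).symm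
  obtain ⟨j, -, hj⟩ := Nat.exists_mul_mod_eq_one_of_coprime hcop hp.out.one_lt
  have h1 : (ζp ^ i) ^ j = ζp := by
    rw [← pow_mul, ← Nat.mod_add_div (i * j) p, hj, pow_add, pow_mul, hζp.pow_eq_one, one_pow,
      mul_one, pow_one]
  have h2 : ‖ζp ^ i‖ ≤ 1 := by rw [norm_pow, norm_zetap hζp, one_pow]
  calc ‖ζp - 1‖ = ‖(ζp ^ i) ^ j - 1‖ := by rw [h1]
    _ ≤ ‖ζp ^ i - 1‖ := norm_pow_sub_one_le h2 j

theorem norm_zetap_sub_one_pow : ‖ζp - 1‖ ^ (p - 1) = ‖(p : Ω)‖ := by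
  obtain ⟨n, hn⟩ : ∃ n, p = n + 1 := ⟨p - 1, (Nat.succ_pred_eq_of_pos hp.out.pos).symm⟩
  have hζ' : IsPrimitiveRoot ζp (n + 1) := hn ▸ hζp
  have h := hζ'.prod_one_sub_pow_eq_order
  have h2 : ‖∏ k ∈ range n, (1 - ζp ^ (k + 1))‖ = ‖ζp - 1‖ ^ n := by
    rw [norm_prod]
    have : ∀ k ∈ range n, ‖1 - ζp ^ (k + 1)‖ = ‖ζp - 1‖ := by
      intro k hk
      rw [norm_sub_rev]
      apply norm_zetap_pow_sub_one hζp
      intro hdvd
      have h3 : k + 1 < p := by rw [hn]; have := mem_range.mp hk; omega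
      exact absurd (Nat.le_of_dvd (Nat.succ_pos k) hdvd) (not_le.mpr h3)
    rw [prod_congr rfl this, prod_const, card_range]
  have h4 : (p : Ω) = (n : Ω) + 1 := by rw [hn]; push_cast; rfl
  rw [h4, ← h, h2, hn, Nat.add_sub_cancel]

theorem norm_zetap_sub_one_pos (hp0 : 0 < ‖(p : Ω)‖) : 0 < ‖ζp - 1‖ := by
  rcases (norm_nonneg (ζp - 1)).eq_or_lt with h | h
  · have h1 := norm_zetap_sub_one_pow hζp
    have hp1 : p - 1 ≠ 0 := by have := hp.out.two_le; omega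
    rw [← h, zero_pow hp1] at h1
    exact absurd h1.symm hp0.ne'
  · exact h

theorem norm_zetap_sub_one_lt (hp1 : ‖(p : Ω)‖ < 1) : ‖ζp - 1‖ < 1 := by
  by_contra hge
  rw [not_lt] at hge
  have h1 : 1 ≤ ‖ζp - 1‖ ^ (p - 1) := one_le_pow₀ hge
  rw [norm_zetap_sub_one_pow hζp] at h1
  linarith

/-- `1 - u = ∏ (1 - ζp^i β)` for `β ^ p = u`. -/
theorem prod_one_sub_root {β u : Ω} (hβ : β ^ p = u) :
    ∏ i ∈ range p, (1 - ζp ^ i * β) = 1 - u := by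
  have h := X_pow_sub_C_eq_prod hζp hp.out.pos hβ
  have h1 := congrArg (Polynomial.eval 1) h
  simp only [eval_sub, eval_pow, eval_X, one_pow, eval_C, eval_prod] at h1
  exact h1.symm

/-- Every `p`-th root of `u` is `ζp^i β`. -/
theorem root_eq_pow_mul {β β' u : Ω} (hβ : β ^ p = u) (hβ' : β' ^ p = u) (hu : u ≠ 0) :
    ∃ i < p, β' = ζp ^ i * β := by
  have hβ0 : β ≠ 0 := by rintro rfl; rw [zero_pow hp.out.ne_zero] at hβ; exact hu hβ.symm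
  have h1 : (β' / β) ^ p = 1 := by rw [div_pow, hβ, hβ', div_self hu]
  obtain ⟨i, hi, h2⟩ := hζp.eq_pow_of_pow_eq_one h1
  exact ⟨i, hi, by rw [h2]; field_simp⟩

end PrimeRoot

/-- Roots of unity of order prime to the residue characteristic have distinct residues. -/
theorem norm_pow_sub_one_eq_one {e : ℕ} {ζ : Ω} (hζ : IsPrimitiveRoot ζ e) (he : ‖(e : Ω)‖ = 1)
    {i : ℕ} (hi : ¬ e ∣ i) : ‖ζ ^ i - 1‖ = 1 := by
  have he0 : e ≠ 0 := by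
    rintro rfl
    simp at he
  obtain ⟨n, rfl⟩ : ∃ n, e = n + 1 := ⟨e - 1, (Nat.succ_pred_eq_of_pos (Nat.pos_of_ne_zero he0)).symm⟩
  have hz : ‖ζ‖ = 1 := norm_eq_one_of_pow_eq_one he0 hζ.pow_eq_one
  have hle : ∀ k : ℕ, ‖1 - ζ ^ k‖ ≤ 1 := by
    intro k
    refine (norm_sub_le_max' _ _).trans (max_le (by rw [norm_one]) ?_)
    rw [norm_pow, hz, one_pow]
  -- reduce `i` modulo `n + 1`
  have hi' : i % (n + 1) ≠ 0 := fun h => hi (Nat.dvd_of_mod_eq_zero h)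
  have hpow : ζ ^ i = ζ ^ (i % (n + 1)) := by
    conv_lhs => rw [← Nat.mod_add_div i (n + 1), pow_add, pow_mul, hζ.pow_eq_one, one_pow, mul_one]
  obtain ⟨k, hk⟩ : ∃ k, i % (n + 1) = k + 1 := ⟨i % (n + 1) - 1, by omega⟩
  have hkn : k ∈ range n := by
    rw [mem_range]
    have := Nat.mod_lt i (show 0 < n + 1 by omega)
    omega
  have h := hζ.prod_one_sub_pow_eq_order
  have h1 : ‖∏ j ∈ range n, (1 - ζ ^ (j + 1))‖ = 1 := by
    rw [h]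
    have : ((n + 1 : ℕ) : Ω) = (n : Ω) + 1 := by push_cast; rfl
    rw [← this]; exact he
  rw [norm_prod, ← mul_prod_erase _ _ hkn] at h1
  have h2 : ∏ j ∈ (range n).erase k, ‖1 - ζ ^ (j + 1)‖ ≤ 1 :=
    prod_le_one (fun _ _ => norm_nonneg _) (fun j _ => hle _)
  have h3 : ‖1 - ζ ^ (k + 1)‖ = 1 := by
    refine le_antisymm (hle _) ?_
    by_contra hlt
    rw [not_le] at hlt
    have h4 : ‖1 - ζ ^ (k + 1)‖ * ∏ j ∈ (range n).erase k, ‖1 - ζ ^ (j + 1)‖ < 1 := by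
      calc ‖1 - ζ ^ (k + 1)‖ * ∏ j ∈ (range n).erase k, ‖1 - ζ ^ (j + 1)‖
          ≤ ‖1 - ζ ^ (k + 1)‖ * 1 := mul_le_mul_of_nonneg_left h2 (norm_nonneg _)
        _ < 1 := by rw [mul_one]; exact hlt
    exact absurd h1 h4.ne
  rw [hpow, hk, norm_sub_rev]
  exact h3

section Galois

variable {F : Type*} [Field F] [Algebra F Ω] {p : ℕ} [hp : Fact p.Prime]

/-- **Krasner-type `p`-th root.** -/
theorem exists_pth_root_in_fixed (H : Subgroup (Ω ≃ₐ[F] Ω))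
    (hiso : ∀ (g : Ω ≃ₐ[F] Ω) (x : Ω), ‖g x‖ = ‖x‖)
    {ζp : Ω} (hζp : IsPrimitiveRoot ζp p)
    (hroot : ∀ u : Ω, ∃ β : Ω, β ^ p = u)
    {u : Ω} (huK : u ∈ fixedSubfield H) (hu : ‖u - 1‖ < ‖ζp - 1‖ ^ p) :
    ∃ c ∈ fixedSubfield H, c ^ p = u := by
  have hlam0 : 0 ≤ ‖ζp - 1‖ := norm_nonneg _
  have hp0 : p ≠ 0 := hp.out.ne_zero
  obtain ⟨β, hβ⟩ := hroot u
  -- some root is close to `1`
  have hex : ∃ i ∈ range p, ‖1 - ζp ^ i * β‖ < ‖ζp - 1‖ := by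
    by_contra hno
    simp only [not_exists, not_and, not_lt] at hno
    have h1 : ‖ζp - 1‖ ^ p ≤ ‖∏ i ∈ range p, (1 - ζp ^ i * β)‖ := by
      rw [norm_prod]
      calc ‖ζp - 1‖ ^ p = ∏ _i ∈ range p, ‖ζp - 1‖ := by rw [prod_const, card_range]
        _ ≤ ∏ i ∈ range p, ‖1 - ζp ^ i * β‖ :=
            prod_le_prod (fun _ _ => hlam0) (fun i hi => hno i hi)
    rw [prod_one_sub_root hζp hβ, norm_sub_rev 1 u] at h1
    exact absurd hu (not_lt.mpr h1)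
  obtain ⟨i, -, hi⟩ := hex
  set β0 := ζp ^ i * β with hβ0
  have hβ0p : β0 ^ p = u := by
    rw [hβ0, mul_pow, ← pow_mul, mul_comm i p, pow_mul, hζp.pow_eq_one, one_pow, one_mul, hβ]
  refine ⟨β0, ?_, hβ0p⟩
  intro σ hσ
  have hσu : σ u = u := huK σ hσ
  have hσβ : (σ β0) ^ p = u := by rw [← map_pow, hβ0p, hσu]
  rcases eq_or_ne u 0 with hu0 | hu0
  · have h0 : β0 = 0 := by
      have : β0 ^ p = 0 := by rw [hβ0p, hu0]
      exact pow_eq_zero_iff hp0 |>.mp this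
    rw [h0, map_zero]
  obtain ⟨j, hj, hσj⟩ := root_eq_pow_mul hζp hβ0p hσβ hu0
  by_cases hpj : p ∣ j
  · obtain ⟨t, rfl⟩ := hpj
    rw [hσj, pow_mul, hζp.pow_eq_one, one_pow, one_mul]
  exfalso
  -- `‖σ β0 - β0‖ = ‖ζp - 1‖ ‖β0‖` but also `< ‖ζp - 1‖`
  have hβ0norm : ‖β0‖ = 1 := by
    by_cases hl : ‖ζp - 1‖ < 1
    · have : ‖β0 - 1‖ < 1 := by rw [norm_sub_rev]; exact hi.trans hl
      exact norm_eq_one_of_sub_one_lt this
    · -- then `‖β0‖ ≤ ‖ζp - 1‖`-type bounds do not give norm one; use `‖ζp - 1‖ ≤ 1`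
      exfalso
      have h2 : ‖ζp - 1‖ ≤ 1 := by
        refine (norm_sub_le_max' _ _).trans (max_le (norm_zetap hζp).le (by rw [norm_one]))
      have h3 : ‖ζp - 1‖ = 1 := le_antisymm h2 (not_lt.mp hl)
      -- then `‖ζp^j - 1‖ = 1`, `‖σ β0 - β0‖ = ‖β0‖`, `‖1 - β0‖ < 1` forces `‖β0‖ = 1`: same
      have : ‖β0 - 1‖ < 1 := by rw [norm_sub_rev]; rw [h3] at hi; exact hi
      have hn1 := norm_eq_one_of_sub_one_lt this
      have h4 : ‖σ β0 - β0‖ = 1 := by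
        rw [hσj, show ζp ^ j * β0 - β0 = (ζp ^ j - 1) * β0 by ring, norm_mul, hn1, mul_one,
          norm_zetap_pow_sub_one hζp hpj, h3]
      have h5 : ‖σ β0 - β0‖ < 1 := by
        have h6 : σ β0 - β0 = σ (β0 - 1) - (β0 - 1) := by rw [map_sub, map_one]; ring
        rw [h6]
        refine (norm_sub_le_max' _ _).trans_lt (max_lt ?_ this)
        rw [hiso]; exact this
      exact absurd h4 h5.ne
  have h4 : ‖σ β0 - β0‖ = ‖ζp - 1‖ := by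
    rw [hσj, show ζp ^ j * β0 - β0 = (ζp ^ j - 1) * β0 by ring, norm_mul, hβ0norm, mul_one,
      norm_zetap_pow_sub_one hζp hpj]
  have h5 : ‖σ β0 - β0‖ < ‖ζp - 1‖ := by
    have h6 : σ β0 - β0 = σ (β0 - 1) - (β0 - 1) := by rw [map_sub, map_one]; ring
    have h7 : ‖β0 - 1‖ < ‖ζp - 1‖ := by rw [norm_sub_rev]; exact hi
    rw [h6]
    refine (norm_sub_le_max' _ _).trans_lt (max_lt ?_ h7)
    rw [hiso]; exact h7
  exact absurd h4 h5.ne

/-- **The top piece is unramified.** -/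
theorem root_fixed_of_inertia (H : Subgroup (Ω ≃ₐ[F] Ω))
    {ζp : Ω} (hζp : IsPrimitiveRoot ζp p) (hζK : ζp ∈ fixedSubfield H)
    (hp1 : ‖(p : Ω)‖ < 1) (hp0 : 0 < ‖(p : Ω)‖)
    {u : Ω} (huK : u ∈ fixedSubfield H) (hu : ‖u - 1‖ ≤ ‖ζp - 1‖ ^ p)
    {β : Ω} (hβ : β ^ p = u) {σ : Ω ≃ₐ[F] Ω} (hσ : σ ∈ H)
    (hσI : ∀ x : Ω, ‖x‖ ≤ 1 → ‖σ x - x‖ < 1) : σ β = β := by
  have hp0' : p ≠ 0 := hp.out.ne_zero
  have hlam1 : ‖ζp - 1‖ < 1 := norm_zetap_sub_one_lt hζp hp1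
  have hlam0 : 0 < ‖ζp - 1‖ := norm_zetap_sub_one_pos hζp hp0
  have hu1 : ‖u - 1‖ < 1 := hu.trans_lt (pow_lt_one₀ hlam0.le hlam1 hp0')
  have hunorm : ‖u‖ = 1 := norm_eq_one_of_sub_one_lt hu1
  have hu0 : u ≠ 0 := by rintro rfl; rw [norm_zero] at hunorm; exact zero_ne_one hunorm
  have hβnorm : ‖β‖ = 1 := by
    have : ‖β‖ ^ p = 1 := by rw [← norm_pow, hβ, hunorm]
    exact (pow_eq_one_iff_of_nonneg (norm_nonneg _) hp0').mp this
  -- all roots are within `‖ζp - 1‖` of `1`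
  have hclose : ‖β - 1‖ ≤ ‖ζp - 1‖ := by
    by_contra hfar
    rw [not_le] at hfar
    have hall : ∀ i ∈ range p, ‖1 - ζp ^ i * β‖ = ‖β - 1‖ := by
      intro i _
      have h1 : 1 - ζp ^ i * β = (1 - β) + (1 - ζp ^ i) * β := by ring
      have h2 : ‖(1 - ζp ^ i) * β‖ ≤ ‖ζp - 1‖ := by
        rw [norm_mul, hβnorm, mul_one, norm_sub_rev]
        exact norm_pow_sub_one_le (norm_zetap hζp).le i
      have h3 : ‖1 - β‖ ≠ ‖(1 - ζp ^ i) * β‖ := by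
        rw [norm_sub_rev]; exact (h2.trans_lt hfar).ne'
      rw [h1, IsUltrametricDist.norm_add_eq_max_of_norm_ne_norm h3, norm_sub_rev 1 β]
      exact max_eq_left (h2.trans hfar.le)
    have h4 : ‖∏ i ∈ range p, (1 - ζp ^ i * β)‖ = ‖β - 1‖ ^ p := by
      rw [norm_prod, prod_congr rfl hall, prod_const, card_range]
    rw [prod_one_sub_root hζp hβ, norm_sub_rev 1 u] at h4
    have h5 : ‖ζp - 1‖ ^ p < ‖β - 1‖ ^ p := pow_lt_pow_left₀ hfar hlam0.le hp0'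
    rw [← h4] at h5
    exact absurd hu (not_le.mpr h5)
  -- Galois action on `y = (β - 1)/(ζp - 1)`
  have hσu : σ u = u := huK σ hσ
  have hσβ : (σ β) ^ p = u := by rw [← map_pow, hβ, hσu]
  obtain ⟨j, -, hσj⟩ := root_eq_pow_mul hζp hβ hσβ hu0
  by_cases hpj : p ∣ j
  · obtain ⟨t, rfl⟩ := hpj
    rw [hσj, pow_mul, hζp.pow_eq_one, one_pow, one_mul]
  exfalso
  have hlamne : ζp - 1 ≠ 0 := fun h => by rw [h, norm_zero] at hlam0; exact lt_irrefl _ hlam0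
  set y := (β - 1) / (ζp - 1) with hy
  have hy1 : ‖y‖ ≤ 1 := by
    rw [hy, norm_div]
    exact div_le_one_of_le₀ hclose hlam0.le
  have hσlam : σ (ζp - 1) = ζp - 1 := by rw [map_sub, map_one, hζK σ hσ]
  have h1 : σ y - y = (ζp ^ j - 1) * β / (ζp - 1) := by
    rw [hy, map_div₀, hσlam, map_sub, map_one, hσj]
    field_simp
    ring
  have h2 : ‖σ y - y‖ = 1 := by
    rw [h1, norm_div, norm_mul, hβnorm, mul_one, norm_zetap_pow_sub_one hζp hpj,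
      div_self hlam0.ne']
  exact absurd h2 (hσI y hy1).ne

end Galois

end Fermat.Agent.TW.KumEigen
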