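import Fermat.Agent.TW.KumEigen.Descent

/-!
# PROGRAM G (S56), block F3-(f2) `KumEigen`: the unit filtration of `K₁` as subgroups

`KB D` : the units of `K₁` (inside `Additive Ωˣ`), `PB D = p • KB D` the `p`-th powers,
`levSub D m` : the units `u` of `K₁` with `‖u‖ = 1`, `‖u - 1‖ ≤ ρ^m`.  All are stable under the
Galois group.
-/

set_option autoImplicit false
set_option linter.unusedSectionVars false

namespace Fermat.Agent.TW.KumEigen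

variable {p : ℕ} [hp : Fact p.Prime] {F Ω : Type*} [Field F] [NormedField Ω] [Algebra F Ω]
  [IsUltrametricDist Ω] (D : TameData p F Ω)

/-- The units of `K₁`. -/
def KB : AddSubgroup (Additive Ωˣ) where
  carrier := {b | ((b.toMul : Ωˣ) : Ω) ∈ D.K}
  zero_mem' := by
    change (((0 : Additive Ωˣ).toMul : Ωˣ) : Ω) ∈ D.K
    simp [D.K.one_mem]
  add_mem' := by
    intro a b ha hb
    change (((a + b).toMul : Ωˣ) : Ω) ∈ D.K
    rw [toMul_add, Units.val_mul]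
    exact D.K.mul_mem ha hb
  neg_mem' := by
    intro a ha
    change (((-a).toMul : Ωˣ) : Ω) ∈ D.K
    rw [toMul_neg, Units.val_inv_eq_inv_val]
    exact D.K.inv_mem ha

theorem mem_KB {b : Additive Ωˣ} : b ∈ KB D ↔ ((b.toMul : Ωˣ) : Ω) ∈ D.K := Iff.rfl

/-- The `p`-th powers of units of `K₁`. -/
def PB : AddSubgroup (Additive Ωˣ) := (KB D).map (nsmulAddMonoidHom p)

theorem mem_PB {b : Additive Ωˣ} : b ∈ PB D ↔ ∃ c ∈ KB D, p • c = b := Iff.rfl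

theorem PB_le_KB : PB D ≤ KB D := by
  rintro b ⟨c, hc, rfl⟩
  exact (KB D).nsmul_mem hc p

/-- The units of `K₁` of level `≥ m`. -/
def levSub (m : ℕ) : AddSubgroup (Additive Ωˣ) where
  carrier := {b | ((b.toMul : Ωˣ) : Ω) ∈ D.K ∧ ‖((b.toMul : Ωˣ) : Ω)‖ = 1 ∧
    ‖((b.toMul : Ωˣ) : Ω) - 1‖ ≤ D.ρ ^ m}
  zero_mem' := by
    change (((0 : Additive Ωˣ).toMul : Ωˣ) : Ω) ∈ D.K ∧ _
    simp only [toMul_zero, Units.val_one, sub_self, norm_zero, norm_one, true_and]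
    exact ⟨D.K.one_mem, pow_nonneg D.ρ_pos.le _⟩
  add_mem' := by
    rintro a b ⟨ha, ha1, ham⟩ ⟨hb, hb1, hbm⟩
    change (((a + b).toMul : Ωˣ) : Ω) ∈ D.K ∧ _
    rw [toMul_add, Units.val_mul]
    refine ⟨D.K.mul_mem ha hb, by rw [norm_mul, ha1, hb1, one_mul], ?_⟩
    set u := ((a.toMul : Ωˣ) : Ω)
    set v := ((b.toMul : Ωˣ) : Ω)
    have h : u * v - 1 = u * (v - 1) + (u - 1) := by ring
    rw [h]
    refine (IsUltrametricDist.norm_add_le_max _ _).trans (max_le ?_ ham)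
    rw [norm_mul, ha1, one_mul]
    exact hbm
  neg_mem' := by
    rintro a ⟨ha, ha1, ham⟩
    change (((-a).toMul : Ωˣ) : Ω) ∈ D.K ∧ _
    rw [toMul_neg, Units.val_inv_eq_inv_val]
    set u := ((a.toMul : Ωˣ) : Ω)
    have hu0 : u ≠ 0 := Units.ne_zero _
    refine ⟨D.K.inv_mem ha, by rw [norm_inv, ha1, inv_one], ?_⟩
    have h : u⁻¹ - 1 = -(u - 1) * u⁻¹ := by field_simp; ring
    rw [h, norm_mul, norm_neg, norm_inv, ha1, inv_one, mul_one]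
    exact ham

theorem mem_levSub {m : ℕ} {b : Additive Ωˣ} : b ∈ levSub D m ↔
    ((b.toMul : Ωˣ) : Ω) ∈ D.K ∧ ‖((b.toMul : Ωˣ) : Ω)‖ = 1 ∧
      ‖((b.toMul : Ωˣ) : Ω) - 1‖ ≤ D.ρ ^ m := Iff.rfl

theorem mem_levSub_iff_isLev {m : ℕ} (hm : 1 ≤ m) {b : Additive Ωˣ} :
    b ∈ levSub D m ↔ IsLev D m b := by
  rw [mem_levSub, IsLev]
  constructor
  · rintro ⟨h1, -, h3⟩
    exact ⟨h1, h3⟩
  · rintro ⟨h1, h3⟩
    exact ⟨h1, norm_eq_one_of_sub_one_lt (h3.trans_lt (D.ρ_pow_lt_one hm)), h3⟩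

theorem levSub_le_KB (m : ℕ) : levSub D m ≤ KB D := fun _ hb => hb.1

theorem levSub_anti {m n : ℕ} (h : m ≤ n) : levSub D n ≤ levSub D m :=
  fun _ hb => ⟨hb.1, hb.2.1, hb.2.2.trans (D.ρ_pow_anti h)⟩

/-- Galois stability. -/
theorem unitEnd_mem_KB (g : Ω ≃ₐ[F] Ω) {b : Additive Ωˣ} (hb : b ∈ KB D) :
    unitEnd (g : Ω →+* Ω) b ∈ KB D := by
  rw [mem_KB] at hb ⊢
  have : (((unitEnd (g : Ω →+* Ω) b).toMul : Ωˣ) : Ω) = g ((b.toMul : Ωˣ) : Ω) := by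
    simp [unitEnd_apply]
  rw [this]
  exact D.map_mem_K g hb

theorem unitEnd_mem_PB (g : Ω ≃ₐ[F] Ω) {b : Additive Ωˣ} (hb : b ∈ PB D) :
    unitEnd (g : Ω →+* Ω) b ∈ PB D := by
  obtain ⟨c, hc, rfl⟩ := hb
  refine ⟨unitEnd (g : Ω →+* Ω) c, unitEnd_mem_KB D g hc, ?_⟩
  change p • unitEnd (g : Ω →+* Ω) c = unitEnd (g : Ω →+* Ω) (p • c)
  rw [map_nsmul]

theorem unitEnd_mem_levSub (g : Ω ≃ₐ[F] Ω) {m : ℕ} {b : Additive Ωˣ} (hb : b ∈ levSub D m) :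
    unitEnd (g : Ω →+* Ω) b ∈ levSub D m := by
  rw [mem_levSub] at hb ⊢
  have : (((unitEnd (g : Ω →+* Ω) b).toMul : Ωˣ) : Ω) = g ((b.toMul : Ωˣ) : Ω) := by
    simp [unitEnd_apply]
  rw [this]
  refine ⟨D.map_mem_K g hb.1, by rw [D.isom, hb.2.1], ?_⟩
  have h1 : g ((b.toMul : Ωˣ) : Ω) - 1 = g (((b.toMul : Ωˣ) : Ω) - 1) := by
    rw [map_sub, map_one]
  rw [h1, D.isom]
  exact hb.2.2

end Fermat.Agent.TW.KumEigen
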