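import Mathlib

/-!
# PROGRAM G (S56), block F3-(f2) `KumEigen`: operator bookkeeping (pure algebra)

* `aeval_prod_mem`: a subgroup of `N × B` stable under `(f, g)` is stable under `(Q(f), Q(g))`
  for every integer polynomial `Q`;
* `precomp E`: the endomorphism `lam ↦ lam ∘ E` of `N = (M →+ ZMod p)` induced by an
  endomorphism `E` of `M`, and `Q(precomp E) = precomp (Q(E))`;
* `exists_hom_of_rel`: a total additive relation `R ⊆ N × B` whose fibre over `0` is mapped
  into `S` by `ψ` induces a homomorphism `N → B ⧸ S`.
-/

set_option autoImplicit false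

open Polynomial

namespace Fermat.Agent.TW.KumEigen

section Stable

variable {N B : Type*} [AddCommGroup N] [AddCommGroup B]

/-- A subgroup of `N × B` stable under `(f, g)` is stable under `(Q(f), Q(g))`. -/
theorem aeval_prod_mem (R : AddSubgroup (N × B)) (f : Module.End ℤ N) (g : Module.End ℤ B)
    (hstab : ∀ x ∈ R, (f x.1, g x.2) ∈ R) (Q : ℤ[X]) :
    ∀ x ∈ R, (aeval f Q x.1, aeval g Q x.2) ∈ R := by
  induction Q using Polynomial.induction_on with
  | C a =>
    intro x hx
    simp only [aeval_C, Module.algebraMap_end_apply]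
    have : (a • x.1, a • x.2) = a • x := rfl
    rw [this]
    exact R.zsmul_mem hx a
  | add P Q hP hQ =>
    intro x hx
    simp only [map_add, LinearMap.add_apply]
    have : (aeval f P x.1 + aeval f Q x.1, aeval g P x.2 + aeval g Q x.2) =
        (aeval f P x.1, aeval g P x.2) + (aeval f Q x.1, aeval g Q x.2) := rfl
    rw [this]
    exact R.add_mem (hP x hx) (hQ x hx)
  | monomial n a h =>
    intro x hx
    have hpow : (C a * X ^ (n + 1) : ℤ[X]) = (C a * X ^ n) * X := by rw [pow_succ, mul_assoc]
    have e1 : aeval f (C a * X ^ n * X) = aeval f (C a * X ^ n) * f := by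
      rw [map_mul (aeval f) (C a * X ^ n) X, aeval_X]
    have e2 : aeval g (C a * X ^ n * X) = aeval g (C a * X ^ n) * g := by
      rw [map_mul (aeval g) (C a * X ^ n) X, aeval_X]
    rw [hpow, e1, e2]
    exact h _ (hstab x hx)

end Stable

section Precomp

variable {p : ℕ} {M : Type*} [AddCommGroup M]

/-- Precomposition with an endomorphism of `M` on the additive characters `M →+ ZMod p`. -/
def precomp (E : Module.End ℤ M) : Module.End ℤ (M →+ ZMod p) where
  toFun lam := lam.comp E.toAddMonoidHom
  map_add' lam lam' := by ext; rfl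
  map_smul' a lam := by ext; rfl

@[simp] theorem precomp_apply (E : Module.End ℤ M) (lam : M →+ ZMod p) (m : M) :
    precomp E lam m = lam (E m) := rfl

theorem precomp_one : precomp (p := p) (1 : Module.End ℤ M) = 1 := by
  ext lam m; rfl

theorem precomp_mul (E E' : Module.End ℤ M) :
    precomp (p := p) (E * E') = precomp E' * precomp E := by
  ext lam m; rfl

theorem precomp_add (E E' : Module.End ℤ M) :
    precomp (p := p) (E + E') = precomp E + precomp E' := by
  ext lam m
  simp [map_add]

theorem precomp_zsmul (a : ℤ) (E : Module.End ℤ M) :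
    precomp (p := p) (a • E) = a • precomp E := by
  ext lam m
  simp [map_zsmul]

theorem precomp_pow (E : Module.End ℤ M) (n : ℕ) :
    precomp (p := p) (E ^ n) = (precomp E) ^ n := by
  induction n with
  | zero => rw [pow_zero, pow_zero, precomp_one]
  | succ n ih => rw [pow_succ', precomp_mul, ih, pow_succ]

/-- `Q(precomp E) = precomp (Q(E))`. -/
theorem aeval_precomp (E : Module.End ℤ M) (Q : ℤ[X]) :
    aeval (precomp (p := p) E) Q = precomp (aeval E Q) := by
  induction Q using Polynomial.induction_on' with
  | add P Q hP hQ => rw [map_add, map_add, hP, hQ, precomp_add]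
  | monomial n a =>
    rw [aeval_monomial, aeval_monomial, ← precomp_pow]
    simp only [Module.algebraMap_end_eq_smul_id]
    ext lam m
    simp [map_zsmul]

/-- Precomposition with a bijective endomorphism is surjective. -/
theorem precomp_surjective {E : Module.End ℤ M} (hE : Function.Bijective E) :
    Function.Surjective (precomp (p := p) E) := by
  intro lam
  let e := LinearEquiv.ofBijective E hE
  refine ⟨lam.comp e.symm.toLinearMap.toAddMonoidHom, ?_⟩
  ext m
  change lam (e.symm (E m)) = lam m
  have : e.symm (E m) = m := e.symm_apply_apply m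
  rw [this]

theorem precomp_injective {E : Module.End ℤ M} (hE : Function.Surjective E) :
    Function.Injective (precomp (p := p) E) := by
  intro lam lam' h
  ext m
  obtain ⟨m', rfl⟩ := hE m
  exact congrArg (fun l : M →+ ZMod p => l m') h

end Precomp

section HomOfRel

variable {N B : Type*} [AddCommGroup N] [AddCommGroup B]

/-- A total additive relation whose fibre over `0` is mapped into `S` by `ψ` induces a
homomorphism `N → B ⧸ S`, `lam ↦ [ψ b]` for `(lam, b) ∈ R`. -/
theorem exists_hom_of_rel (R : AddSubgroup (N × B)) (S : AddSubgroup B) (ψ : B →+ B)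
    (htot : ∀ lam : N, ∃ b : B, (lam, b) ∈ R)
    (hzero : ∀ b : B, ((0 : N), b) ∈ R → ψ b ∈ S) :
    ∃ f : N →+ B ⧸ S, ∀ lam b, (lam, b) ∈ R → f lam = QuotientAddGroup.mk (ψ b) := by
  classical
  choose c hc using htot
  have hwd : ∀ lam b, (lam, b) ∈ R → (QuotientAddGroup.mk (ψ (c lam)) : B ⧸ S) =
      QuotientAddGroup.mk (ψ b) := by
    intro lam b hb
    rw [QuotientAddGroup.eq]
    have h1 : ((0 : N), -c lam + b) ∈ R := by
      have := R.add_mem (R.neg_mem (hc lam)) hb
      simpa using this
    have := hzero _ h1
    rwa [map_add, map_neg] at this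
  refine ⟨{ toFun := fun lam => QuotientAddGroup.mk (ψ (c lam))
            map_zero' := ?_
            map_add' := ?_ }, fun lam b hb => hwd lam b hb⟩
  · have h0 : ((0 : N), (0 : B)) ∈ R := R.zero_mem
    rw [hwd 0 0 h0, map_zero]
    rfl
  · intro lam lam'
    have h1 : (lam + lam', c lam + c lam') ∈ R := R.add_mem (hc lam) (hc lam')
    rw [hwd _ _ h1, map_add]
    rfl

end HomOfRel

end Fermat.Agent.TW.KumEigen
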