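import Fermat.Agent.TW.KumEigen.Allowed
import Fermat.Agent.TW.KumEigen.Ops

/-!
# PROGRAM G (S56), block F3-(f2) `KumEigen`: cocycles on `H` and the radical relation

`G = Gal(Ω/F)` acts on an abelian group `M` (`act : G →* Module.End ℤ M`), trivially on `H`.
For a `1`-cocycle `ξ : G → M`:

* `cocycle_conj`: `ξ (g σ g⁻¹) = g · ξ σ` for `σ ∈ H`;
* `cocycle_res_eq_zero_of_inertia`: if `M^G = 0` and `ξ` vanishes on the inertia elements of `H`
  then `ξ` vanishes on `H` (commutators are inert);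
* `radRel D ξ ⊆ (M →+ ZMod p) × Additive Ωˣ`: the pairs `(lam, β)` with `β` a radical of
  `(ξ, lam)`; it is a subgroup, its fibre over `0` is `K₁ˣ`, and it is stable under
  `(lam ↦ w • lam ∘ g⁻¹, β ↦ g β)` for `g ∈ G` with `g ζp = ζp ^ w`.
-/

set_option autoImplicit false
set_option linter.unusedSectionVars false
set_option linter.style.haveILetI false
set_option linter.unusedSimpArgs false

open Polynomial

namespace Fermat.Agent.TW.KumEigen

variable {p : ℕ} [hp : Fact p.Prime] {F Ω : Type*} [Field F] [NormedField Ω] [Algebra F Ω]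
  [IsUltrametricDist Ω] (D : TameData p F Ω) {M : Type*} [AddCommGroup M]

section Cocycle

variable (act : (Ω ≃ₐ[F] Ω) →* Module.End ℤ M) (ξ : (Ω ≃ₐ[F] Ω) → M)

theorem cocycle_one (hξ : ∀ g h, ξ (g * h) = act g (ξ h) + ξ g) : ξ 1 = 0 := by
  have := hξ 1 1
  simpa using this

theorem cocycle_conj (hH : ∀ σ ∈ D.H, act σ = 1)
    (hξ : ∀ g h, ξ (g * h) = act g (ξ h) + ξ g) (g : Ω ≃ₐ[F] Ω) {σ : Ω ≃ₐ[F] Ω} (hσ : σ ∈ D.H) :
    ξ (g * σ * g⁻¹) = act g (ξ σ) := by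
  have h1 : ξ (g * g⁻¹) = act g (ξ g⁻¹) + ξ g := hξ g g⁻¹
  rw [mul_inv_cancel, cocycle_one act ξ hξ] at h1
  rw [hξ (g * σ) g⁻¹, hξ g σ, map_mul, Module.End.mul_apply, hH σ hσ, Module.End.one_apply]
  have : act g (ξ g⁻¹) + (act g (ξ σ) + ξ g) = (act g (ξ g⁻¹) + ξ g) + act g (ξ σ) := by abel
  rw [this, ← h1, zero_add]

theorem cocycle_mul_of_mem (hH : ∀ σ ∈ D.H, act σ = 1)
    (hξ : ∀ g h, ξ (g * h) = act g (ξ h) + ξ g) {σ : Ω ≃ₐ[F] Ω} (hσ : σ ∈ D.H)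
    (σ' : Ω ≃ₐ[F] Ω) : ξ (σ * σ') = ξ σ' + ξ σ := by
  rw [hξ, hH σ hσ, Module.End.one_apply]

/-- The inertia elements. -/
def IsInert (σ : Ω ≃ₐ[F] Ω) : Prop := ∀ x : Ω, ‖x‖ ≤ 1 → ‖σ x - x‖ < 1

/-- If `M^G = 0` and `ξ` vanishes on the inertia elements of `H`, then `ξ` vanishes on `H`. -/
theorem cocycle_res_eq_zero_of_inertia (hH : ∀ σ ∈ D.H, act σ = 1)
    (hξ : ∀ g h, ξ (g * h) = act g (ξ h) + ξ g)
    (hinv : ∀ m : M, (∀ g, act g m = m) → m = 0)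
    (hI : ∀ σ ∈ D.H, IsInert σ → ξ σ = 0) : ∀ σ ∈ D.H, ξ σ = 0 := by
  intro σ hσ
  apply hinv
  intro g
  haveI := D.normal
  have hc : g * σ * g⁻¹ * σ⁻¹ ∈ D.H :=
    D.H.mul_mem (D.normal.conj_mem σ hσ g) (D.H.inv_mem hσ)
  have hcI : IsInert (g * σ * g⁻¹ * σ⁻¹) := fun x hx => D.comm_inertia g σ x hx
  have h0 := hI _ hc hcI
  have h1 : g * σ * g⁻¹ = (g * σ * g⁻¹ * σ⁻¹) * σ := by group
  have h2 := cocycle_conj D act ξ hH hξ g hσ
  rw [h1, cocycle_mul_of_mem D act ξ hH hξ hc σ, h0, add_zero] at h2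
  exact h2.symm

end Cocycle

section Zeta

/-- `ζp` as a unit. -/
noncomputable def zetaU : Ωˣ := Units.mk0 D.ζp (D.hζp.ne_zero hp.out.ne_zero)

theorem zetaU_pow : (zetaU D) ^ p = 1 := by
  apply Units.ext
  simp [zetaU, D.hζp.pow_eq_one]

/-- `a ↦ ζp ^ a` as an additive map `ZMod p →+ Additive Ωˣ`. -/
noncomputable def zetaHom : ZMod p →+ Additive Ωˣ :=
  ZMod.lift p ⟨zmultiplesHom (Additive Ωˣ) (Additive.ofMul (zetaU D)), by
    simp only [zmultiplesHom_apply, natCast_zsmul]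
    rw [← ofMul_pow, zetaU_pow]
    rfl⟩

theorem zetaHom_apply (a : ZMod p) :
    (((zetaHom D a).toMul : Ωˣ) : Ω) = D.ζp ^ a.val := by
  haveI : NeZero p := ⟨hp.out.ne_zero⟩
  have h1 : a = ((a.val : ℤ) : ZMod p) := by simp
  have h2 : zetaHom D a = (a.val : ℤ) • Additive.ofMul (zetaU D) := by
    conv_lhs => rw [h1]
    rw [zetaHom, ZMod.lift_coe]
    rfl
  rw [h2, natCast_zsmul, ← ofMul_pow]
  simp [zetaU]

theorem zetaHom_eq_zero_iff (a : ZMod p) : zetaHom D a = 0 ↔ a = 0 := by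
  haveI : NeZero p := ⟨hp.out.ne_zero⟩
  constructor
  · intro h
    have h1 := zetaHom_apply D a
    rw [h] at h1
    have h2 : D.ζp ^ a.val = 1 := by rw [← h1]; rfl
    have h3 : p ∣ a.val := (D.hζp.pow_eq_one_iff_dvd _).mp h2
    have h4 : a.val = 0 := Nat.eq_zero_of_dvd_of_lt h3 (ZMod.val_lt a)
    exact (ZMod.val_eq_zero a).mp h4
  · rintro rfl; exact map_zero _

/-- The Galois action on `zetaHom`. -/
theorem unitEnd_zetaHom (g : Ω ≃ₐ[F] Ω) {w : ℕ} (hw : g D.ζp = D.ζp ^ w) (a : ZMod p) :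
    unitEnd (g : Ω →+* Ω) (zetaHom D a) = zetaHom D ((w : ZMod p) * a) := by
  have h1 : unitEnd (g : Ω →+* Ω) (Additive.ofMul (zetaU D)) = w • Additive.ofMul (zetaU D) := by
    rw [unitEnd_apply, ← ofMul_pow]
    congr 1
    apply Units.ext
    simp only [toMul_ofMul, Units.coe_map, MonoidHom.coe_coe, RingHom.coe_coe, Units.val_pow_eq_pow_val]
    exact hw
  haveI : NeZero p := ⟨hp.out.ne_zero⟩
  have h2 : ∀ b : ZMod p, zetaHom D b = b.val • Additive.ofMul (zetaU D) := by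
    intro b
    have hb : b = ((b.val : ℤ) : ZMod p) := by simp
    conv_lhs => rw [hb]
    rw [zetaHom, ZMod.lift_coe, ← natCast_zsmul]
    rfl
  have h3 : (w : ZMod p) * a = w • a := by rw [nsmul_eq_mul]
  rw [h3, map_nsmul, h2 a, map_nsmul, h1, smul_comm]

end Zeta

section RadRel

variable (ξ : (Ω ≃ₐ[F] Ω) → M)

/-- The radical relation. -/
noncomputable def radRel : AddSubgroup ((M →+ ZMod p) × Additive Ωˣ) where
  carrier := {x | ∀ σ ∈ D.H, unitEnd (σ : Ω →+* Ω) x.2 = zetaHom D (x.1 (ξ σ)) + x.2}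
  zero_mem' σ _ := by simp
  add_mem' {x y} hx hy σ hσ := by
    simp only [Prod.fst_add, Prod.snd_add, AddMonoidHom.add_apply, map_add, hx σ hσ, hy σ hσ]
    abel
  neg_mem' {x} hx σ hσ := by
    simp only [Prod.fst_neg, Prod.snd_neg, AddMonoidHom.neg_apply, map_neg, hx σ hσ]
    abel

theorem mem_radRel {x : (M →+ ZMod p) × Additive Ωˣ} :
    x ∈ radRel D ξ ↔
      ∀ σ ∈ D.H, unitEnd (σ : Ω →+* Ω) x.2 = zetaHom D (x.1 (ξ σ)) + x.2 := Iff.rfl

theorem mem_radRel_iff_isRadical (lam : M →+ ZMod p) (b : Additive Ωˣ) :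
    (lam, b) ∈ radRel D ξ ↔ IsRadical D ξ lam ((b.toMul : Ωˣ) : Ω) := by
  rw [mem_radRel]
  constructor
  · intro h
    refine ⟨(b.toMul).ne_zero, fun σ hσ => ?_⟩
    have h1 := congrArg (fun c : Additive Ωˣ => ((c.toMul : Ωˣ) : Ω)) (h σ hσ)
    simp only [unitEnd_apply, toMul_ofMul, Units.coe_map, MonoidHom.coe_coe, RingHom.coe_coe,
      toMul_add, Units.val_mul, zetaHom_apply] at h1
    exact h1
  · rintro ⟨-, h⟩ σ hσ
    apply Additive.toMul.injective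
    apply Units.ext
    simp only [unitEnd_apply, toMul_ofMul, Units.coe_map, MonoidHom.coe_coe, RingHom.coe_coe,
      toMul_add, Units.val_mul, zetaHom_apply]
    exact h σ hσ

theorem zero_mem_radRel_iff (b : Additive Ωˣ) :
    ((0 : M →+ ZMod p), b) ∈ radRel D ξ ↔ ((b.toMul : Ωˣ) : Ω) ∈ D.K := by
  rw [mem_radRel]
  constructor
  · intro h σ hσ
    have h1 := congrArg (fun c : Additive Ωˣ => ((c.toMul : Ωˣ) : Ω)) (h σ hσ)
    simpa using h1
  · intro h σ hσ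
    apply Additive.toMul.injective
    apply Units.ext
    have := h σ hσ
    simpa using this

theorem unitEnd_mul (g h : Ω ≃ₐ[F] Ω) (b : Additive Ωˣ) :
    unitEnd ((g * h : Ω ≃ₐ[F] Ω) : Ω →+* Ω) b =
      unitEnd (g : Ω →+* Ω) (unitEnd (h : Ω →+* Ω) b) := by
  apply Additive.toMul.injective
  apply Units.ext
  simp [unitEnd_apply, AlgEquiv.mul_apply]

/-- **Equivariance of the radical relation.** -/
theorem radRel_stable (act : (Ω ≃ₐ[F] Ω) →* Module.End ℤ M) (hH : ∀ σ ∈ D.H, act σ = 1)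
    (hξ : ∀ g h, ξ (g * h) = act g (ξ h) + ξ g) (g : Ω ≃ₐ[F] Ω) {w : ℕ}
    (hw : g D.ζp = D.ζp ^ w) :
    ∀ x ∈ radRel D ξ,
      (precomp ((w : ℤ) • act g⁻¹) x.1, unitEnd (g : Ω →+* Ω) x.2) ∈ radRel D ξ := by
  intro x hx σ hσ
  haveI := D.normal
  have hσ' : g⁻¹ * σ * g ∈ D.H := by
    have := D.normal.conj_mem σ hσ g⁻¹
    simpa using this
  have h1 : σ * g = g * (g⁻¹ * σ * g) := by group
  have h2 : ξ (g⁻¹ * σ * g) = act g⁻¹ (ξ σ) := by
    have := cocycle_conj D act ξ hH hξ g⁻¹ hσ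
    simpa using this
  have h3 : (precomp ((w : ℤ) • act g⁻¹) x.1) (ξ σ) = (w : ZMod p) * x.1 (act g⁻¹ (ξ σ)) := by
    rw [precomp_apply, LinearMap.smul_apply, map_zsmul, zsmul_eq_mul, Int.cast_natCast]
  change unitEnd (σ : Ω →+* Ω) (unitEnd (g : Ω →+* Ω) x.2) =
    zetaHom D ((precomp ((w : ℤ) • act g⁻¹) x.1) (ξ σ)) + unitEnd (g : Ω →+* Ω) x.2
  rw [← unitEnd_mul, h1, unitEnd_mul, hx _ hσ', map_add, unitEnd_zetaHom D g hw, h2, h3]

end RadRel

end Fermat.Agent.TW.KumEigen
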