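import Mathlib

/-!
# PROGRAM G (S56), block F3-(f2) `KumEigen`: principal units of an ultrametric field

`Ω` an ultrametric normed field.  Units `u` with `‖u - 1‖ ≤ r < 1`, their "linear part" `u - 1`,
and the action of an integer polynomial `Q(τ)` of an isometric ring endomorphism `τ` on such units:
if `τ x ≡ z x` modulo `r'` on the elements of norm `≤ r` of a `τ`-stable subfield `K`, then
`Q(τ)·u - 1 ≡ Q(z) (u - 1)` modulo `r'` for the units `u` of `K` with `‖u - 1‖ ≤ r`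
(`r ^ 2 ≤ r' ≤ r`).
-/

set_option autoImplicit false
set_option linter.unusedSectionVars false

open Polynomial

namespace Fermat.Agent.TW.KumEigen

variable {Ω : Type*} [NormedField Ω] [IsUltrametricDist Ω]

theorem norm_sub_le_max' (x y : Ω) : ‖x - y‖ ≤ max ‖x‖ ‖y‖ := by
  have := IsUltrametricDist.norm_add_le_max x (-y)
  rwa [norm_neg, ← sub_eq_add_neg] at this

theorem norm_le_of_sub_le {x y : Ω} {r : ℝ} (hx : ‖x - y‖ ≤ r) (hy : ‖y‖ ≤ r) : ‖x‖ ≤ r := by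
  have h : x = (x - y) + y := by ring
  rw [h]
  exact (IsUltrametricDist.norm_add_le_max _ _).trans (max_le hx hy)

theorem norm_eq_one_of_sub_one_lt {u : Ω} (h : ‖u - 1‖ < 1) : ‖u‖ = 1 := by
  have h1 : u = (u - 1) + 1 := by ring
  have h2 : ‖u - 1‖ ≠ ‖(1 : Ω)‖ := by rw [norm_one]; exact h.ne
  rw [h1, IsUltrametricDist.norm_add_eq_max_of_norm_ne_norm h2, norm_one]
  exact max_eq_right h.le

theorem norm_intCast_le_one' (a : ℤ) : ‖(a : Ω)‖ ≤ 1 :=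
  IsUltrametricDist.norm_intCast_le_one Ω a

/-- `‖Q(z)‖ ≤ 1` for an integer polynomial `Q` and `‖z‖ ≤ 1`. -/
theorem norm_aeval_int_le_one {z : Ω} (hz : ‖z‖ ≤ 1) (Q : ℤ[X]) : ‖aeval z Q‖ ≤ 1 := by
  induction Q using Polynomial.induction_on with
  | C a =>
    rw [aeval_C]
    simpa using norm_intCast_le_one' (Ω := Ω) a
  | add P Q hP hQ =>
    rw [map_add]
    exact (IsUltrametricDist.norm_add_le_max _ _).trans (max_le hP hQ)
  | monomial n a h =>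
    rw [pow_succ, ← mul_assoc, map_mul, aeval_X, norm_mul]
    exact mul_le_one₀ h (norm_nonneg _) hz

section Lin

variable {r : ℝ}

/-- multiplicativity of the linear part -/
theorem norm_mul_sub_one_sub {u v : Ω} (hu : ‖u - 1‖ ≤ r) (hv : ‖v - 1‖ ≤ r) (hr0 : 0 ≤ r) :
    ‖(u * v - 1) - ((u - 1) + (v - 1))‖ ≤ r * r := by
  have h : (u * v - 1) - ((u - 1) + (v - 1)) = (u - 1) * (v - 1) := by ring
  rw [h, norm_mul]
  exact mul_le_mul hu hv (norm_nonneg _) hr0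

theorem norm_inv_sub_one_add {u : Ω} (hu : ‖u - 1‖ ≤ r) (hr1 : r < 1) :
    ‖(u⁻¹ - 1) + (u - 1)‖ ≤ r * r := by
  have hu1 : ‖u‖ = 1 := norm_eq_one_of_sub_one_lt (hu.trans_lt hr1)
  have hu0 : u ≠ 0 := by
    intro h; rw [h, norm_zero] at hu1; exact zero_ne_one hu1
  have h : (u⁻¹ - 1) + (u - 1) = (u - 1) * (u - 1) * u⁻¹ := by
    field_simp
    ring
  rw [h, norm_mul, norm_mul, norm_inv, hu1, inv_one, mul_one]
  exact mul_le_mul hu hu (norm_nonneg _) ((norm_nonneg _).trans hu)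

theorem norm_pow_sub_one_sub {u : Ω} (hu : ‖u - 1‖ ≤ r) (hr1 : r < 1) (n : ℕ) :
    ‖(u ^ n - 1) - (n : Ω) * (u - 1)‖ ≤ r * r ∧ ‖u ^ n - 1‖ ≤ r := by
  have hr0 : 0 ≤ r := (norm_nonneg _).trans hu
  have hrr : r * r ≤ r := by nlinarith
  induction n with
  | zero => simp [hr0, mul_nonneg hr0 hr0]
  | succ n ih =>
    obtain ⟨ih1, ih2⟩ := ih
    have h : (u ^ (n + 1) - 1) - ((n + 1 : ℕ) : Ω) * (u - 1) =
        ((u ^ n * u - 1) - ((u ^ n - 1) + (u - 1))) + ((u ^ n - 1) - (n : Ω) * (u - 1)) := by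
      push_cast
      ring
    have key : ‖(u ^ (n + 1) - 1) - ((n + 1 : ℕ) : Ω) * (u - 1)‖ ≤ r * r := by
      rw [h]
      exact (IsUltrametricDist.norm_add_le_max _ _).trans
        (max_le (norm_mul_sub_one_sub ih2 hu hr0) ih1)
    refine ⟨key, ?_⟩
    refine norm_le_of_sub_le (key.trans hrr) ?_
    rw [norm_mul]
    calc ‖((n + 1 : ℕ) : Ω)‖ * ‖u - 1‖ ≤ 1 * r :=
          mul_le_mul (IsUltrametricDist.norm_natCast_le_one Ω _) hu (norm_nonneg _) zero_le_one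
      _ = r := one_mul r

theorem norm_zpow_sub_one_sub {u : Ω} (hu : ‖u - 1‖ ≤ r) (hr1 : r < 1) (a : ℤ) :
    ‖(u ^ a - 1) - (a : Ω) * (u - 1)‖ ≤ r * r ∧ ‖u ^ a - 1‖ ≤ r := by
  have hr0 : 0 ≤ r := (norm_nonneg _).trans hu
  have hrr : r * r ≤ r := by nlinarith
  obtain ⟨n, rfl | rfl⟩ := a.eq_nat_or_neg
  · simpa using norm_pow_sub_one_sub hu hr1 n
  · obtain ⟨h1, h2⟩ := norm_pow_sub_one_sub hu hr1 n
    have h3 := norm_inv_sub_one_add h2 hr1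
    have h : (u ^ (-(n : ℤ)) - 1) - ((-(n : ℤ) : ℤ) : Ω) * (u - 1) =
        (((u ^ n)⁻¹ - 1) + (u ^ n - 1)) - ((u ^ n - 1) - (n : Ω) * (u - 1)) := by
      rw [zpow_neg, zpow_natCast]
      push_cast
      ring
    have key : ‖(u ^ (-(n : ℤ)) - 1) - ((-(n : ℤ) : ℤ) : Ω) * (u - 1)‖ ≤ r * r := by
      rw [h]
      exact (norm_sub_le_max' _ _).trans (max_le h3 h1)
    refine ⟨key, ?_⟩
    refine norm_le_of_sub_le (key.trans hrr) ?_
    rw [norm_mul]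
    calc ‖((-(n : ℤ) : ℤ) : Ω)‖ * ‖u - 1‖ ≤ 1 * r :=
          mul_le_mul (norm_intCast_le_one' _) hu (norm_nonneg _) zero_le_one
      _ = r := one_mul r

end Lin

/-- The `ℤ`-linear endomorphism of `Additive Ωˣ` induced by a ring endomorphism of `Ω`. -/
noncomputable def unitEnd (τ : Ω →+* Ω) : Module.End ℤ (Additive Ωˣ) :=
  (MonoidHom.toAdditive (Units.map (τ : Ω →* Ω))).toIntLinearMap

@[simp] theorem unitEnd_apply (τ : Ω →+* Ω) (b : Additive Ωˣ) :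
    unitEnd τ b = Additive.ofMul (Units.map (τ : Ω →* Ω) b.toMul) := rfl

/-- The unit `Q(τ)·u`. -/
noncomputable def polyAct (τ : Ω →+* Ω) (Q : ℤ[X]) (u : Ωˣ) : Ωˣ :=
  (aeval (unitEnd τ) Q (Additive.ofMul u)).toMul

theorem polyAct_C (τ : Ω →+* Ω) (a : ℤ) (u : Ωˣ) : polyAct τ (C a) u = u ^ a := by
  simp [polyAct]

theorem polyAct_add (τ : Ω →+* Ω) (P Q : ℤ[X]) (u : Ωˣ) :
    polyAct τ (P + Q) u = polyAct τ P u * polyAct τ Q u := by
  simp [polyAct]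

theorem polyAct_mul_X (τ : Ω →+* Ω) (P : ℤ[X]) (u : Ωˣ) :
    polyAct τ (P * X) u = polyAct τ P (Units.map (τ : Ω →* Ω) u) := by
  simp [polyAct, Module.End.mul_apply]

/-- **Linearisation of `Q(τ)` on principal units.** -/
theorem polyAct_lin (K : Subfield Ω) (τ : Ω →+* Ω) (hτiso : ∀ x, ‖τ x‖ = ‖x‖)
    (hτK : ∀ x ∈ K, τ x ∈ K) {z : Ω} (hz : ‖z‖ ≤ 1) {r r' : ℝ} (hr1 : r < 1) (hr' : r' ≤ r)
    (hrr : r * r ≤ r')
    (hTAU : ∀ x ∈ K, ‖x‖ ≤ r → ‖τ x - z * x‖ ≤ r') (Q : ℤ[X]) :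
    ∀ u : Ωˣ, (u : Ω) ∈ K → ‖(u : Ω) - 1‖ ≤ r →
      ((polyAct τ Q u : Ωˣ) : Ω) ∈ K ∧
      ‖(((polyAct τ Q u : Ωˣ) : Ω) - 1) - aeval z Q * ((u : Ω) - 1)‖ ≤ r' ∧
      ‖((polyAct τ Q u : Ωˣ) : Ω) - 1‖ ≤ r := by
  have aux : ∀ (Q : ℤ[X]) (u v : Ωˣ), ‖(u : Ω) - 1‖ ≤ r →
      ‖((v : Ω) - 1) - aeval z Q * ((u : Ω) - 1)‖ ≤ r' → ‖(v : Ω) - 1‖ ≤ r := by
    intro Q u v hu hv
    refine norm_le_of_sub_le (hv.trans hr') ?_
    rw [norm_mul]
    calc ‖aeval z Q‖ * ‖(u : Ω) - 1‖ ≤ 1 * r :=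
          mul_le_mul (norm_aeval_int_le_one hz Q) hu (norm_nonneg _) zero_le_one
      _ = r := one_mul r
  induction Q using Polynomial.induction_on with
  | C a =>
    intro u huK hu
    have h1 := norm_zpow_sub_one_sub hu hr1 a
    rw [polyAct_C]
    refine ⟨?_, ?_, ?_⟩
    · rw [Units.val_zpow_eq_zpow_val]; exact K.zpow_mem huK a
    · rw [Units.val_zpow_eq_zpow_val, aeval_C]
      simpa using h1.1.trans hrr
    · rw [Units.val_zpow_eq_zpow_val]; exact h1.2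
  | add P Q hP hQ =>
    intro u huK hu
    obtain ⟨p1, p2, p3⟩ := hP u huK hu
    obtain ⟨q1, q2, q3⟩ := hQ u huK hu
    have hr0 : 0 ≤ r := (norm_nonneg _).trans hu
    rw [polyAct_add]
    have key : ‖(((polyAct τ P u * polyAct τ Q u : Ωˣ) : Ω) - 1) -
        aeval z (P + Q) * ((u : Ω) - 1)‖ ≤ r' := by
      have h : (((polyAct τ P u * polyAct τ Q u : Ωˣ) : Ω) - 1) - aeval z (P + Q) * ((u : Ω) - 1) =
          ((((polyAct τ P u : Ωˣ) : Ω) * ((polyAct τ Q u : Ωˣ) : Ω) - 1) -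
            ((((polyAct τ P u : Ωˣ) : Ω) - 1) + (((polyAct τ Q u : Ωˣ) : Ω) - 1))) +
          (((((polyAct τ P u : Ωˣ) : Ω) - 1) - aeval z P * ((u : Ω) - 1)) +
            ((((polyAct τ Q u : Ωˣ) : Ω) - 1) - aeval z Q * ((u : Ω) - 1))) := by
        rw [Units.val_mul, map_add]
        ring
      rw [h]
      refine (IsUltrametricDist.norm_add_le_max _ _).trans (max_le ?_ ?_)
      · exact (norm_mul_sub_one_sub p3 q3 hr0).trans hrr
      · exact (IsUltrametricDist.norm_add_le_max _ _).trans (max_le p2 q2)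
    refine ⟨?_, key, aux _ u _ hu key⟩
    rw [Units.val_mul]
    exact K.mul_mem p1 q1
  | monomial n a h =>
    intro u huK hu
    have hτu : ((Units.map (τ : Ω →* Ω) u : Ωˣ) : Ω) = τ (u : Ω) := rfl
    have hτu1 : τ (u : Ω) - 1 = τ ((u : Ω) - 1) := by rw [map_sub, map_one]
    have hu1K : (u : Ω) - 1 ∈ K := K.sub_mem huK K.one_mem
    have hu' : ‖((Units.map (τ : Ω →* Ω) u : Ωˣ) : Ω) - 1‖ ≤ r := by
      rw [hτu, hτu1, hτiso]; exact hu
    obtain ⟨p1, p2, p3⟩ := h (Units.map (τ : Ω →* Ω) u) (by rw [hτu]; exact hτK _ huK) hu'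
    have hpow : (C a * X ^ (n + 1) : ℤ[X]) = (C a * X ^ n) * X := by rw [pow_succ, mul_assoc]
    rw [hpow, polyAct_mul_X]
    have key : ‖(((polyAct τ (C a * X ^ n) (Units.map (τ : Ω →* Ω) u) : Ωˣ) : Ω) - 1) -
        aeval z (C a * X ^ n * X) * ((u : Ω) - 1)‖ ≤ r' := by
      have h2 : (((polyAct τ (C a * X ^ n) (Units.map (τ : Ω →* Ω) u) : Ωˣ) : Ω) - 1) -
          aeval z (C a * X ^ n * X) * ((u : Ω) - 1) =
          ((((polyAct τ (C a * X ^ n) (Units.map (τ : Ω →* Ω) u) : Ωˣ) : Ω) - 1) -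
            aeval z (C a * X ^ n) * (((Units.map (τ : Ω →* Ω) u : Ωˣ) : Ω) - 1)) +
          aeval z (C a * X ^ n) * (τ ((u : Ω) - 1) - z * ((u : Ω) - 1)) := by
        rw [map_mul (aeval z) (C a * X ^ n) X, aeval_X, hτu, hτu1]
        ring
      rw [h2]
      refine (IsUltrametricDist.norm_add_le_max _ _).trans (max_le p2 ?_)
      rw [norm_mul]
      calc ‖aeval z (C a * X ^ n)‖ * ‖τ ((u : Ω) - 1) - z * ((u : Ω) - 1)‖ ≤ 1 * r' :=
            mul_le_mul (norm_aeval_int_le_one hz _) (hTAU _ hu1K hu) (norm_nonneg _) zero_le_one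
        _ = r' := one_mul r'
    exact ⟨p1, key, aux _ u _ hu key⟩

end Fermat.Agent.TW.KumEigen
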